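/-
S44 project, cell [G3] = [TOR] (`s44_Tor_stmt (s44_frame2 P M hpM)`; owner helper10).  Prefix `s44t_`.

**Definitions shared by the sub-cells of [TOR].**

Abstract setting = the abstract two-component semistable model `ss_Model π x σ σ0 P1 P2` of
`SS/CoreModel.lean` over a discrete valuation ring `A0` (uniformiser `π`), PLUS the arithmetic data at
the residue characteristic `p`:  `ζ ∈ A0` a `p`-th root of unity with `ζ - 1 = π ^ e · unit`
(so `p = π ^ ((p - 1) e) · unit`, étale depth `= p e` in `π`-units), `σ0 ζ = ζ ^ k`, perfect residue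
field.

* `s44t_PData π σ0 p e k ζ`  : the arithmetic data;
* `s44t_GlobForm π x p n f`  : `f = G ^ p (1 + π ^ n b)` with `b` in the semilocal Gauss ring
                               `O = sfc_O B₁₂ = V₁ ∩ V₂`  (GLOBAL split form);
* `s44t_LocForm π p e f B`   : at every closed point `𝔫` of the special fibre of the chart `B`:
                               `f = D ^ p (1 + π ^ (p e) H)` with `H ∈ B_𝔫`  (LOCAL étale form);
* `s44t_CoreAtP σ E V1 V2 p k c0` : THE `p`-CORE over a number field `(L, σ)` in the cover field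
                               `E ⊆ L((q))`: `g` with all orders divisible by `p`, rational zeros and
                               poles, split to depth `c0` at `V1` and `V2`  ⟹  `σ g = c r^p g^k`.
-/
import Mathlib
import Fermat.Agent.SS.Local.Main
import Fermat.Agent.SS.CoreSeam

set_option autoImplicit false

namespace Fermat.Agent.S44

open Fermat.Agent.SS Fermat.Agent.JT3 AlgebraicCurve ModularCurve

universe v

section Abs

variable {A0 : Type*} [CommRing A0] {F0 : Type v} [Field F0] [Algebra A0 F0]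

/-- **the arithmetic data at `p`** over the base `A0` with uniformiser `π`. -/
structure s44t_PData (π : A0) (σ0 : A0 ≃+* A0) (p e k : ℕ) (ζ : A0) : Prop where
  prime : p.Prime
  three_le : 3 ≤ p
  e_pos : 0 < e
  ζ_pow : ζ ^ p = 1
  /-- `ζ - 1 = π ^ e · unit` -/
  ζ_sub : ∃ u : A0ˣ, ζ - 1 = π ^ e * (u : A0)
  /-- `p = π ^ ((p - 1) e) · unit` -/
  p_eq : ∃ v : A0ˣ, (p : A0) = π ^ ((p - 1) * e) * (v : A0)
  σζ : σ0 ζ = ζ ^ k
  /-- the residue field of `A0` is perfect -/
  perf : ∀ c : A0, ∃ b : A0, π ∣ b ^ p - c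

/-- **global split form**: `f = G ^ p (1 + π ^ n b)`, `b` in the semilocal Gauss ring of the
overlap chart. -/
def s44t_GlobForm (π : A0) (x : F0) (p n : ℕ) (f : F0) : Prop :=
  ∃ G b : F0, G ≠ 0 ∧
    b ∈ sfc_O (fc_chart A0 ({x, x⁻¹} : Set F0)).toSubring (algebraMap A0 F0 π) ∧
    f = G ^ p * (1 + algebraMap A0 F0 π ^ n * b)

/-- **local étale form** on the chart `B`: at every closed point `𝔫` of the special fibre,
`f = D ^ p (1 + π ^ (p e) H)` with `H` in the local ring `B_𝔫`. -/
def s44t_LocForm (π : A0) (p e : ℕ) (f : F0) (B : Subalgebra A0 F0) : Prop :=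
  ∀ 𝔫 : Ideal B, 𝔫.IsMaximal → algebraMap A0 B π ∈ 𝔫 →
    ∃ (D H : F0) (s : B), D ≠ 0 ∧ s ∉ 𝔫 ∧ (s : F0) * H ∈ B ∧
      f = D ^ p * (1 + algebraMap A0 F0 π ^ (p * e) * H)

end Abs

section NF

variable {L : Type*} [Field L]

/-- **THE `p`-CORE** over `(L, σ)` in the cover field `E ⊆ L((q))` with its two Gauss valuation
rings `V1, V2`: for `g ∈ Eˣ` with all orders divisible by `p`, all zeros and poles `L`-rational,
and split to depth `c0` at `V1` and at `V2`:  `σ g = c · r ^ p · g ^ k`. -/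
def s44t_CoreAtP (σ : L ≃+* L) (E : IntermediateField L (LaurentSeries L))
    (V1 V2 : ValuationSubring E) (p k : ℕ) (c0 : L) : Prop :=
  ∀ g : E, g ≠ 0 →
    (∀ v : Place L E, (p : ℤ) ∣ v.ord g) →
    (∀ v : Place L E, v.ord g ≠ 0 → ss_RatPlace v) →
    (∃ G b : E, G ≠ 0 ∧ b ∈ V1 ∧ g = G ^ p * (1 + algebraMap L E c0 * b)) →
    (∃ G b : E, G ≠ 0 ∧ b ∈ V2 ∧ g = G ^ p * (1 + algebraMap L E c0 * b)) →
    ∃ (c : L) (r : LaurentSeries L), r ∈ E ∧ r ≠ 0 ∧
      coeffMap (σ : L →+* L) (g : LaurentSeries L) =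
        algebraMap L (LaurentSeries L) c * r ^ p * (g : LaurentSeries L) ^ k

end NF

end Fermat.Agent.S44
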