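/-
S44 project, cell [G3] = [TOR], SUB (T-ASM) 'core-p' (helper12), part 3.  Prefix `s44ta_`.
Namespace `Fermat.Agent.S44`.

**THE ABSTRACT `p`-CORE** `s44t_core_of_loc`: for an `ss_Model` over a discrete valuation ring with the
arithmetic data `s44t_PData` at `p`, a function `f ≠ 0` with the GLOBAL split form
`f = G ^ p (1 + ϖ ^ (p e + 1) b)` (`b` in the semilocal Gauss ring) and the LOCAL étale form
`f = D ^ p (1 + ϖ ^ (p e) H)`, `H ∈ B_𝔫`, at every closed point `𝔫` of the special fibre of both charts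
satisfies  `σ f = c · g ^ p · f ^ k`.

Proof: `h' := σ f / (f ^ k (σ G / G ^ k) ^ p) = σ (1 + ϖ ^ (p e + 1) b) / (1 + ϖ ^ (p e + 1) b) ^ k`
is `≡ 1 mod ϖ ^ (p e + 1) O` (`s44ta_glob_cong`), and has at every closed point the local shape
required by helper13's `s44s_main_factor2` (`s44ta_point`, `Tor/AsmLoc.lean`); so `h' = c g ^ p`.
-/
import Mathlib
import Fermat.Agent.S44.Tor.Defs
import Fermat.Agent.S44.Tor.AsmLoc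

set_option autoImplicit false
set_option linter.unusedSectionVars false
set_option linter.unusedVariables false

namespace Fermat.Agent.S44

open Fermat.Agent.JT3 Fermat.Agent.SS

universe v

section Glob

variable {F0 : Type v} [Field F0]

/-- `σ (1 + ϖ ^ n b) / (1 + ϖ ^ n b) ^ k ≡ 1 mod ϖ ^ n R` in a `σ`-stable ring `R` in which
`1 + ϖ R` consists of units and `σ ϖ = ϖ ε`. -/
theorem s44ta_glob_cong (R : Subring F0) (σ : F0 ≃+* F0) {ϖ ε : F0} (hϖ : ϖ ∈ R) (hε : ε ∈ R)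
    (hσϖ : σ ϖ = ϖ * ε) (hjac : ∀ y ∈ R, (1 + ϖ * y)⁻¹ ∈ R ∧ 1 + ϖ * y ≠ 0)
    (hσR : ∀ z ∈ R, σ z ∈ R) {n : ℕ} (hn : 0 < n) (k : ℕ) {b : F0} (hb : b ∈ R) :
    ∃ y ∈ R, σ (1 + ϖ ^ n * b) * ((1 + ϖ ^ n * b) ^ k)⁻¹ - 1 = ϖ ^ n * y := by
  obtain ⟨m, rfl⟩ := Nat.exists_eq_succ_of_ne_zero hn.ne'
  have hx : ϖ ^ (m + 1) * b ∈ R := R.mul_mem (R.pow_mem hϖ _) hb
  obtain ⟨t, ht, hexp⟩ := s44s_add_pow_head R R.one_mem hx k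
  rw [one_pow] at hexp
  have hU := hjac (ϖ ^ m * b * t) (R.mul_mem (R.mul_mem (R.pow_mem hϖ _) hb) ht)
  have hU' : 1 + ϖ * (ϖ ^ m * b * t) = (1 + ϖ ^ (m + 1) * b) ^ k := by
    rw [hexp, pow_succ']; ring
  rw [hU'] at hU
  refine ⟨(ε ^ (m + 1) * σ b - b * t) * ((1 + ϖ ^ (m + 1) * b) ^ k)⁻¹,
    R.mul_mem (R.sub_mem (R.mul_mem (R.pow_mem hε _) (hσR b hb)) (R.mul_mem hb ht)) hU.1, ?_⟩
  have h1 : σ (1 + ϖ ^ (m + 1) * b) = (1 + ϖ ^ (m + 1) * b) ^ k +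
      ϖ ^ (m + 1) * (ε ^ (m + 1) * σ b - b * t) := by
    rw [map_add, map_one, map_mul, map_pow, hσϖ, hexp]; ring
  have h2 := hU.2
  rw [h1]
  field_simp
  ring

end Glob

section Data

variable {A0 : Type*} [CommRing A0]

/-- the base data from `s44t_PData`. -/
theorem s44ta_base_of_pdata {π : A0} {σ0 : A0 ≃+* A0} {p e k : ℕ} {ζ : A0}
    (D : s44t_PData π σ0 p e k ζ) : ∃ u uinv w : A0, s44ta_Base π p e ζ u uinv w := by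
  obtain ⟨u, hu⟩ := D.ζ_sub
  obtain ⟨v, hv⟩ := D.p_eq
  refine ⟨u, ((u⁻¹ : A0ˣ) : A0), (ζ - 1) ^ (p - 2) * ((u⁻¹ : A0ˣ) : A0) ^ (p - 1) * v,
    ⟨D.prime, D.e_pos, D.ζ_pow, Units.mul_inv u, hu, ?_⟩⟩
  have h3 := D.three_le
  have hp1 : p - 1 = (p - 2) + 1 := by omega
  have h1 : (ζ - 1) * ((ζ - 1) ^ (p - 2) * ((u⁻¹ : A0ˣ) : A0) ^ (p - 1) * v) =
      (ζ - 1) ^ (p - 1) * ((u⁻¹ : A0ˣ) : A0) ^ (p - 1) * v := by
    rw [hp1, pow_succ (ζ - 1)]; ring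
  rw [h1, hv, hu, mul_pow, ← pow_mul, mul_comm e (p - 1)]
  have h2 : (u : A0) ^ (p - 1) * ((u⁻¹ : A0ˣ) : A0) ^ (p - 1) = 1 := by
    rw [← mul_pow, Units.mul_inv, one_pow]
  linear_combination (-(π ^ ((p - 1) * e) * (v : A0))) * h2

end Data

section Core

variable {A0 : Type*} [CommRing A0] [IsDomain A0] [IsDiscreteValuationRing A0]
  {F0 : Type v} [Field F0] [Algebra A0 F0]
  {π : A0} {x : F0} {σ : F0 ≃+* F0} {σ0 : A0 ≃+* A0}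
  {P1 P2 : Ideal (fc_chart A0 ({x, x⁻¹} : Set F0))}

/-- **(T-ASM) THE ABSTRACT `p`-CORE.** -/
theorem s44t_core_of_loc (hπ : Irreducible π) (M : ss_Model π x σ σ0 P1 P2) {p e k : ℕ} {ζ : A0}
    (D : s44t_PData π σ0 p e k ζ) {f : F0} (hf : f ≠ 0)
    (hglob : s44t_GlobForm π x p (p * e + 1) f)
    (hloc1 : s44t_LocForm π p e f (fc_chart A0 ({x} : Set F0)))
    (hloc2 : s44t_LocForm π p e f (fc_chart A0 ({x⁻¹} : Set F0))) :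
    ∃ (c : A0) (g : F0), g ≠ 0 ∧ σ f = algebraMap A0 F0 c * g ^ p * f ^ k := by
  have hAlg := M.isAlg
  have hN1 := ssa_noeth1 M
  have hP1 := M.prime1
  have hP2 := M.prime2
  have hx := ssa_x_ne_zero M
  have hϖF := ssa_pi_ne_zero M
  have C1 : s44ta_Comp π (fc_chart A0 ({x, x⁻¹} : Set F0)) P1 P2 := ⟨M.prime1, M.hrad, M.h21⟩
  have C2 : s44ta_Comp π (fc_chart A0 ({x, x⁻¹} : Set F0)) P2 P1 :=
    ⟨M.prime2, by rw [inf_comm]; exact M.hrad, M.h12⟩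
  obtain ⟨u, uinv, w, hbase⟩ := s44ta_base_of_pdata D
  obtain ⟨v, hv⟩ := D.p_eq
  have hσζ : σ (algebraMap A0 F0 ζ) = algebraMap A0 F0 ζ ^ k := by
    rw [M.σ_base, D.σζ, map_pow]
  have hσ12 : ∀ b ∈ fc_chart A0 ({x, x⁻¹} : Set F0), ∃ c ∈ fc_chart A0 ({x, x⁻¹} : Set F0),
      σ b - b = algebraMap A0 F0 π * c := fun b hb => ssa_sigma12 M hb
  have hord1 : ∀ G : F0, G ≠ 0 → ∃ (k : ℤ) (w : F0),
      w ∈ s44ta_V (fc_chart A0 ({x, x⁻¹} : Set F0)) P1 ∧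
      w⁻¹ ∈ s44ta_V (fc_chart A0 ({x, x⁻¹} : Set F0)) P1 ∧ G = algebraMap A0 F0 π ^ k * w :=
    fun G hG => s44ta_V_ord_abs (fc_chart1_le x) hx (fc_x_mem_chart x) ssa_xinv_mem12
      (fun z hz => fc_clear1 hx hz) hϖF C1 hG
  have hord2 : ∀ G : F0, G ≠ 0 → ∃ (k : ℤ) (w : F0),
      w ∈ s44ta_V (fc_chart A0 ({x, x⁻¹} : Set F0)) P2 ∧
      w⁻¹ ∈ s44ta_V (fc_chart A0 ({x, x⁻¹} : Set F0)) P2 ∧ G = algebraMap A0 F0 π ^ k * w :=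
    fun G hG => s44ta_V_ord_abs (fc_chart1_le x) hx (fc_x_mem_chart x) ssa_xinv_mem12
      (fun z hz => fc_clear1 hx hz) hϖF C2 hG
  obtain ⟨G, b, hG, hbO, hfG⟩ := hglob
  have hb1 := C1.V_of_O hbO
  have hb2 := C2.V_of_O hbO
  -- the global congruence
  obtain ⟨ε, hε⟩ := ssa_sigma_pi M
  have hσϖ : σ (algebraMap A0 F0 π) = algebraMap A0 F0 π * algebraMap A0 F0 (ε : A0) := by
    rw [M.σ_base, hε, map_mul]
  have hϖB : algebraMap A0 F0 π ∈ (fc_chart A0 ({x, x⁻¹} : Set F0)).toSubring :=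
    Subalgebra.algebraMap_mem _ π
  have hjacO : ∀ y ∈ sfc_O (fc_chart A0 ({x, x⁻¹} : Set F0)).toSubring (algebraMap A0 F0 π),
      (1 + algebraMap A0 F0 π * y)⁻¹ ∈
        sfc_O (fc_chart A0 ({x, x⁻¹} : Set F0)).toSubring (algebraMap A0 F0 π) ∧
      1 + algebraMap A0 F0 π * y ≠ 0 := by
    intro y hy
    refine ⟨sfc_jac hϖB M.hnu hy, fun h0 =>
      sfc_pi_inv_not_mem (R := (fc_chart A0 ({x, x⁻¹} : Set F0)).toSubring) M.hnu ?_⟩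
    have : (algebraMap A0 F0 π)⁻¹ = -y :=
      inv_eq_of_mul_eq_one_right (by linear_combination -h0)
    rw [this]; exact neg_mem hy
  have hσf0 : σ f ≠ 0 := (map_ne_zero σ).2 hf
  have hσG0 : σ G ≠ 0 := (map_ne_zero σ).2 hG
  have hU0 : 1 + algebraMap A0 F0 π ^ (p * e + 1) * b ≠ 0 := by
    intro h; apply hf; rw [hfG, h, mul_zero]
  have h4a : ∃ y ∈ sfc_O (fc_chart A0 ({x, x⁻¹} : Set F0)).toSubring (algebraMap A0 F0 π),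
      σ f * (f ^ k)⁻¹ * ((σ G * (G ^ k)⁻¹) ^ p)⁻¹ - 1 =
        algebraMap A0 F0 π ^ (p * e + 1) * y := by
    obtain ⟨y, hy, h⟩ := s44ta_glob_cong _ σ (sfc_le_O hϖB)
      (sfc_le_O (Subalgebra.algebraMap_mem _ (ε : A0))) hσϖ hjacO
      (fun z hz => ssa_sigma_mem_O M hz) (Nat.succ_pos (p * e)) k hbO
    refine ⟨y, hy, ?_⟩
    rw [← h]
    have hσf : σ f = (σ G) ^ p * σ (1 + algebraMap A0 F0 π ^ (p * e + 1) * b) := by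
      conv_lhs => rw [hfG]
      rw [map_mul, map_pow]
    rw [hσf]
    conv_lhs => rw [hfG]
    generalize σ (1 + algebraMap A0 F0 π ^ (p * e + 1) * b) = S
    generalize 1 + algebraMap A0 F0 π ^ (p * e + 1) * b = U at hU0
    generalize σ G = a at hσG0
    have hUk : U ^ k ≠ 0 := pow_ne_zero _ hU0
    simp only [mul_pow, inv_pow, mul_inv, inv_inv, ← pow_mul]
    field_simp
    ring
  -- the local data
  have hl1 : ∀ 𝔫 : Ideal (fc_chart A0 ({x} : Set F0)), 𝔫.IsMaximal →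
      algebraMap A0 (fc_chart A0 ({x} : Set F0)) π ∈ 𝔫 →
      ∃ (r y : F0) (s : fc_chart A0 ({x} : Set F0)), s ∉ 𝔫 ∧
        (s : F0) * y ∈ fc_chart A0 ({x} : Set F0) ∧ r ≠ 0 ∧
        σ f * (f ^ k)⁻¹ * ((σ G * (G ^ k)⁻¹) ^ p)⁻¹ =
          (1 + algebraMap A0 F0 π ^ (p * e + 1) * y) * r ^ p ∧
        (∃ s₁ : fc_chart A0 ({x} : Set F0), s₁ ∉ 𝔫 ∧
          ∃ y₁ ∈ s44ta_V (fc_chart A0 ({x, x⁻¹} : Set F0)) P1,
          (s₁ : F0) * (r⁻¹ - 1) = algebraMap A0 F0 π ^ (e + 1) * y₁) ∧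
        (∃ s₂ : fc_chart A0 ({x} : Set F0), s₂ ∉ 𝔫 ∧
          ∃ y₂ ∈ s44ta_V (fc_chart A0 ({x, x⁻¹} : Set F0)) P2,
          (s₂ : F0) * (r⁻¹ - 1) = algebraMap A0 F0 π ^ (e + 1) * y₂) := by
    intro 𝔫 h𝔫 hπ𝔫
    have h𝔫p := h𝔫.isPrime
    obtain ⟨D', H, s, hD', hs, hsH, hfD⟩ := hloc1 𝔫 h𝔫 hπ𝔫
    exact s44ta_point (fc_chart1_le x) hϖF hbase σ hσζ C1 C2 M.σ_triv1 hσ12 hord1 hord2 𝔫 hπ𝔫 hf hG
      hb1 hb2 hfG hD' ⟨s, hs, hsH⟩ hfD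
  have hl2 : ∀ 𝔫 : Ideal (fc_chart A0 ({x⁻¹} : Set F0)), 𝔫.IsMaximal →
      algebraMap A0 (fc_chart A0 ({x⁻¹} : Set F0)) π ∈ 𝔫 →
      ∃ (r y : F0) (s : fc_chart A0 ({x⁻¹} : Set F0)), s ∉ 𝔫 ∧
        (s : F0) * y ∈ fc_chart A0 ({x⁻¹} : Set F0) ∧ r ≠ 0 ∧
        σ f * (f ^ k)⁻¹ * ((σ G * (G ^ k)⁻¹) ^ p)⁻¹ =
          (1 + algebraMap A0 F0 π ^ (p * e + 1) * y) * r ^ p ∧
        (∃ s₁ : fc_chart A0 ({x⁻¹} : Set F0), s₁ ∉ 𝔫 ∧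
          ∃ y₁ ∈ s44ta_V (fc_chart A0 ({x, x⁻¹} : Set F0)) P1,
          (s₁ : F0) * (r⁻¹ - 1) = algebraMap A0 F0 π ^ (e + 1) * y₁) ∧
        (∃ s₂ : fc_chart A0 ({x⁻¹} : Set F0), s₂ ∉ 𝔫 ∧
          ∃ y₂ ∈ s44ta_V (fc_chart A0 ({x, x⁻¹} : Set F0)) P2,
          (s₂ : F0) * (r⁻¹ - 1) = algebraMap A0 F0 π ^ (e + 1) * y₂) := by
    intro 𝔫 h𝔫 hπ𝔫
    have h𝔫p := h𝔫.isPrime
    obtain ⟨D', H, s, hD', hs, hsH, hfD⟩ := hloc2 𝔫 h𝔫 hπ𝔫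
    exact s44ta_point (fc_chart2_le x) hϖF hbase σ hσζ C1 C2 M.σ_triv2 hσ12 hord1 hord2 𝔫 hπ𝔫 hf hG
      hb1 hb2 hfG hD' ⟨s, hs, hsH⟩ hfD
  obtain ⟨c, g, hg, hh⟩ := s44s_main_factor2 π hx p e D.prime (v : A0) ((v⁻¹ : A0ˣ) : A0) hv
    (Units.mul_inv v) (σ f * (f ^ k)⁻¹ * ((σ G * (G ^ k)⁻¹) ^ p)⁻¹) M.hfin1 M.hnu M.hxS1 M.hxS2
    (s44ta_V (fc_chart A0 ({x, x⁻¹} : Set F0)) P1) (s44ta_V (fc_chart A0 ({x, x⁻¹} : Set F0)) P2)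
    (fun z hz => s44ta_V_of_mem hz) (fun z hz => s44ta_V_of_mem hz)
    (fun y h1 h2 => ssa_mem_O_of_two P1 P2 M.hrad M.h12 M.h21 h1 h2) hl1 hl2 h4a M.hH0
  have hR0 : σ G * (G ^ k)⁻¹ ≠ 0 := mul_ne_zero hσG0 (inv_ne_zero (pow_ne_zero _ hG))
  refine ⟨c, g * (σ G * (G ^ k)⁻¹), mul_ne_zero hg hR0, ?_⟩
  have hfk : f ^ k ≠ 0 := pow_ne_zero _ hf
  have hRp : (σ G * (G ^ k)⁻¹) ^ p ≠ 0 := pow_ne_zero _ hR0
  rw [mul_pow, ← mul_assoc, ← hh]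
  field_simp

end Core

end Fermat.Agent.S44
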