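/-
S44 project, cell [G3] = [TOR], SUB (T-LOC) (helper16).  Prefix `s44tl_`.

**The abstract end-game of the local étale form at a closed point.**

`S` a noetherian integrally closed local domain (the local ring `B_𝔫` of a chart at a closed point of
the special fibre), `F = Frac S`, `π ∈ 𝔪_S`; `𝔮 i` the vertical primes of height one through the
point, with branch data `s44g_Branches` for the branch rings `S_{𝔮 i} ⊆ F`.

* `s44tl_unitAt_one_add` : `1 + π ^ n y` is a unit at a prime `𝔮 ∋ π` when `y ∈ S_𝔮`, `n ≥ 1`;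
* `s44tl_unitAt_of_pow`  : `z ^ p` a unit at a prime of height one ⟹ `z` a unit there;
* `s44tl_assemble`       : if `f = E ^ p ε` with `ε ∈ Sˣ` and `f = G ^ p (1 + π ^ n y)`, `n ≥ p m`, with
                           `y ∈ S_{𝔮 i}` for all `i`, then `f = D ^ p (1 + π ^ (p m) H)` with `H ∈ S`
                           ([G1] depth induction `s44g_ind_top` + uniqueness of the constant
                           `s44g_loc_const`).
-/
import Mathlib
import Fermat.Agent.SS.Local.Height1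
import Fermat.Agent.S44.Etale.InstAt

set_option autoImplicit false
set_option linter.unusedSectionVars false
set_option linter.style.haveILetI false

namespace Fermat.Agent.S44

open Fermat.Agent.SS IsLocalRing

universe u v

section

variable {S : Type u} [CommRing S] [IsDomain S] [IsNoetherianRing S] [IsIntegrallyClosed S]
  {F : Type v} [Field F] [Algebra S F] [IsFractionRing S F]

omit [IsNoetherianRing S] [IsIntegrallyClosed S] in
/-- `1 + π ^ n y` is a unit at a prime containing `π`. -/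
theorem s44tl_unitAt_one_add (𝔮 : Ideal S) [𝔮.IsPrime] {π : S} (hπ : π ∈ 𝔮) {n : ℕ}
    (hn : 0 < n) {y : F} (hy : ssl_MemAt F 𝔮 y) :
    ssl_UnitAt F 𝔮 (1 + algebraMap S F π ^ n * y) := by
  obtain ⟨a, s, hs, h⟩ := hy
  refine ⟨s + π ^ n * a, s, ?_, hs, ?_⟩
  · intro hm
    apply hs
    have h2 : π ^ n * a ∈ 𝔮 := Ideal.mul_mem_right _ _ (Ideal.pow_mem_of_mem _ hπ n hn)
    have h3 := Ideal.sub_mem _ hm h2
    rwa [add_sub_cancel_right] at h3
  · rw [map_add, map_mul, map_pow, ← h]; ring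

omit [IsNoetherianRing S] [IsIntegrallyClosed S] in
/-- a unit of `S` is a unit at every prime. -/
theorem s44tl_unitAt_unit (𝔮 : Ideal S) [h𝔮 : 𝔮.IsPrime] (ε : Sˣ) :
    ssl_UnitAt F 𝔮 (algebraMap S F (ε : S)) :=
  ssl_unitAt_algebraMap 𝔮 fun hm => h𝔮.ne_top (Ideal.eq_top_of_isUnit_mem _ hm ε.isUnit)

/-- `z ^ p` a unit at a prime of height one ⟹ `z` a unit there. -/
theorem s44tl_unitAt_of_pow (𝔮 : Ideal S) [h𝔮 : 𝔮.IsPrime] (h1 : 𝔮.height = 1) {z : F} {p : ℕ}
    (hp : 0 < p) (h : ssl_UnitAt F 𝔮 (z ^ p)) : ssl_UnitAt F 𝔮 z := by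
  rw [← ssl_vUnit_valAt 𝔮 h1] at h ⊢
  obtain ⟨h0, hmem, hinv⟩ := h
  have hz0 : z ≠ 0 := fun hz => h0 (by rw [hz, zero_pow hp.ne'])
  obtain ⟨q, rfl⟩ : ∃ q, p = q + 1 := ⟨p - 1, by omega⟩
  set V := ssl_valAt (F := F) 𝔮 h1
  rcases V.mem_or_inv_mem z with hz | hz
  · refine ⟨hz0, hz, ?_⟩
    have : z⁻¹ = z ^ q * (z ^ (q + 1))⁻¹ := by
      rw [pow_succ]; field_simp
    rw [this]
    exact V.mul_mem _ _ (V.pow_mem hz q) hinv
  · refine ⟨hz0, ?_, hz⟩
    have : z = z⁻¹ ^ q * z ^ (q + 1) := by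
      rw [pow_succ, inv_pow]; field_simp
    rw [this]
    exact V.mul_mem _ _ (V.pow_mem hz q) hmem

variable [IsLocalRing S]

/-- **the end-game**: from `f = E ^ p · unit` and the split form on the vertical branches to the
local étale form. -/
theorem s44tl_assemble {O : Subring S} {π w : S} {p m : ℕ} {ι : Type*} (𝔮 : ι → Ideal S)
    [h𝔮 : ∀ i, (𝔮 i).IsPrime] (h1 : ∀ i, (𝔮 i).height = 1) (hπ𝔮 : ∀ i, π ∈ 𝔮 i)
    (Br : s44g_Branches O π w p m (fun i => ssl_locSub F (𝔮 i))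
      (fun i => algebraMap S (ssl_locSub F (𝔮 i))))
    {n : ℕ} (hn : p * m ≤ n) {f E G y : F} (ε : Sˣ) (hE : E ≠ 0)
    (hy : ∀ i, ssl_MemAt F (𝔮 i) y)
    (hfE : f = E ^ p * algebraMap S F (ε : S))
    (hfG : f = G ^ p * (1 + algebraMap S F π ^ n * y)) :
    ∃ (D : F) (H : S), D ≠ 0 ∧
      f = D ^ p * (1 + algebraMap S F π ^ (p * m) * algebraMap S F H) := by
  have hp := Br.prime
  have hpm : 0 < p * m := Nat.mul_pos hp.pos Br.m_pos
  have hn0 : 0 < n := lt_of_lt_of_le hpm hn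
  set g : F := G / E with hg
  have hEp : E ^ p ≠ 0 := pow_ne_zero p hE
  -- `ε = g ^ p (1 + π ^ n y)`
  have hεg : algebraMap S F (ε : S) = g ^ p * (1 + algebraMap S F π ^ n * y) := by
    have h2 : E ^ p * algebraMap S F (ε : S) = G ^ p * (1 + algebraMap S F π ^ n * y) := by
      rw [← hfE, hfG]
    rw [hg, div_pow]
    field_simp
    rw [mul_comm, h2]
  have hU : ∀ i, ssl_UnitAt F (𝔮 i) (1 + algebraMap S F π ^ n * y) := fun i =>
    s44tl_unitAt_one_add (𝔮 i) (hπ𝔮 i) hn0 (hy i)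
  have hgU : ∀ i, ssl_UnitAt F (𝔮 i) g := by
    intro i
    apply s44tl_unitAt_of_pow (𝔮 i) (h1 i) hp.pos
    have h3 : g ^ p = algebraMap S F (ε : S) / (1 + algebraMap S F π ^ n * y) := by
      rw [hεg, mul_div_assoc, div_self (ssl_unitAt_ne_zero (𝔮 i) (hU i)), mul_one]
    rw [h3]
    exact ssl_unitAt_div (𝔮 i) (s44tl_unitAt_unit (𝔮 i) ε) (hU i)
  have hgmem : ∀ i, g ∈ ssl_locSub F (𝔮 i) := fun i =>
    (ssl_mem_locSub (𝔮 i) g).2 (ssl_memAt_of_unitAt (𝔮 i) (hgU i))
  have hrmem : ∀ i, algebraMap S F (π ^ (n - p * m)) * y ∈ ssl_locSub F (𝔮 i) := fun i =>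
    (ssl_mem_locSub (𝔮 i) _).2 (ssl_memAt_mul (𝔮 i) (ssl_memAt_algebraMap (𝔮 i) _) (hy i))
  have hpow : algebraMap S F π ^ n =
      algebraMap S F π ^ (p * m) * algebraMap S F (π ^ (n - p * m)) := by
    rw [map_pow, ← pow_add, Nat.add_sub_cancel' hn]
  -- the split forms on the branches
  have hsplit : ∀ i, s44g_Split O π p (p * m) (algebraMap S (ssl_locSub F (𝔮 i))) (ε : S) := by
    intro i
    refine ⟨1, O.one_mem, 1, O.one_mem, one_mul 1, ⟨g, hgmem i⟩,
      ⟨algebraMap S F (π ^ (n - p * m)) * y, hrmem i⟩, ?_⟩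
    apply Subtype.ext
    show algebraMap S F (ε : S) = algebraMap S F 1 * g ^ p *
      (1 + algebraMap S F π ^ (p * m) * (algebraMap S F (π ^ (n - p * m)) * y))
    rw [map_one, one_mul, hεg, hpow, mul_assoc]
  obtain ⟨C, hC, C', hC', hCC, d, H, hd, hεC⟩ := s44g_ind_top Br ε.isUnit hsplit
  obtain ⟨d', hdd⟩ := isUnit_iff_exists_inv.1 hd
  -- `1 + π ^ (p m) H` is a unit of `S`
  have hπmax : π ^ (p * m) * H ∈ maximalIdeal S :=
    Ideal.mul_mem_right _ _ (Ideal.pow_mem_of_mem _ Br.π_max _ hpm)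
  have hη : IsUnit (1 + π ^ (p * m) * H) := by
    by_contra hnu
    have h4 : (1 + π ^ (p * m) * H) ∈ maximalIdeal S := (mem_maximalIdeal _).2 hnu
    have h5 := Ideal.sub_mem _ h4 hπmax
    rw [add_sub_cancel_right] at h5
    exact (mem_maximalIdeal _).1 h5 isUnit_one
  obtain ⟨η', hηη⟩ := isUnit_iff_exists_inv.1 hη
  -- the constant on a branch
  obtain ⟨i0⟩ := Br.nonempty
  have hdF : algebraMap S F d * algebraMap S F d' = 1 := by rw [← map_mul, hdd, map_one]
  have hηF : algebraMap S F (1 + π ^ (p * m) * H) * algebraMap S F η' = 1 := by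
    rw [← map_mul, hηη, map_one]
  have hd0 : algebraMap S F d ≠ 0 := left_ne_zero_of_mul_eq_one hdF
  have hη0 : algebraMap S F (1 + π ^ (p * m) * H) ≠ 0 := left_ne_zero_of_mul_eq_one hηF
  set r' : F := (algebraMap S F (π ^ (n - p * m)) * y - algebraMap S F H) * algebraMap S F η'
    with hr'
  have hr'mem : r' ∈ ssl_locSub F (𝔮 i0) := by
    refine Subalgebra.mul_mem _ (Subalgebra.sub_mem _ (hrmem i0) ?_) ?_
    · exact Subalgebra.algebraMap_mem _ _
    · exact Subalgebra.algebraMap_mem _ _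
  have hg'mem : g * algebraMap S F d' ∈ ssl_locSub F (𝔮 i0) :=
    Subalgebra.mul_mem _ (hgmem i0) (Subalgebra.algebraMap_mem _ _)
  have hεF : algebraMap S F (ε : S) = algebraMap S F C * algebraMap S F d ^ p *
      algebraMap S F (1 + π ^ (p * m) * H) := by
    rw [hεC]; simp only [map_mul, map_pow]
  have hCeq : algebraMap S F C = (g * algebraMap S F d') ^ p *
      (1 + algebraMap S F π ^ (p * m) * r') := by
    have e1 : algebraMap S F d' = (algebraMap S F d)⁻¹ := eq_inv_of_mul_eq_one_right hdF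
    have e2 : algebraMap S F η' = (algebraMap S F (1 + π ^ (p * m) * H))⁻¹ :=
      eq_inv_of_mul_eq_one_right hηF
    have e3 : algebraMap S F (1 + π ^ (p * m) * H) =
        1 + algebraMap S F π ^ (p * m) * algebraMap S F H := by
      simp only [map_add, map_one, map_mul, map_pow]
    have e4 : 1 + algebraMap S F π ^ (p * m) * r' =
        (1 + algebraMap S F π ^ n * y) * (algebraMap S F (1 + π ^ (p * m) * H))⁻¹ := by
      rw [hr', e2, hpow]
      rw [e3] at hη0 ⊢
      field_simp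
      ring
    rw [e4, mul_pow, e1, inv_pow]
    have h6 : g ^ p * (1 + algebraMap S F π ^ n * y) = algebraMap S F C *
        algebraMap S F d ^ p * algebraMap S F (1 + π ^ (p * m) * H) := by
      rw [← hεg, hεF]
    have hdp : algebraMap S F d ^ p ≠ 0 := pow_ne_zero p hd0
    field_simp
    exact h6.symm
  have L := Br.loc i0
  obtain ⟨b, hb, o, ho, hbo⟩ := s44g_loc_const L
    (c := algebraMap S (ssl_locSub F (𝔮 i0)) C) (c' := algebraMap S (ssl_locSub F (𝔮 i0)) C')
    (g := ⟨g * algebraMap S F d', hg'mem⟩) (r := ⟨r', hr'mem⟩)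
    (Subring.mem_map.2 ⟨C, hC, rfl⟩) (Subring.mem_map.2 ⟨C', hC', rfl⟩)
    (by rw [← map_mul, hCC, map_one]) (Subtype.ext hCeq)
  obtain ⟨b0, hb0, rfl⟩ := Subring.mem_map.1 hb
  obtain ⟨o0, ho0, rfl⟩ := Subring.mem_map.1 ho
  have hCbo : C = b0 ^ p + π ^ (p * m) * o0 := by
    apply IsFractionRing.injective S F
    have := congrArg (fun t : ssl_locSub F (𝔮 i0) => (t : F)) hbo
    simp only [map_add, map_mul, map_pow]
    exact this
  -- `b0` is a unit
  have hCu : IsUnit C := isUnit_iff_exists_inv.2 ⟨C', hCC⟩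
  have hb0u : IsUnit b0 := by
    by_contra hnu
    have h7 : b0 ^ p ∈ maximalIdeal S :=
      Ideal.pow_mem_of_mem _ ((mem_maximalIdeal _).2 hnu) p hp.pos
    have h8 : C ∈ maximalIdeal S := by
      rw [hCbo]
      exact Ideal.add_mem _ h7
        (Ideal.mul_mem_right _ _ (Ideal.pow_mem_of_mem _ Br.π_max _ hpm))
    exact (mem_maximalIdeal _).1 h8 hCu
  obtain ⟨β, hβ⟩ := isUnit_iff_exists_inv.1 hb0u
  refine ⟨E * algebraMap S F b0 * algebraMap S F d,
    o0 * β ^ p + H + π ^ (p * m) * (o0 * β ^ p) * H, ?_, ?_⟩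
  · have hb00 : algebraMap S F b0 ≠ 0 := by
      have : algebraMap S F b0 * algebraMap S F β = 1 := by rw [← map_mul, hβ, map_one]
      exact left_ne_zero_of_mul_eq_one this
    exact mul_ne_zero (mul_ne_zero hE hb00) hd0
  · rw [hfE, hεC, hCbo]
    have hβp : b0 ^ p * β ^ p = 1 := by rw [← mul_pow, hβ, one_pow]
    have e5 : b0 ^ p + π ^ (p * m) * o0 = b0 ^ p * (1 + π ^ (p * m) * (o0 * β ^ p)) := by
      have : b0 ^ p * (1 + π ^ (p * m) * (o0 * β ^ p)) =
          b0 ^ p + π ^ (p * m) * o0 * (b0 ^ p * β ^ p) := by ring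
      rw [this, hβp, mul_one]
    rw [e5]
    simp only [map_add, map_one, map_mul, map_pow]
    ring

end

end Fermat.Agent.S44
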