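/-
S44 project, cell [G3] = [TOR], SUB (T-LOC) (helper16).  Prefix `s44tl_`.

**The local étale form at a SMOOTH closed point (abstract form).**

`S` a noetherian integrally closed local domain, `F = Frac S`, `π` a prime element of `S`,
`𝔪_S = (π, t)`.  `f ∈ Fˣ` a `p`-th power modulo vertical divisors (`ssl_PowModVert`), with the global
split form `f = G ^ p (1 + π ^ n y)`, `y` in the local rings of the vertical primes (`s44tl_Glob`).

* `s44tl_Glob`            : the vertical hypothesis on `f`;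
* `s44tl_height_of_minimal` : a minimal prime over `(π)`, `π ≠ 0`, has height one (Krull);
* `s44tl_smooth_unit`     : `f = E ^ p ε`, `ε ∈ Sˣ`;
* `s44tl_smooth_main`     : `f = D ^ p (1 + π ^ (p m) H)`, `H ∈ S`.
-/
import Mathlib
import Fermat.Agent.S44.Tor.LocAbs

set_option autoImplicit false
set_option linter.unusedSectionVars false
set_option linter.style.haveILetI false

namespace Fermat.Agent.S44

open Fermat.Agent.SS IsLocalRing

universe u v

section

variable {S : Type u} [CommRing S] [IsDomain S] [IsNoetherianRing S] [IsIntegrallyClosed S]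
  {F : Type v} [Field F] [Algebra S F] [IsFractionRing S F]

/-- **the vertical hypothesis**: `f = G ^ p (1 + π ^ n y)` with `y` in the local ring of every vertical
prime of height one. -/
def s44tl_Glob (π : S) (p n : ℕ) (f : F) : Prop :=
  ∃ G y : F, G ≠ 0 ∧
    (∀ 𝔮 : Ideal S, 𝔮.IsPrime → 𝔮.height = 1 → π ∈ 𝔮 → ssl_MemAt F 𝔮 y) ∧
    f = G ^ p * (1 + algebraMap S F π ^ n * y)

omit [IsIntegrallyClosed S] in
/-- a minimal prime over `(π)`, `π ≠ 0`, has height one. -/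
theorem s44tl_height_of_minimal {π : S} (hπ0 : π ≠ 0) (𝔮 : Ideal S) [h𝔮 : 𝔮.IsPrime]
    (hmin : 𝔮 ∈ (Ideal.span {π}).minimalPrimes) : 𝔮.height = 1 := by
  haveI : (Ideal.span {π} : Ideal S).IsPrincipal := ⟨⟨π, rfl⟩⟩
  apply le_antisymm (Ideal.height_le_one_of_isPrincipal_of_mem_minimalPrimes _ 𝔮 hmin)
  rw [Order.one_le_iff_pos, pos_iff_ne_zero, Ne, Ideal.height_eq_zero_iff_eq_bot]
  rintro rfl
  have : π ∈ (⊥ : Ideal S) := hmin.1.2 (Ideal.mem_span_singleton_self π)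
  exact hπ0 ((Ideal.mem_bot).1 this)

/-- **step (A) at a smooth point**: `f = E ^ p · unit`. -/
theorem s44tl_smooth_unit {π : S} (hπ : Prime π) {p n : ℕ} (hn : 0 < n) {f : F}
    (hf : f ≠ 0) (hPMV : ssl_PowModVert F π p f) (hglob : s44tl_Glob π p n f) :
    ∃ (E : F) (ε : Sˣ), E ≠ 0 ∧ f = E ^ p * algebraMap S F (ε : S) := by
  haveI h𝔮 : (Ideal.span {π} : Ideal S).IsPrime := (Ideal.span_singleton_prime hπ.ne_zero).2 hπ
  have h1 : (Ideal.span {π} : Ideal S).height = 1 :=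
    s44tl_height_of_minimal hπ.ne_zero _ ⟨⟨h𝔮, le_rfl⟩, fun q hq _ => hq.2⟩
  obtain ⟨e0, he0, hunit⟩ := hPMV
  obtain ⟨G, y, hG, hy, hfG⟩ := hglob
  have hπF : algebraMap S F π ≠ 0 := ssl_algebraMap_ne_zero hπ.ne_zero
  have hT0 : G / e0 ≠ 0 := div_ne_zero hG he0
  have hgen : ∀ z ∈ (Ideal.span {π} : Ideal S), ∃ s : S, s ∉ (Ideal.span {π} : Ideal S) ∧
      π ∣ s * z := fun z hz =>
    ⟨1, fun h => h𝔮.ne_top ((Ideal.eq_top_iff_one _).2 h), by
      rw [one_mul]; exact Ideal.mem_span_singleton.1 hz⟩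
  obtain ⟨a, ha⟩ := ssl_exists_zpow (F := F) (Ideal.span {π}) h1
    (Ideal.mem_span_singleton_self π) hgen hT0
  have hπa : algebraMap S F π ^ a ≠ 0 := zpow_ne_zero a hπF
  set E : F := e0 * algebraMap S F π ^ a with hE
  have hE0 : E ≠ 0 := mul_ne_zero he0 hπa
  have key1 : f / E ^ p = (G / e0 / algebraMap S F π ^ a) ^ p *
      (1 + algebraMap S F π ^ n * y) := by
    rw [hfG, hE, div_div, div_pow, mul_div_right_comm]
  have key2 : f / E ^ p = f / e0 ^ p / (algebraMap S F π ^ a) ^ p := by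
    rw [hE, mul_pow, div_div]
  have hz0 : f / E ^ p ≠ 0 := div_ne_zero hf (pow_ne_zero p hE0)
  obtain ⟨ω, hω⟩ := ssl_krull_unit (F := F) hz0 (fun 𝔮' h𝔮' h1' => by
    haveI := h𝔮'
    by_cases hπ𝔮 : π ∈ 𝔮'
    · have hle : (Ideal.span {π} : Ideal S) ≤ 𝔮' := by
        rw [Ideal.span_le, Set.singleton_subset_iff]; exact hπ𝔮
      have hp0 : (Ideal.span {π} : Ideal S) ≠ ⊥ := by
        rw [Ne, Ideal.span_singleton_eq_bot]; exact hπ.ne_zero
      have heq : Ideal.span {π} = 𝔮' := ssl_eq_of_le_of_ne_bot hp0 h1' hle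
      subst heq
      rw [key1]
      exact ssl_unitAt_mul _ (ssl_unitAt_pow _ ha p)
        (s44tl_unitAt_one_add _ (Ideal.mem_span_singleton_self π) hn
          (hy _ h𝔮 h1 (Ideal.mem_span_singleton_self π)))
    · rw [key2]
      exact ssl_unitAt_div 𝔮' (hunit 𝔮' ⟨h𝔮', h1', hπ𝔮⟩)
        (ssl_unitAt_pow 𝔮' (ssl_unitAt_zpow 𝔮' (ssl_unitAt_algebraMap 𝔮' hπ𝔮) a) p))
  refine ⟨E, ω, hE0, ?_⟩
  rw [hω]
  field_simp

variable [IsLocalRing S]

/-- **THE LOCAL ÉTALE FORM AT A SMOOTH POINT** (abstract form). -/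
theorem s44tl_smooth_main {O : Subring S} {π w : S} {p m : ℕ} (hB : s44gi_Base O π w p m)
    (hπ : Prime π) (t : S) (hmax : maximalIdeal S = Ideal.span {π, t}) {n : ℕ}
    (hn : p * m ≤ n) {f : F} (hf : f ≠ 0) (hPMV : ssl_PowModVert F π p f)
    (hglob : s44tl_Glob π p n f) :
    ∃ (D : F) (H : S), D ≠ 0 ∧
      f = D ^ p * (1 + algebraMap S F π ^ (p * m) * algebraMap S F H) := by
  haveI h𝔮 : (Ideal.span {π} : Ideal S).IsPrime := (Ideal.span_singleton_prime hπ.ne_zero).2 hπ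
  have h1 : (Ideal.span {π} : Ideal S).height = 1 :=
    s44tl_height_of_minimal hπ.ne_zero _ ⟨⟨h𝔮, le_rfl⟩, fun q hq _ => hq.2⟩
  have ht : t ∈ maximalIdeal S := by
    rw [hmax]; exact Ideal.subset_span (by simp)
  have hpm : 0 < p * m := Nat.mul_pos hB.prime.pos hB.m_pos
  have Br := s44gi_smooth_at hB hπ (ssl_locSub F (Ideal.span {π} : Ideal S)) t ht hmax.le
  obtain ⟨E, ε, hE0, hfE⟩ := s44tl_smooth_unit hπ (lt_of_lt_of_le hpm hn) hf hPMV hglob
  obtain ⟨G, y, hG, hy, hfG⟩ := hglob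
  exact s44tl_assemble (fun _ : Unit => (Ideal.span {π} : Ideal S)) (fun _ => h1)
    (fun _ => Ideal.mem_span_singleton_self π) Br hn ε hE0
    (fun _ => hy _ h𝔮 h1 (Ideal.mem_span_singleton_self π)) hfE hfG

end

end Fermat.Agent.S44
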