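/-
S44 project, cell [G3] = [TOR], SUB (T-LOC) (helper16).  Prefix `s44tl_`.

**The local étale form at a NODE (abstract form).**

`S` a noetherian integrally closed local domain, `F = Frac S`, `π ∈ 𝔪_S`, `π ≠ 0`.  Node data
(`s44tl_NodeData`): two primes `𝔮 true`, `𝔮 false` (the branches) containing `π` with
`𝔮 true ∩ 𝔮 false = (π)`, elements `u b ∈ 𝔪_S ∖ 𝔮 b` (`u b` is the parameter of the branch `𝔮 b`) with
`u true · u false = π ^ k · unit` (thickness `k`), `𝔪_S = (π, u true, u false)`.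

* `s44tl_Ord`              : the order along the branch `𝔮 true` (a discrete valuation ring with
                             uniformiser `u true`): `x ≡ u₁ ^ j · unit mod 𝔮₁`;
* `s44tl_NodeData.height`, `.classify` : the vertical primes of height one are `𝔮 true`, `𝔮 false`;
* `s44tl_node_monomial`    : a function which is a unit at all horizontal primes and at `𝔮 true` is
                             `u₁ ^ ν · unit` (the class group of the node is generated by a branch);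
* `s44tl_node_dvd`         : if moreover it is a `p`-th power on the branch `𝔮 true` then `p ∣ ν`
                             (normality of the branch; THE THICKNESS MAY BE DIVISIBLE BY `p`);
* `s44tl_node_unit`        : `f = E ^ p ε`, `ε ∈ Sˣ`;
* `s44tl_node_main`        : `f = D ^ p (1 + π ^ (p m) H)`, `H ∈ S`.
-/
import Mathlib
import Fermat.Agent.S44.Tor.LocSmooth

set_option autoImplicit false
set_option linter.unusedSectionVars false
set_option linter.style.haveILetI false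

namespace Fermat.Agent.S44

open Fermat.Agent.SS IsLocalRing

universe u v

section ord

variable {S : Type u} [CommRing S]

/-- `x ≡ u₁ ^ j · unit` modulo `𝔮₁`. -/
def s44tl_Ord (𝔮1 : Ideal S) (u1 x : S) (j : ℕ) : Prop :=
  ∃ ε : Sˣ, x - u1 ^ j * (ε : S) ∈ 𝔮1

namespace s44tl_Ord

variable {𝔮1 : Ideal S} {u1 : S}

theorem mul {x y : S} {i j : ℕ} (hx : s44tl_Ord 𝔮1 u1 x i) (hy : s44tl_Ord 𝔮1 u1 y j) :
    s44tl_Ord 𝔮1 u1 (x * y) (i + j) := by
  obtain ⟨ε, hε⟩ := hx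
  obtain ⟨ε', hε'⟩ := hy
  refine ⟨ε * ε', ?_⟩
  have : x * y - u1 ^ (i + j) * ((ε * ε' : Sˣ) : S) =
      (x - u1 ^ i * ε) * y + u1 ^ i * ε * (y - u1 ^ j * ε') := by
    push_cast; ring
  rw [this]
  exact 𝔮1.add_mem (𝔮1.mul_mem_right _ hε) (𝔮1.mul_mem_left _ hε')

theorem one : s44tl_Ord 𝔮1 u1 1 0 := ⟨1, by simp⟩

theorem pow {x : S} {i : ℕ} (hx : s44tl_Ord 𝔮1 u1 x i) (n : ℕ) :
    s44tl_Ord 𝔮1 u1 (x ^ n) (n * i) := by
  induction n with
  | zero => rw [pow_zero, Nat.zero_mul]; exact one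
  | succ n ih =>
    rw [pow_succ, Nat.succ_mul]
    exact ih.mul hx

theorem self_pow (j : ℕ) : s44tl_Ord 𝔮1 u1 (u1 ^ j) j := ⟨1, by simp⟩

theorem unit (ε : Sˣ) : s44tl_Ord 𝔮1 u1 (ε : S) 0 := ⟨ε, by simp⟩

theorem congr {x y : S} {j : ℕ} (h : x - y ∈ 𝔮1) (hx : s44tl_Ord 𝔮1 u1 x j) :
    s44tl_Ord 𝔮1 u1 y j := by
  obtain ⟨ε, hε⟩ := hx
  refine ⟨ε, ?_⟩
  have : y - u1 ^ j * (ε : S) = (x - u1 ^ j * ε) - (x - y) := by ring
  rw [this]
  exact 𝔮1.sub_mem hε h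

variable [IsLocalRing S]

theorem unique_aux [h𝔮 : 𝔮1.IsPrime] (hu : u1 ∉ 𝔮1) (humax : u1 ∈ maximalIdeal S) {x : S}
    {i j : ℕ} (hij : i < j) (hi : s44tl_Ord 𝔮1 u1 x i) (hj : s44tl_Ord 𝔮1 u1 x j) : False := by
  obtain ⟨ε, hε⟩ := hi
  obtain ⟨ε', hε'⟩ := hj
  obtain ⟨d, rfl⟩ := Nat.exists_eq_add_of_lt hij
  have h1 : u1 ^ i * ((ε : S) - u1 ^ (d + 1) * ε') ∈ 𝔮1 := by
    have : u1 ^ i * ((ε : S) - u1 ^ (d + 1) * ε') =
        (x - u1 ^ (i + d + 1) * ε') - (x - u1 ^ i * ε) := by ring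
    rw [this]
    exact 𝔮1.sub_mem hε' hε
  have h2 : (ε : S) - u1 ^ (d + 1) * ε' ∈ 𝔮1 := by
    rcases h𝔮.mem_or_mem h1 with h | h
    · exact absurd (h𝔮.mem_of_pow_mem i h) hu
    · exact h
  have h3 : (ε : S) - u1 ^ (d + 1) * ε' ∈ maximalIdeal S := le_maximalIdeal h𝔮.ne_top h2
  have h4 : u1 ^ (d + 1) * (ε' : S) ∈ maximalIdeal S :=
    Ideal.mul_mem_right _ _ (Ideal.pow_mem_of_mem _ humax _ (Nat.succ_pos d))
  have h5 : (ε : S) ∈ maximalIdeal S := by
    have := Ideal.add_mem _ h3 h4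
    rwa [sub_add_cancel] at this
  exact (mem_maximalIdeal _).1 h5 ε.isUnit

theorem unique [h𝔮 : 𝔮1.IsPrime] (hu : u1 ∉ 𝔮1) (humax : u1 ∈ maximalIdeal S) {x : S}
    {i j : ℕ} (hi : s44tl_Ord 𝔮1 u1 x i) (hj : s44tl_Ord 𝔮1 u1 x j) : i = j := by
  rcases lt_trichotomy i j with h | h | h
  · exact (unique_aux hu humax h hi hj).elim
  · exact h
  · exact (unique_aux hu humax h hj hi).elim

end s44tl_Ord

/-- **existence of the order** along a branch with principal maximal ideal. -/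
theorem s44tl_ord_exists [IsLocalRing S] [IsNoetherianRing S] (𝔮1 : Ideal S) [h𝔮 : 𝔮1.IsPrime]
    (u1 : S) (hu : u1 ∉ 𝔮1) (humax : u1 ∈ maximalIdeal S)
    (hle : maximalIdeal S ≤ 𝔮1 ⊔ Ideal.span {u1}) {x : S} (hx : x ∉ 𝔮1) :
    ∃ j, s44tl_Ord 𝔮1 u1 x j := by
  haveI : IsLocalRing (S ⧸ 𝔮1) :=
    IsLocalRing.of_surjective' (Ideal.Quotient.mk 𝔮1) Ideal.Quotient.mk_surjective
  have h𝔮le : 𝔮1 ≤ maximalIdeal S := le_maximalIdeal h𝔮.ne_top
  -- non-units of `S` map to non-units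
  have hnu : ∀ s : S, s ∈ maximalIdeal S → ¬ IsUnit (Ideal.Quotient.mk 𝔮1 s) := by
    intro s hs hunit
    obtain ⟨y, hy⟩ := isUnit_iff_exists_inv.1 hunit
    obtain ⟨y0, rfl⟩ := Ideal.Quotient.mk_surjective y
    have h1 : s * y0 - 1 ∈ 𝔮1 := by
      rw [← Ideal.Quotient.eq_zero_iff_mem, map_sub, map_mul, hy, map_one, sub_self]
    have h2 : s * y0 ∈ maximalIdeal S := Ideal.mul_mem_right _ _ hs
    have h3 : (1 : S) ∈ maximalIdeal S := by
      have := Ideal.sub_mem _ h2 (h𝔮le h1)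
      rwa [sub_sub_cancel] at this
    exact (mem_maximalIdeal _).1 h3 isUnit_one
  have hmaxD : maximalIdeal (S ⧸ 𝔮1) = Ideal.span {Ideal.Quotient.mk 𝔮1 u1} := by
    apply le_antisymm
    · intro z hz
      obtain ⟨z0, rfl⟩ := Ideal.Quotient.mk_surjective z
      have hz0 : z0 ∈ maximalIdeal S := by
        by_contra hcon
        have hu' : IsUnit z0 := by
          by_contra hnu'
          exact hcon ((mem_maximalIdeal z0).2 hnu')
        exact (mem_maximalIdeal _).1 hz (hu'.map (Ideal.Quotient.mk 𝔮1))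
      obtain ⟨a, ha, b, hb, hab⟩ := Submodule.mem_sup.1 (hle hz0)
      obtain ⟨c, rfl⟩ := Ideal.mem_span_singleton.1 hb
      rw [← hab, map_add, Ideal.Quotient.eq_zero_iff_mem.2 ha, zero_add, map_mul]
      exact Ideal.mem_span_singleton.2 (dvd_mul_right _ _)
    · rw [Ideal.span_le, Set.singleton_subset_iff]
      exact (mem_maximalIdeal _).2 (hnu u1 humax)
  have hprinc : (maximalIdeal (S ⧸ 𝔮1)).IsPrincipal := ⟨⟨Ideal.Quotient.mk 𝔮1 u1, hmaxD⟩⟩
  haveI hPIR : IsPrincipalIdealRing (S ⧸ 𝔮1) :=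
    ((tfae_of_isNoetherianRing_of_isLocalRing_of_isDomain (S ⧸ 𝔮1)).out 4 0).1 hprinc
  have hu0 : Ideal.Quotient.mk 𝔮1 u1 ≠ 0 := by
    rwa [Ne, Ideal.Quotient.eq_zero_iff_mem]
  haveI hDVR : IsDiscreteValuationRing (S ⧸ 𝔮1) :=
    { not_a_field' := by
        rw [hmaxD, Ne, Ideal.span_singleton_eq_bot]
        exact hu0 }
  have hirr : Irreducible (Ideal.Quotient.mk 𝔮1 u1) :=
    (IsDiscreteValuationRing.irreducible_iff_uniformizer _).2 hmaxD
  have hx0 : Ideal.Quotient.mk 𝔮1 x ≠ 0 := by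
    rwa [Ne, Ideal.Quotient.eq_zero_iff_mem]
  obtain ⟨j, hj⟩ := IsDiscreteValuationRing.associated_pow_irreducible hx0 hirr
  obtain ⟨w, hw⟩ := hj.symm
  obtain ⟨w0, hw0⟩ := Ideal.Quotient.mk_surjective (w : S ⧸ 𝔮1)
  have hw0u : IsUnit w0 := by
    by_contra hnu'
    exact hnu w0 ((mem_maximalIdeal w0).2 hnu') (hw0 ▸ w.isUnit)
  refine ⟨j, hw0u.unit, ?_⟩
  rw [← Ideal.Quotient.eq_zero_iff_mem, map_sub, map_mul, map_pow, IsUnit.unit_spec, hw0, hw,
    sub_self]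

end ord

section node

variable {S : Type u} [CommRing S] [IsDomain S] [IsNoetherianRing S] [IsIntegrallyClosed S]
  [IsLocalRing S] {F : Type v} [Field F] [Algebra S F] [IsFractionRing S F]

/-- **abstract node data** in the local ring `S`. -/
structure s44tl_NodeData (π : S) (𝔮 : Bool → Ideal S) (u : Bool → S) (k : ℕ) : Prop where
  prime : ∀ b, (𝔮 b).IsPrime
  π_mem : ∀ b, π ∈ 𝔮 b
  rad : ∀ s : S, s ∈ 𝔮 true → s ∈ 𝔮 false → π ∣ s
  u_not_mem : ∀ b, u b ∉ 𝔮 b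
  u_max : ∀ b, u b ∈ maximalIdeal S
  u_mul : ∃ ε : Sˣ, u true * u false = π ^ k * (ε : S)
  max_le : maximalIdeal S ≤ Ideal.span {π, u true, u false}

namespace s44tl_NodeData

variable {π : S} {𝔮 : Bool → Ideal S} {u : Bool → S} {k : ℕ}

omit [IsDomain S] [IsNoetherianRing S] [IsIntegrallyClosed S] in
theorem k_pos (N : s44tl_NodeData π 𝔮 u k) : 0 < k := by
  by_contra hk
  have hk0 : k = 0 := by omega
  obtain ⟨ε, hε⟩ := N.u_mul
  rw [hk0, pow_zero, one_mul] at hε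
  have h1 : IsUnit (u true * u false) := hε ▸ ε.isUnit
  exact (mem_maximalIdeal _).1 (N.u_max true) (isUnit_of_mul_isUnit_left h1)

omit [IsDomain S] [IsNoetherianRing S] [IsIntegrallyClosed S] in
theorem π_dvd (N : s44tl_NodeData π 𝔮 u k) : π ∣ u true * u false := by
  obtain ⟨ε, hε⟩ := N.u_mul
  rw [hε]
  exact Dvd.dvd.mul_right (dvd_pow_self π N.k_pos.ne') _

omit [IsDomain S] [IsNoetherianRing S] [IsIntegrallyClosed S] in
theorem other (N : s44tl_NodeData π 𝔮 u k) (b : Bool) : u (!b) ∈ 𝔮 b := by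
  have h1 : u true * u false ∈ 𝔮 b := Ideal.mem_of_dvd _ N.π_dvd (N.π_mem b)
  cases b
  · rcases (N.prime false).mem_or_mem h1 with h2 | h2
    · exact h2
    · exact absurd h2 (N.u_not_mem false)
  · rcases (N.prime true).mem_or_mem h1 with h2 | h2
    · exact absurd h2 (N.u_not_mem true)
    · exact h2

omit [IsDomain S] [IsNoetherianRing S] [IsIntegrallyClosed S] in
theorem rad' (N : s44tl_NodeData π 𝔮 u k) (b : Bool) (s : S) (h1 : s ∈ 𝔮 b)
    (h2 : s ∈ 𝔮 (!b)) : π ∣ s := by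
  cases b
  · exact N.rad s h2 h1
  · exact N.rad s h1 h2

omit [IsDomain S] [IsNoetherianRing S] [IsIntegrallyClosed S] in
/-- `π` generates `𝔮 b` locally at `𝔮 b`. -/
theorem vgen (N : s44tl_NodeData π 𝔮 u k) (b : Bool) :
    ∀ z ∈ 𝔮 b, ∃ s : S, s ∉ 𝔮 b ∧ π ∣ s * z := by
  intro z hz
  refine ⟨u b, N.u_not_mem b, N.rad' b _ (Ideal.mul_mem_left _ _ hz) ?_⟩
  have := N.other (!b)
  rw [Bool.not_not] at this
  exact Ideal.mul_mem_right _ _ this

omit [IsDomain S] [IsNoetherianRing S] [IsIntegrallyClosed S] in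
theorem max_le_sup (N : s44tl_NodeData π 𝔮 u k) (b : Bool) :
    maximalIdeal S ≤ 𝔮 b ⊔ Ideal.span {u b} := by
  refine N.max_le.trans ?_
  rw [Ideal.span_le]
  rintro x (rfl | rfl | hx)
  · exact Ideal.mem_sup_left (N.π_mem b)
  · cases b
    · exact Ideal.mem_sup_left (N.other false)
    · exact Ideal.mem_sup_right (Ideal.mem_span_singleton_self _)
  · rw [Set.mem_singleton_iff] at hx
    subst hx
    cases b
    · exact Ideal.mem_sup_right (Ideal.mem_span_singleton_self _)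
    · exact Ideal.mem_sup_left (N.other true)

omit [IsDomain S] [IsNoetherianRing S] [IsIntegrallyClosed S] in
/-- a prime containing `π` contains one of the two branches. -/
theorem le_of_mem (N : s44tl_NodeData π 𝔮 u k) (𝔮' : Ideal S) [h𝔮' : 𝔮'.IsPrime] (hπ : π ∈ 𝔮') :
    ∃ b, 𝔮 b ≤ 𝔮' := by
  by_contra hcon0
  have hcon : ∀ b, ¬ 𝔮 b ≤ 𝔮' := fun b hb => hcon0 ⟨b, hb⟩
  obtain ⟨s1, hs1, hs1'⟩ := Set.not_subset.1 (hcon true)
  obtain ⟨s2, hs2, hs2'⟩ := Set.not_subset.1 (hcon false)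
  have h1 : π ∣ s1 * s2 :=
    N.rad _ (Ideal.mul_mem_right _ _ hs1) (Ideal.mul_mem_left _ _ hs2)
  have h2 : s1 * s2 ∈ 𝔮' := Ideal.mem_of_dvd _ h1 hπ
  rcases h𝔮'.mem_or_mem h2 with h | h
  · exact hs1' h
  · exact hs2' h

omit [IsDomain S] [IsNoetherianRing S] [IsIntegrallyClosed S] in
theorem not_le (N : s44tl_NodeData π 𝔮 u k) (b : Bool) : ¬ 𝔮 (!b) ≤ 𝔮 b := by
  intro hle
  have := N.other (!b)
  rw [Bool.not_not] at this
  exact N.u_not_mem b (hle this)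

omit [IsIntegrallyClosed S] in
theorem height (N : s44tl_NodeData π 𝔮 u k) (hπ0 : π ≠ 0) (b : Bool) : (𝔮 b).height = 1 := by
  haveI := N.prime b
  refine s44tl_height_of_minimal hπ0 (𝔮 b) ⟨⟨N.prime b, ?_⟩, ?_⟩
  · rw [Ideal.span_le, Set.singleton_subset_iff]; exact N.π_mem b
  · rintro 𝔮' ⟨h𝔮', hle⟩ hle'
    haveI := h𝔮'
    have hπ' : π ∈ 𝔮' := hle (Ideal.mem_span_singleton_self π)
    obtain ⟨b', hb'⟩ := N.le_of_mem 𝔮' hπ'
    by_cases hbb : b' = b
    · subst hbb; exact hb'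
    · exfalso
      have : b' = !b := by cases b <;> cases b' <;> simp_all
      subst this
      exact N.not_le b (hb'.trans hle')

omit [IsIntegrallyClosed S] in
/-- the vertical primes of height one are the two branches. -/
theorem classify (N : s44tl_NodeData π 𝔮 u k) (hπ0 : π ≠ 0) (𝔮' : Ideal S) [h𝔮' : 𝔮'.IsPrime]
    (h1 : 𝔮'.height = 1) (hπ : π ∈ 𝔮') : ∃ b, 𝔮 b = 𝔮' := by
  obtain ⟨b, hb⟩ := N.le_of_mem 𝔮' hπ
  haveI := N.prime b
  have hb0 : 𝔮 b ≠ ⊥ := by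
    intro h0
    have : π ∈ (⊥ : Ideal S) := h0 ▸ N.π_mem b
    exact hπ0 ((Ideal.mem_bot).1 this)
  exact ⟨b, ssl_eq_of_le_of_ne_bot hb0 h1 hb⟩

omit [IsNoetherianRing S] [IsIntegrallyClosed S] in
/-- `u b` is a unit at every horizontal prime. -/
theorem u_unitAt_horiz (N : s44tl_NodeData π 𝔮 u k) (b : Bool) (𝔮' : Ideal S) [h𝔮' : 𝔮'.IsPrime]
    (hπ : π ∉ 𝔮') : ssl_UnitAt F 𝔮' (algebraMap S F (u b)) := by
  apply ssl_unitAt_algebraMap
  intro hu
  obtain ⟨ε, hε⟩ := N.u_mul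
  have h1 : u true * u false ∈ 𝔮' := by
    cases b
    · exact Ideal.mul_mem_left _ _ hu
    · exact Ideal.mul_mem_right _ _ hu
  rw [hε] at h1
  rcases h𝔮'.mem_or_mem h1 with h | h
  · exact hπ (h𝔮'.mem_of_pow_mem k h)
  · exact h𝔮'.ne_top (Ideal.eq_top_of_isUnit_mem _ h ε.isUnit)

end s44tl_NodeData

end node

section nodeMain

variable {S : Type u} [CommRing S] [IsDomain S] [IsNoetherianRing S] [IsIntegrallyClosed S]
  [IsLocalRing S] {F : Type v} [Field F] [Algebra S F] [IsFractionRing S F]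
  {π : S} {𝔮 : Bool → Ideal S} {u : Bool → S} {k : ℕ}

/-- existence of the order along the branch `𝔮 true`. -/
theorem s44tl_NodeData.ord_exists (N : s44tl_NodeData π 𝔮 u k) {x : S} (hx : x ∉ 𝔮 true) :
    ∃ j, s44tl_Ord (𝔮 true) (u true) x j :=
  haveI := N.prime true
  s44tl_ord_exists (𝔮 true) (u true) (N.u_not_mem true) (N.u_max true) (N.max_le_sup true) hx

/-- uniqueness of the order along the branch `𝔮 true`. -/
theorem s44tl_NodeData.ord_unique (N : s44tl_NodeData π 𝔮 u k) {x : S} {i j : ℕ}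
    (hi : s44tl_Ord (𝔮 true) (u true) x i) (hj : s44tl_Ord (𝔮 true) (u true) x j) : i = j :=
  haveI := N.prime true
  s44tl_Ord.unique (N.u_not_mem true) (N.u_max true) hi hj

/-- an element of `S` of order `0` along the branch is a unit. -/
theorem s44tl_NodeData.isUnit_of_ord_zero (N : s44tl_NodeData π 𝔮 u k) {x : S}
    (h : s44tl_Ord (𝔮 true) (u true) x 0) : IsUnit x := by
  haveI := N.prime true
  obtain ⟨ε, hε⟩ := h
  rw [pow_zero, one_mul] at hε
  by_contra hnu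
  have h1 : x ∈ maximalIdeal S := (mem_maximalIdeal _).2 hnu
  have h2 : x - (ε : S) ∈ maximalIdeal S := le_maximalIdeal (N.prime true).ne_top hε
  have h3 : (ε : S) ∈ maximalIdeal S := by
    have := Ideal.sub_mem _ h1 h2
    rwa [sub_sub_cancel] at this
  exact (mem_maximalIdeal _).1 h3 ε.isUnit

/-- **(N3)** a function which is a unit at every horizontal prime and at the branch `𝔮 true` is
`u₁ ^ ν · unit`. -/
theorem s44tl_node_monomial (N : s44tl_NodeData π 𝔮 u k) (hπ0 : π ≠ 0) {Z : F}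
    (hZ1 : ssl_UnitAt F (𝔮 true) Z)
    (hZh : ∀ 𝔮' : Ideal S, ssl_Horiz π 𝔮' → ssl_UnitAt F 𝔮' Z) :
    ∃ (i j : ℕ) (ε : Sˣ), Z * algebraMap S F (u true) ^ j =
      algebraMap S F (u true) ^ i * algebraMap S F (ε : S) := by
  haveI h𝔮t := N.prime true
  haveI h𝔮f := N.prime false
  have hu0 : u true ≠ 0 := fun h0 => N.u_not_mem true (h0 ▸ (𝔮 true).zero_mem)
  have huF : algebraMap S F (u true) ≠ 0 := ssl_algebraMap_ne_zero hu0
  obtain ⟨α, β, hα, hβ, hZ⟩ := hZ1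
  have hZ0 : Z ≠ 0 := ssl_unitAt_ne_zero (𝔮 true) ⟨α, β, hα, hβ, hZ⟩
  have hβ0 : algebraMap S F β ≠ 0 :=
    ssl_algebraMap_ne_zero fun h0 => hβ (h0 ▸ (𝔮 true).zero_mem)
  obtain ⟨i, hi⟩ := N.ord_exists hα
  obtain ⟨j, hj⟩ := N.ord_exists hβ
  -- `W := Z u^j / u^i`
  set W : F := Z * algebraMap S F (u true) ^ j / algebraMap S F (u true) ^ i with hW
  have hW0 : W ≠ 0 :=
    div_ne_zero (mul_ne_zero hZ0 (pow_ne_zero j huF)) (pow_ne_zero i huF)
  have hut : ssl_UnitAt F (𝔮 true) (algebraMap S F (u true)) :=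
    ssl_unitAt_algebraMap _ (N.u_not_mem true)
  have hWt : ssl_UnitAt F (𝔮 true) W :=
    ssl_unitAt_div _ (ssl_unitAt_mul _ ⟨α, β, hα, hβ, hZ⟩ (ssl_unitAt_pow _ hut j))
      (ssl_unitAt_pow _ hut i)
  have hWh : ∀ 𝔮' : Ideal S, ssl_Horiz π 𝔮' → ssl_UnitAt F 𝔮' W := fun 𝔮' h' => by
    haveI := h'.1
    have hu' := N.u_unitAt_horiz (F := F) true 𝔮' h'.2.2
    exact ssl_unitAt_div _ (ssl_unitAt_mul _ (hZh 𝔮' h') (ssl_unitAt_pow _ hu' j))
      (ssl_unitAt_pow _ hu' i)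
  -- the key: an element `r ∈ S` with `r * y = x` in `F`, where `x, y` have the same order, is a unit
  have hkey : ∀ (r : S) (x y : S) (l : ℕ), s44tl_Ord (𝔮 true) (u true) x l →
      s44tl_Ord (𝔮 true) (u true) y l → r ∉ 𝔮 true → r * y = x → IsUnit r := by
    intro r x y l hx hy hr hrxy
    obtain ⟨lr, hlr⟩ := N.ord_exists hr
    have h1 : s44tl_Ord (𝔮 true) (u true) x (lr + l) := hrxy ▸ hlr.mul hy
    have h2 : lr + l = l := N.ord_unique h1 hx
    have h3 : lr = 0 := by omega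
    exact N.isUnit_of_ord_zero (h3 ▸ hlr)
  have hxOrd : s44tl_Ord (𝔮 true) (u true) (α * u true ^ j) (i + j) :=
    hi.mul (s44tl_Ord.self_pow j)
  have hyOrd : s44tl_Ord (𝔮 true) (u true) (β * u true ^ i) (i + j) := by
    rw [add_comm]; exact hj.mul (s44tl_Ord.self_pow i)
  -- the valuation ring at `𝔮 false`
  have h1f : (𝔮 false).height = 1 := N.height hπ0 false
  -- `W` or `W⁻¹` lies in `S`
  have hmemAll : ∀ (W' : F), ssl_UnitAt F (𝔮 true) W' →
      (∀ 𝔮' : Ideal S, ssl_Horiz π 𝔮' → ssl_UnitAt F 𝔮' W') →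
      W' ∈ ssl_valAt (F := F) (𝔮 false) h1f → ∃ r : S, algebraMap S F r = W' := by
    intro W' hW't hW'h hmem
    refine ssl_krull (F := F) fun 𝔮' h𝔮' h1' => ?_
    haveI := h𝔮'
    by_cases hπ' : π ∈ 𝔮'
    · obtain ⟨b, rfl⟩ := N.classify hπ0 𝔮' h1' hπ'
      cases b
      · exact (ssl_mem_valAt (𝔮 false) h1f).1 hmem
      · exact ssl_memAt_of_unitAt _ hW't
    · exact ssl_memAt_of_unitAt _ (hW'h 𝔮' ⟨h𝔮', h1', hπ'⟩)
  have hWeq : W * (algebraMap S F β * algebraMap S F (u true) ^ i) =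
      algebraMap S F α * algebraMap S F (u true) ^ j := by
    rw [hW, ← hZ]
    field_simp
  have hnot : ∀ (r : S), ssl_UnitAt F (𝔮 true) (algebraMap S F r) → r ∉ 𝔮 true := by
    intro r ⟨a, s, ha, hs, h⟩ hr
    have : r * s = a := by
      apply IsFractionRing.injective S F
      rw [map_mul, h]
    exact ha (this ▸ Ideal.mul_mem_right _ _ hr)
  rcases (ssl_valAt (F := F) (𝔮 false) h1f).mem_or_inv_mem W with hmem | hmem
  · obtain ⟨r, hr⟩ := hmemAll W hWt hWh hmem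
    have hru : IsUnit r := by
      refine hkey r (α * u true ^ j) (β * u true ^ i) (i + j) hxOrd hyOrd
        (hnot r (hr ▸ hWt)) ?_
      apply IsFractionRing.injective S F
      simp only [map_mul, map_pow]
      rw [hr, hWeq]
    refine ⟨i, j, hru.unit, ?_⟩
    rw [IsUnit.unit_spec, hr, hW]
    field_simp
  · have hWit : ssl_UnitAt F (𝔮 true) W⁻¹ := ssl_unitAt_inv _ hWt
    obtain ⟨r, hr⟩ := hmemAll W⁻¹ hWit (fun 𝔮' h' => by
      haveI := h'.1
      exact ssl_unitAt_inv _ (hWh 𝔮' h')) hmem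
    have hru : IsUnit r := by
      refine hkey r (β * u true ^ i) (α * u true ^ j) (i + j) hyOrd hxOrd
        (hnot r (hr ▸ hWit)) ?_
      apply IsFractionRing.injective S F
      simp only [map_mul, map_pow]
      rw [hr, ← hWeq]
      field_simp
    obtain ⟨r', hrr'⟩ := isUnit_iff_exists_inv.1 hru
    have hr'u : IsUnit r' := isUnit_iff_exists_inv.2 ⟨r, by rw [mul_comm]; exact hrr'⟩
    refine ⟨i, j, hr'u.unit, ?_⟩
    rw [IsUnit.unit_spec]
    have h5 : algebraMap S F r * algebraMap S F r' = 1 := by rw [← map_mul, hrr', map_one]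
    have h6 : algebraMap S F r' = W := by
      rw [hr] at h5
      have := eq_inv_of_mul_eq_one_right h5
      rwa [inv_inv] at this
    rw [h6, hW]
    field_simp

/-- **(N4)** if `u₁ ^ (i - j) · unit` is a `p`-th power times `1 + π ^ n y` on the branch `𝔮 true`
then `p ∣ i - j` (normality of the branch). -/
theorem s44tl_node_dvd (N : s44tl_NodeData π 𝔮 u k) {p n : ℕ} (hn : 0 < n) {Z T y : F}
    {i j : ℕ} {ε : Sˣ}
    (hZ : Z * algebraMap S F (u true) ^ j = algebraMap S F (u true) ^ i * algebraMap S F (ε : S))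
    (hT : ssl_UnitAt F (𝔮 true) T) (hy : ssl_MemAt F (𝔮 true) y)
    (hZT : Z = T ^ p * (1 + algebraMap S F π ^ n * y)) : (p : ℤ) ∣ (i : ℤ) - j := by
  haveI h𝔮t := N.prime true
  obtain ⟨α, β, hα, hβ, hTαβ⟩ := hT
  obtain ⟨γ, s, hs, hys⟩ := hy
  have hβ0 : algebraMap S F β ≠ 0 :=
    ssl_algebraMap_ne_zero fun h0 => hβ (h0 ▸ (𝔮 true).zero_mem)
  have hs0 : algebraMap S F s ≠ 0 :=
    ssl_algebraMap_ne_zero fun h0 => hs (h0 ▸ (𝔮 true).zero_mem)
  obtain ⟨a, ha⟩ := N.ord_exists hα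
  obtain ⟨b, hb⟩ := N.ord_exists hβ
  obtain ⟨l, hl⟩ := N.ord_exists hs
  have hl' : s44tl_Ord (𝔮 true) (u true) (s + π ^ n * γ) l := by
    refine hl.congr ?_
    have : s - (s + π ^ n * γ) = -(π ^ n * γ) := by ring
    rw [this]
    exact (𝔮 true).neg_mem
      (Ideal.mul_mem_right _ _ (Ideal.pow_mem_of_mem _ (N.π_mem true) n hn))
  -- the identity in `S`
  have hid : α ^ p * (s + π ^ n * γ) * u true ^ j = u true ^ i * (ε : S) * β ^ p * s := by
    apply IsFractionRing.injective S F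
    simp only [map_mul, map_pow, map_add]
    rw [← hTαβ, ← hys]
    have h1 : T ^ p * (1 + algebraMap S F π ^ n * y) * algebraMap S F (u true) ^ j =
        algebraMap S F (u true) ^ i * algebraMap S F (ε : S) := by rw [← hZT, hZ]
    linear_combination (algebraMap S F β ^ p * algebraMap S F s) * h1
  have hL : s44tl_Ord (𝔮 true) (u true) (α ^ p * (s + π ^ n * γ) * u true ^ j)
      (p * a + l + j) := ((ha.pow p).mul hl').mul (s44tl_Ord.self_pow j)
  have hR : s44tl_Ord (𝔮 true) (u true) (u true ^ i * (ε : S) * β ^ p * s)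
      (i + 0 + p * b + l) :=
    (((s44tl_Ord.self_pow i).mul (s44tl_Ord.unit ε)).mul (hb.pow p)).mul hl
  have heq : p * a + l + j = i + 0 + p * b + l := N.ord_unique hL (hid ▸ hR)
  refine ⟨(a : ℤ) - b, ?_⟩
  have := congrArg (Nat.cast : ℕ → ℤ) heq
  push_cast at this
  linarith

/-- **step (A) at a node**: `f = E ^ p · unit`. -/
theorem s44tl_node_unit (N : s44tl_NodeData π 𝔮 u k) (hπ0 : π ≠ 0) {p n : ℕ} (hn : 0 < n)
    {f : F} (hf : f ≠ 0) (hPMV : ssl_PowModVert F π p f) (hglob : s44tl_Glob π p n f) :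
    ∃ (E : F) (ε : Sˣ), E ≠ 0 ∧ f = E ^ p * algebraMap S F (ε : S) := by
  haveI h𝔮t := N.prime true
  have h1t : (𝔮 true).height = 1 := N.height hπ0 true
  obtain ⟨e0, he0, hunit⟩ := hPMV
  obtain ⟨G, y, hG, hy, hfG⟩ := hglob
  have hπF : algebraMap S F π ≠ 0 := ssl_algebraMap_ne_zero hπ0
  have hu0 : u true ≠ 0 := fun h0 => N.u_not_mem true (h0 ▸ (𝔮 true).zero_mem)
  have huF : algebraMap S F (u true) ≠ 0 := ssl_algebraMap_ne_zero hu0
  have hT0 : G / e0 ≠ 0 := div_ne_zero hG he0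
  obtain ⟨a1, ha1⟩ := ssl_exists_zpow (F := F) (𝔮 true) h1t (N.π_mem true) (N.vgen true) hT0
  have hπa : algebraMap S F π ^ a1 ≠ 0 := zpow_ne_zero a1 hπF
  set T : F := G / e0 / algebraMap S F π ^ a1 with hT
  have hyt : ssl_MemAt F (𝔮 true) y := hy _ h𝔮t h1t (N.π_mem true)
  set Z : F := T ^ p * (1 + algebraMap S F π ^ n * y) with hZ
  have hZ1 : ssl_UnitAt F (𝔮 true) Z :=
    ssl_unitAt_mul _ (ssl_unitAt_pow _ ha1 p)
      (s44tl_unitAt_one_add _ (N.π_mem true) hn hyt)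
  have hZf : Z = f / e0 ^ p / (algebraMap S F π ^ a1) ^ p := by
    rw [hZ, hT, hfG, div_pow, div_pow]
    field_simp
  have hZh : ∀ 𝔮' : Ideal S, ssl_Horiz π 𝔮' → ssl_UnitAt F 𝔮' Z := fun 𝔮' h' => by
    haveI := h'.1
    rw [hZf]
    exact ssl_unitAt_div 𝔮' (hunit 𝔮' h')
      (ssl_unitAt_pow 𝔮' (ssl_unitAt_zpow 𝔮' (ssl_unitAt_algebraMap 𝔮' h'.2.2) a1) p)
  obtain ⟨i, j, ε, hZu⟩ := s44tl_node_monomial N hπ0 hZ1 hZh
  obtain ⟨q, hq⟩ := s44tl_node_dvd N hn hZu ha1 hyt hZ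
  have huq : algebraMap S F (u true) ^ q ≠ 0 := zpow_ne_zero q huF
  refine ⟨e0 * algebraMap S F π ^ a1 * algebraMap S F (u true) ^ q, ε,
    mul_ne_zero (mul_ne_zero he0 hπa) huq, ?_⟩
  -- `u ^ i = u ^ j * (u ^ q) ^ p`
  have hpow : algebraMap S F (u true) ^ i =
      algebraMap S F (u true) ^ j * (algebraMap S F (u true) ^ q) ^ p := by
    have h2 : (i : ℤ) = j + q * p := by rw [mul_comm]; linarith
    rw [← zpow_natCast (algebraMap S F (u true)) i, h2, zpow_add₀ huF, zpow_mul, zpow_natCast,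
      zpow_natCast]
  have hZ' : Z = (algebraMap S F (u true) ^ q) ^ p * algebraMap S F (ε : S) := by
    have h3 : Z * algebraMap S F (u true) ^ j =
        (algebraMap S F (u true) ^ q) ^ p * algebraMap S F (ε : S) *
          algebraMap S F (u true) ^ j := by
      rw [hZu, hpow]; ring
    exact mul_right_cancel₀ (pow_ne_zero j huF) h3
  have hfZ : f = e0 ^ p * (algebraMap S F π ^ a1) ^ p * Z := by
    rw [hZf]
    field_simp
  rw [hfZ, hZ', mul_pow, mul_pow]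
  ring

/-- **THE LOCAL ÉTALE FORM AT A NODE** (abstract form). -/
theorem s44tl_node_main {O : Subring S} {w : S} {p m : ℕ} (hB : s44gi_Base O π w p m)
    (N : s44tl_NodeData π 𝔮 u k) {n : ℕ} (hn : p * m ≤ n) {f : F} (hf : f ≠ 0)
    (hPMV : ssl_PowModVert F π p f) (hglob : s44tl_Glob π p n f) :
    ∃ (D : F) (H : S), D ≠ 0 ∧
      f = D ^ p * (1 + algebraMap S F π ^ (p * m) * algebraMap S F H) := by
  haveI := N.prime
  have hπ0 : π ≠ 0 := nonZeroDivisors.ne_zero hB.reg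
  have hpm : 0 < p * m := Nat.mul_pos hB.prime.pos hB.m_pos
  have Br := s44gi_node_at hB 𝔮 (fun b => ssl_locSub F (𝔮 b)) u N.π_mem N.rad N.u_not_mem
    N.u_max N.π_dvd N.max_le
  obtain ⟨E, ε, hE0, hfE⟩ := s44tl_node_unit N hπ0 (lt_of_lt_of_le hpm hn) hf hPMV hglob
  obtain ⟨G, y, hG, hy, hfG⟩ := hglob
  exact s44tl_assemble 𝔮 (N.height hπ0) N.π_mem Br hn ε hE0
    (fun b => hy _ (N.prime b) (N.height hπ0 b) (N.π_mem b)) hfE hfG

end nodeMain

end Fermat.Agent.S44
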