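/-
S44 project, cell [G3] = [TOR], SUB (T-LOC) (helper16).  Prefix `s44tl_`.

**The local étale form at a closed point of an abstract chart: instantiation of the abstract
theorems `s44tl_smooth_main` / `s44tl_node_main` for `S = B_𝔫 = ssl_locSub F0 𝔫`.**

`A0` a discrete valuation ring with uniformiser `π`, `B ≤ B12 ⊆ F0` charts, `𝔫` a prime of `B`
containing `π`.

* `s44tl_base`       : the base data `s44gi_Base` for the constants `A0 → B_𝔫` from `s44t_PData`;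
* `s44tl_glob`       : the vertical hypothesis `s44tl_Glob` from the global split form (with
                       `b ∈ O`, `O ⊆ S⁻¹ B`: `ssl_point_vert`);
* `s44tl_point_smooth` : the local étale form at a smooth point.
-/
import Mathlib
import Fermat.Agent.S44.Tor.Defs
import Fermat.Agent.S44.Tor.LocNode

set_option autoImplicit false
set_option linter.unusedSectionVars false
set_option linter.style.haveILetI false
set_option linter.unusedVariables false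

namespace Fermat.Agent.S44

open Fermat.Agent.SS Fermat.Agent.JT3 IsLocalRing AlgebraicCurve

universe v

section General

variable {A0 : Type*} [CommRing A0] [IsDomain A0] [IsDiscreteValuationRing A0]
  {F0 : Type v} [Field F0] [Algebra A0 F0]
variable {B : Subalgebra A0 F0} [IsFractionRing B F0] [IsNoetherianRing B] [IsIntegrallyClosed B]
variable (𝔫 : Ideal B) [h𝔫 : 𝔫.IsPrime] {π : A0}

/-- `π` lies in the maximal ideal of `B_𝔫`. -/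
theorem s44tl_pi_mem_max (hπ𝔫 : algebraMap A0 B π ∈ 𝔫) :
    haveI := ssl_loc_isLocalRing (F0 := F0) 𝔫
    algebraMap B (ssl_locSub F0 𝔫) (algebraMap A0 B π) ∈ maximalIdeal (ssl_locSub F0 𝔫) := by
  haveI := ssl_loc_isLocalRing (F0 := F0) 𝔫
  rw [← IsLocalization.AtPrime.map_eq_maximalIdeal 𝔫 (ssl_locSub F0 𝔫)]
  exact Ideal.mem_map_of_mem _ hπ𝔫

/-- `π ≠ 0` in `B_𝔫`. -/
theorem s44tl_pi_ne_zero (hϖ0 : algebraMap A0 F0 π ≠ 0) :
    algebraMap B (ssl_locSub F0 𝔫) (algebraMap A0 B π) ≠ 0 := by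
  intro h0
  apply hϖ0
  have := congrArg (fun t : ssl_locSub F0 𝔫 => (t : F0)) h0
  exact this

/-- **the base data** for the constants `A0 → B_𝔫`. -/
theorem s44tl_base (hπ : Irreducible π) (hπ𝔫 : algebraMap A0 B π ∈ 𝔫)
    (hϖ0 : algebraMap A0 F0 π ≠ 0) {σ0 : A0 ≃+* A0} {p e k : ℕ} {ζ : A0}
    (D : s44t_PData π σ0 p e k ζ) :
    haveI := ssl_loc_isLocalRing (F0 := F0) 𝔫
    ∃ w : ssl_locSub F0 𝔫,
      s44gi_Base ((algebraMap B (ssl_locSub F0 𝔫)).comp (algebraMap A0 B)).range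
        (algebraMap B (ssl_locSub F0 𝔫) (algebraMap A0 B π)) w p e := by
  haveI := ssl_loc_isLocalRing (F0 := F0) 𝔫
  obtain ⟨v, hv⟩ := D.p_eq
  refine ⟨((algebraMap B (ssl_locSub F0 𝔫)).comp (algebraMap A0 B)) (v : A0), ?_⟩
  refine s44gi_base_of_dvr ((algebraMap B (ssl_locSub F0 𝔫)).comp (algebraMap A0 B)) hπ D.prime
    D.e_pos (by rw [hv, mul_comm e]) D.perf ?_ ?_
  · exact mem_nonZeroDivisors_of_ne_zero (s44tl_pi_ne_zero 𝔫 hϖ0)
  · exact s44tl_pi_mem_max 𝔫 hπ𝔫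

/-- **the vertical hypothesis** from the global split form. -/
theorem s44tl_glob (hπ𝔫 : algebraMap A0 B π ∈ 𝔫) (hϖ0 : algebraMap A0 F0 π ≠ 0)
    (O : Subring F0)
    (hOB : ∀ z ∈ O, ∃ s ∈ sfc_S B.toSubring (algebraMap A0 F0 π), s * z ∈ B) {p n : ℕ} {f : F0}
    (hglob : ∃ G b : F0, G ≠ 0 ∧ b ∈ O ∧ f = G ^ p * (1 + algebraMap A0 F0 π ^ n * b)) :
    s44tl_Glob (F := F0) (algebraMap B (ssl_locSub F0 𝔫) (algebraMap A0 B π)) p n f := by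
  obtain ⟨G, b, hG, hb, hf⟩ := hglob
  exact ⟨G, b, hG, fun 𝔮 h𝔮 h1 hπ𝔮 => ssl_point_vert 𝔫 hϖ0 O hOB 𝔮 h𝔮 h1 hπ𝔮 b hb, hf⟩

/-- from the abstract conclusion to the shape of `s44t_LocForm`. -/
theorem s44tl_locForm_of {p e : ℕ} {f : F0}
    (h : ∃ (D : F0) (H : ssl_locSub F0 𝔫), D ≠ 0 ∧
      f = D ^ p * (1 + algebraMap (ssl_locSub F0 𝔫) F0
        (algebraMap B (ssl_locSub F0 𝔫) (algebraMap A0 B π)) ^ (p * e) *
          algebraMap (ssl_locSub F0 𝔫) F0 H)) :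
    ∃ (D H : F0) (s : B), D ≠ 0 ∧ s ∉ 𝔫 ∧ (s : F0) * H ∈ B ∧
      f = D ^ p * (1 + algebraMap A0 F0 π ^ (p * e) * H) := by
  obtain ⟨D, H, hD, hf⟩ := h
  obtain ⟨a, s, hs, hHs⟩ := (ssl_mem_loc 𝔫).1 H.2
  refine ⟨D, (H : F0), s, hD, hs, ?_, hf⟩
  rw [mul_comm, hHs]
  exact a.2

end General

section Smooth

variable {A0 : Type*} [CommRing A0] [IsDomain A0] [IsDiscreteValuationRing A0]
  {K : Type*} [Field K] [Algebra A0 K] [IsFractionRing A0 K]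
  {F0 : Type v} [Field F0] [Algebra A0 F0] [Algebra K F0] [IsScalarTower A0 K F0]
variable {B : Subalgebra A0 F0} [IsFractionRing B F0] [IsNoetherianRing B] [IsIntegrallyClosed B]
variable (𝔫 : Ideal B) [h𝔫 : 𝔫.IsPrime] {π : A0}

/-- **the local étale form at a smooth point of the chart `B`.** -/
theorem s44tl_point_smooth (hπ : Irreducible π) (hπ𝔫 : algebraMap A0 B π ∈ 𝔫)
    (hϖ0 : algebraMap A0 F0 π ≠ 0) (hpt : ss_SmoothAt π B 𝔫) (O : Subring F0)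
    (hOB : ∀ z ∈ O, ∃ s ∈ sfc_S B.toSubring (algebraMap A0 F0 π), s * z ∈ B)
    {σ0 : A0 ≃+* A0} {p e k : ℕ} {ζ : A0} (D : s44t_PData π σ0 p e k ζ) {n : ℕ}
    (hn : p * e ≤ n) {f : F0} (hf : f ≠ 0) (hord : ∀ P : Place K F0, (p : ℤ) ∣ P.ord f)
    (hrat : ∀ P : Place K F0, P.ord f ≠ 0 → ss_RatPlace P)
    (hglob : ∃ G b : F0, G ≠ 0 ∧ b ∈ O ∧ f = G ^ p * (1 + algebraMap A0 F0 π ^ n * b)) :
    ∃ (D H : F0) (s : B), D ≠ 0 ∧ s ∉ 𝔫 ∧ (s : F0) * H ∈ B ∧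
      f = D ^ p * (1 + algebraMap A0 F0 π ^ (p * e) * H) := by
  haveI := ssl_loc_isNoetherianRing (F0 := F0) 𝔫
  haveI := ssl_loc_isIntegrallyClosed (F0 := F0) 𝔫
  haveI := ssl_loc_isLocalRing (F0 := F0) 𝔫
  have hPMV := ssl_powModVert_point (K := K) 𝔫 hπ hπ𝔫 hϖ0 (Or.inl hpt) p hf hord hrat
  obtain ⟨⟨t, ht⟩, hdom⟩ := hpt
  obtain ⟨w, hB⟩ := s44tl_base 𝔫 hπ hπ𝔫 hϖ0 D
  exact s44tl_locForm_of 𝔫 (s44tl_smooth_main hB (ssl_loc_prime_of_dom 𝔫 hϖ0 hπ𝔫 hdom) _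
    (ssl_loc_max_of_genBy 𝔫 ht) hn hf hPMV (s44tl_glob 𝔫 hπ𝔫 hϖ0 O hOB hglob))

end Smooth

section NodeInst

variable {A0 : Type*} [CommRing A0] [IsDomain A0] [IsDiscreteValuationRing A0]
  {F0 : Type v} [Field F0] [Algebra A0 F0]
variable {B B12 : Subalgebra A0 F0} [IsFractionRing B F0] [IsNoetherianRing B]
  [IsIntegrallyClosed B]
variable (𝔫 : Ideal B) [h𝔫 : 𝔫.IsPrime] {π : A0} (hle : B ≤ B12)

/-- the trace on `B` of an ideal of `B12`. -/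
def s44tl_tr (P : Ideal B12) : Ideal B := P.comap (Subalgebra.inclusion hle)

/-- the branch ideal `(P ∩ B) B_𝔫` of `B_𝔫`. -/
noncomputable def s44tl_br (P : Ideal B12) : Ideal (ssl_locSub F0 𝔫) :=
  Ideal.map (algebraMap B (ssl_locSub F0 𝔫)) (s44tl_tr hle P)

variable {𝔫 hle}

theorem s44tl_mem_br {P : Ideal B12} {z : ssl_locSub F0 𝔫} :
    z ∈ s44tl_br 𝔫 hle P ↔ ∃ a t : B, Subalgebra.inclusion hle a ∈ P ∧ t ∉ 𝔫 ∧
      (z : F0) * (t : F0) = (a : F0) := by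
  unfold s44tl_br
  rw [IsLocalization.mem_map_algebraMap_iff 𝔫.primeCompl]
  constructor
  · rintro ⟨⟨⟨a, ha⟩, ⟨t, ht⟩⟩, h⟩
    exact ⟨a, t, ha, ht, congrArg (fun w : ssl_locSub F0 𝔫 => (w : F0)) h⟩
  · rintro ⟨a, t, ha, ht, h⟩
    exact ⟨⟨⟨a, ha⟩, ⟨t, ht⟩⟩, Subtype.ext h⟩

/-- `(P1 ∩ B) ∩ (P2 ∩ B) = π B` from `P1 ∩ P2 = π B12` and `B12 = B[1/ξ]`, `ξ` a non-zero-divisor modulo
`π`. -/
theorem s44tl_redB {P1 P2 : Ideal B12}
    (hrad : Ideal.span {algebraMap A0 B12 π} = P1 ⊓ P2) {ξ : F0}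
    (hξS : ξ ∈ sfc_S B.toSubring (algebraMap A0 F0 π))
    (hclear : ∀ z ∈ B12, ∃ k : ℕ, ξ ^ k * z ∈ B) (b : B)
    (h1 : Subalgebra.inclusion hle b ∈ P1) (h2 : Subalgebra.inclusion hle b ∈ P2) :
    ∃ c : B, b = algebraMap A0 B π * c := by
  have h3 : Subalgebra.inclusion hle b ∈ P1 ⊓ P2 := ⟨h1, h2⟩
  rw [← hrad] at h3
  obtain ⟨c12, hc12⟩ := Ideal.mem_span_singleton.1 h3
  have hF : (b : F0) = algebraMap A0 F0 π * (c12 : F0) :=
    congrArg (fun t : B12 => (t : F0)) hc12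
  obtain ⟨k, hk⟩ := hclear c12 c12.2
  obtain ⟨c, hc, hbc⟩ := (sfc_S_pow hξS k).2.2 (b : F0) b.2
    ⟨ξ ^ k * c12, hk, by rw [hF]; ring⟩
  exact ⟨⟨c, hc⟩, Subtype.ext hbc⟩

/-- `𝔮₁ ∩ 𝔮₂ = π B_𝔫`. -/
theorem s44tl_br_rad {P1 P2 : Ideal B12}
    (hred : ∀ b : B, Subalgebra.inclusion hle b ∈ P1 → Subalgebra.inclusion hle b ∈ P2 →
      ∃ c : B, b = algebraMap A0 B π * c) {z : ssl_locSub F0 𝔫}
    (h1 : z ∈ s44tl_br 𝔫 hle P1) (h2 : z ∈ s44tl_br 𝔫 hle P2) :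
    algebraMap B (ssl_locSub F0 𝔫) (algebraMap A0 B π) ∣ z := by
  obtain ⟨a1, t1, ha1, ht1, e1⟩ := s44tl_mem_br.1 h1
  obtain ⟨a2, t2, ha2, ht2, e2⟩ := s44tl_mem_br.1 h2
  have hb : a1 * t2 = a2 * t1 := by
    apply Subtype.ext
    show (a1 : F0) * (t2 : F0) = (a2 : F0) * (t1 : F0)
    rw [← e1, ← e2]; ring
  have hb1 : Subalgebra.inclusion hle (a1 * t2) ∈ P1 := by
    rw [map_mul]; exact P1.mul_mem_right _ ha1
  have hb2 : Subalgebra.inclusion hle (a1 * t2) ∈ P2 := by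
    rw [hb, map_mul]; exact P2.mul_mem_right _ ha2
  obtain ⟨c, hc⟩ := hred _ hb1 hb2
  refine ssl_loc_dvd_of 𝔫 (s := t1 * t2) (d := c)
    (fun hm => (h𝔫.mem_or_mem hm).elim ht1 ht2) ?_
  have hc' : (a1 : F0) * (t2 : F0) = algebraMap A0 F0 π * (c : F0) :=
    congrArg (fun t : B => (t : F0)) hc
  show ((t1 : F0) * (t2 : F0)) * (z : F0) = _
  rw [← hc', ← e1]; ring

/-- the branch ideal of a component through `𝔫` is prime. -/
theorem s44tl_br_prime {P : Ideal B12} [hP : P.IsPrime] (hpass : s44tl_tr hle P ≤ 𝔫) :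
    (s44tl_br 𝔫 hle P).IsPrime :=
  IsLocalization.isPrime_of_isPrime_disjoint 𝔫.primeCompl _ _ (Ideal.comap_isPrime _ P)
    (Set.disjoint_left.2 fun _ hx hx' => hx (hpass hx'))

theorem s44tl_pi_mem_br {P : Ideal B12} (hπP : algebraMap A0 B12 π ∈ P) :
    algebraMap B (ssl_locSub F0 𝔫) (algebraMap A0 B π) ∈ s44tl_br 𝔫 hle P :=
  Ideal.mem_map_of_mem _ (show Subalgebra.inclusion hle (algebraMap A0 B π) ∈ P from hπP)

/-- an element of `B_𝔫` which is a unit at the component `P` through `𝔫` is not in the branch ideal. -/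
theorem s44tl_not_mem_br {P : Ideal B12} [hP : P.IsPrime] (hpass : s44tl_tr hle P ≤ 𝔫)
    {z : ssl_locSub F0 𝔫} (hz : ∃ s t : B12, s ∉ P ∧ t ∉ P ∧ (s : F0) * (z : F0) = t) :
    z ∉ s44tl_br 𝔫 hle P := by
  intro hmem
  obtain ⟨a', t', ha', ht', e⟩ := s44tl_mem_br.1 hmem
  obtain ⟨s, t, hs, ht, est⟩ := hz
  have h1 : t * Subalgebra.inclusion hle t' = s * Subalgebra.inclusion hle a' := by
    apply Subtype.ext
    show (t : F0) * (t' : F0) = (s : F0) * (a' : F0)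
    rw [← est, ← e]; ring
  have h2 : t * Subalgebra.inclusion hle t' ∈ P := h1 ▸ P.mul_mem_left _ ha'
  rcases hP.mem_or_mem h2 with h | h
  · exact ht h
  · exact ht' (hpass h)

/-- **both components pass through a node** (one half; the other by symmetry). -/
theorem s44tl_pass_aux {P P' : Ideal B12} [hP : P.IsPrime] [hP' : P'.IsPrime]
    (hπ : Irreducible π) (hϖ0 : algebraMap A0 F0 π ≠ 0) (hπ𝔫 : algebraMap A0 B π ∈ 𝔫)
    (hred : ∀ b : B, Subalgebra.inclusion hle b ∈ P → Subalgebra.inclusion hle b ∈ P' →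
      ∃ c : B, b = algebraMap A0 B π * c)
    (hπP' : algebraMap A0 B12 π ∈ P') {u' v' : ssl_locSub F0 𝔫} {a : A0} (ha : a ≠ 0)
    (huv : u' * v' = algebraMap B (ssl_locSub F0 𝔫) (algebraMap A0 B a))
    (hv'max : ¬ IsUnit v')
    (hv' : ∃ s t : B12, s ∉ P' ∧ t ∉ P' ∧ (s : F0) * (v' : F0) = t) :
    s44tl_tr hle P ≤ 𝔫 := by
  by_contra hnot
  obtain ⟨c, hcP, hc𝔫⟩ := Set.not_subset.1 hnot
  have hcP' : Subalgebra.inclusion hle c ∈ P := hcP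
  -- the other component passes
  have hpass' : s44tl_tr hle P' ≤ 𝔫 := by
    intro c' hc'
    by_contra hc'𝔫
    have hc'P : Subalgebra.inclusion hle c' ∈ P' := hc'
    obtain ⟨d, hd⟩ := hred (c * c') (by rw [map_mul]; exact P.mul_mem_right _ hcP')
      (by rw [map_mul]; exact P'.mul_mem_left _ hc'P)
    have : c * c' ∈ 𝔫 := hd ▸ 𝔫.mul_mem_right _ hπ𝔫
    rcases h𝔫.mem_or_mem this with h | h
    · exact hc𝔫 h
    · exact hc'𝔫 h
  -- `𝔮' = π B_𝔫`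
  have hall : ∀ z ∈ s44tl_br 𝔫 hle P',
      algebraMap B (ssl_locSub F0 𝔫) (algebraMap A0 B π) ∣ z := by
    intro z hz
    obtain ⟨a', t, ha', ht, e⟩ := s44tl_mem_br.1 hz
    obtain ⟨d, hd⟩ := hred (c * a') (by rw [map_mul]; exact P.mul_mem_right _ hcP')
      (by rw [map_mul]; exact P'.mul_mem_left _ ha')
    refine ssl_loc_dvd_of 𝔫 (s := c * t) (d := d)
      (fun hm => (h𝔫.mem_or_mem hm).elim hc𝔫 ht) ?_
    have hd' : (c : F0) * (a' : F0) = algebraMap A0 F0 π * (d : F0) :=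
      congrArg (fun t : B => (t : F0)) hd
    show ((c : F0) * (t : F0)) * (z : F0) = _
    rw [← hd', ← e]; ring
  haveI hprime' := s44tl_br_prime hpass'
  have hπ0 := s44tl_pi_ne_zero 𝔫 hϖ0
  have heq : s44tl_br 𝔫 hle P' =
      Ideal.span {algebraMap B (ssl_locSub F0 𝔫) (algebraMap A0 B π)} := by
    apply le_antisymm
    · intro z hz
      exact Ideal.mem_span_singleton.2 (hall z hz)
    · rw [Ideal.span_le, Set.singleton_subset_iff]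
      exact s44tl_pi_mem_br hπP'
  have hπprime : Prime (algebraMap B (ssl_locSub F0 𝔫) (algebraMap A0 B π)) :=
    (Ideal.span_singleton_prime hπ0).1 (heq ▸ hprime')
  have hndvd : ¬ algebraMap B (ssl_locSub F0 𝔫) (algebraMap A0 B π) ∣ v' := by
    intro hdvd
    apply s44tl_not_mem_br hpass' hv'
    rw [heq]
    exact Ideal.mem_span_singleton.2 hdvd
  obtain ⟨k, hk⟩ := IsDiscreteValuationRing.associated_pow_irreducible ha hπ
  obtain ⟨e, he⟩ := hk.symm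
  have hψ : algebraMap B (ssl_locSub F0 𝔫) (algebraMap A0 B a) =
      algebraMap B (ssl_locSub F0 𝔫) (algebraMap A0 B π) ^ k *
        algebraMap B (ssl_locSub F0 𝔫) (algebraMap A0 B (e : A0)) := by
    rw [← he, map_mul, map_mul, map_pow, map_pow]
  have hdvd : algebraMap B (ssl_locSub F0 𝔫) (algebraMap A0 B π) ^ k ∣ u' * v' := by
    rw [huv, hψ]; exact dvd_mul_right _ _
  obtain ⟨u'', hu''⟩ := hπprime.pow_dvd_of_dvd_mul_right k hndvd hdvd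
  have h3 : u'' * v' = algebraMap B (ssl_locSub F0 𝔫) (algebraMap A0 B (e : A0)) := by
    have h4 : algebraMap B (ssl_locSub F0 𝔫) (algebraMap A0 B π) ^ k * (u'' * v') =
        algebraMap B (ssl_locSub F0 𝔫) (algebraMap A0 B π) ^ k *
          algebraMap B (ssl_locSub F0 𝔫) (algebraMap A0 B (e : A0)) := by
      rw [← hψ, ← huv, hu'']; ring
    exact mul_left_cancel₀ (pow_ne_zero k hπ0) h4
  have hunit : IsUnit (u'' * v') := by
    rw [h3]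
    exact (e.isUnit.map (algebraMap A0 B)).map (algebraMap B (ssl_locSub F0 𝔫))
  exact hv'max (isUnit_of_mul_isUnit_right hunit)

end NodeInst

section NodeData

variable {A0 : Type*} [CommRing A0] [IsDomain A0] [IsDiscreteValuationRing A0]
  {F0 : Type v} [Field F0] [Algebra A0 F0]
variable {B B12 : Subalgebra A0 F0} [IsFractionRing B F0] [IsNoetherianRing B]
  [IsIntegrallyClosed B]
variable {𝔫 : Ideal B} [h𝔫 : 𝔫.IsPrime] {π : A0}

/-- **the abstract node data of `B_𝔫` at an ordinary double point** (`ss_NodeAt` without the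
`σ`-part). -/
theorem s44tl_nodeData (hle : B ≤ B12) {P1 P2 : Ideal B12} [hP1 : P1.IsPrime]
    [hP2 : P2.IsPrime] (hπ : Irreducible π) (hϖ0 : algebraMap A0 F0 π ≠ 0) (hπ𝔫 : algebraMap A0 B π ∈ 𝔫)
    (hrad : Ideal.span {algebraMap A0 B12 π} = P1 ⊓ P2) {ξ : F0}
    (hξS : ξ ∈ sfc_S B.toSubring (algebraMap A0 F0 π))
    (hclear : ∀ z ∈ B12, ∃ k : ℕ, ξ ^ k * z ∈ B)
    {u v : F0} {a : A0} (huv : u * v = algebraMap A0 F0 a)
    (hu : ∃ s t : B, s ∉ 𝔫 ∧ t ∈ 𝔫 ∧ (s : F0) * u = t)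
    (hv : ∃ s t : B, s ∉ 𝔫 ∧ t ∈ 𝔫 ∧ (s : F0) * v = t)
    (hgen : ∀ z ∈ 𝔫, ∃ s c1 c2 c3 : B, s ∉ 𝔫 ∧
      (s : F0) * (z : F0) = algebraMap A0 F0 π * c1 + u * c2 + v * c3)
    (hu1 : ∃ s t : B12, s ∉ P1 ∧ t ∉ P1 ∧ (s : F0) * u = t)
    (hv2 : ∃ s t : B12, s ∉ P2 ∧ t ∉ P2 ∧ (s : F0) * v = t) :
    haveI := ssl_loc_isLocalRing (F0 := F0) 𝔫
    ∃ (𝔮 : Bool → Ideal (ssl_locSub F0 𝔫)) (uu : Bool → ssl_locSub F0 𝔫) (k : ℕ),
      s44tl_NodeData (algebraMap B (ssl_locSub F0 𝔫) (algebraMap A0 B π)) 𝔮 uu k := by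
  haveI := ssl_loc_isLocalRing (F0 := F0) 𝔫
  obtain ⟨su, tu, hsu, htu, hsut⟩ := hu
  obtain ⟨sv, tv, hsv, htv, hsvt⟩ := hv
  set uR : ssl_locSub F0 𝔫 := ⟨u, ssl_loc_mem_of 𝔫 hsu hsut⟩ with huR
  set vR : ssl_locSub F0 𝔫 := ⟨v, ssl_loc_mem_of 𝔫 hsv hsvt⟩ with hvR
  have huvR : uR * vR = algebraMap B (ssl_locSub F0 𝔫) (algebraMap A0 B a) := Subtype.ext huv
  have hmaxeq := IsLocalization.AtPrime.map_eq_maximalIdeal 𝔫 (ssl_locSub F0 𝔫)
  have humax : uR ∈ maximalIdeal (ssl_locSub F0 𝔫) := by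
    rw [← hmaxeq]; exact ssl_loc_mem_map_of 𝔫 hsu htu hsut
  have hvmax : vR ∈ maximalIdeal (ssl_locSub F0 𝔫) := by
    rw [← hmaxeq]; exact ssl_loc_mem_map_of 𝔫 hsv htv hsvt
  -- `u, v ≠ 0`, `a ≠ 0`
  have hu0 : u ≠ 0 := by
    rintro rfl
    obtain ⟨s, t, hs, ht, hst⟩ := hu1
    rw [mul_zero] at hst
    have : t = 0 := Subtype.ext hst.symm
    exact ht (this ▸ P1.zero_mem)
  have hv0 : v ≠ 0 := by
    rintro rfl
    obtain ⟨s, t, hs, ht, hst⟩ := hv2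
    rw [mul_zero] at hst
    have : t = 0 := Subtype.ext hst.symm
    exact ht (this ▸ P2.zero_mem)
  have ha0 : a ≠ 0 := by
    rintro rfl
    rw [map_zero] at huv
    exact mul_ne_zero hu0 hv0 huv
  -- `π ∈ P1, P2`
  have hπP : algebraMap A0 B12 π ∈ P1 ⊓ P2 := hrad ▸ Ideal.mem_span_singleton_self _
  have hred := s44tl_redB (hle := hle) hrad hξS hclear
  have hred' : ∀ b : B, Subalgebra.inclusion hle b ∈ P2 → Subalgebra.inclusion hle b ∈ P1 →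
      ∃ c : B, b = algebraMap A0 B π * c := fun b h2 h1 => hred b h1 h2
  -- both components pass through the node
  have hpass1 : s44tl_tr hle P1 ≤ 𝔫 :=
    s44tl_pass_aux hπ hϖ0 hπ𝔫 hred hπP.2 ha0 huvR ((mem_maximalIdeal _).1 hvmax) hv2
  have hpass2 : s44tl_tr hle P2 ≤ 𝔫 :=
    s44tl_pass_aux hπ hϖ0 hπ𝔫 hred' hπP.1 ha0 (by rw [mul_comm]; exact huvR)
      ((mem_maximalIdeal _).1 humax) hu1
  -- `a = π ^ k · unit`
  obtain ⟨k, hk⟩ := IsDiscreteValuationRing.associated_pow_irreducible ha0 hπ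
  obtain ⟨e, he⟩ := hk.symm
  refine ⟨fun b => cond b (s44tl_br 𝔫 hle P1) (s44tl_br 𝔫 hle P2), fun b => cond b uR vR, k,
    ?_, ?_, ?_, ?_, ?_, ?_, ?_⟩
  · intro b
    cases b
    · exact s44tl_br_prime hpass2
    · exact s44tl_br_prime hpass1
  · intro b
    cases b
    · exact s44tl_pi_mem_br hπP.2
    · exact s44tl_pi_mem_br hπP.1
  · intro s h1 h2
    exact s44tl_br_rad hred h1 h2
  · intro b
    cases b
    · exact s44tl_not_mem_br hpass2 hv2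
    · exact s44tl_not_mem_br hpass1 hu1
  · intro b
    cases b
    · exact hvmax
    · exact humax
  · refine ⟨((e.isUnit.map (algebraMap A0 B)).map (algebraMap B (ssl_locSub F0 𝔫))).unit, ?_⟩
    rw [IsUnit.unit_spec]
    show uR * vR = _
    rw [huvR, ← he, map_mul, map_mul, map_pow, map_pow]
  · show maximalIdeal (ssl_locSub F0 𝔫) ≤
      Ideal.span {algebraMap B (ssl_locSub F0 𝔫) (algebraMap A0 B π), uR, vR}
    rw [← hmaxeq, Ideal.map_le_iff_le_comap]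
    intro z hz
    obtain ⟨s, c1, c2, c3, hs, hsz⟩ := hgen z hz
    have h1 : algebraMap B (ssl_locSub F0 𝔫) s * algebraMap B (ssl_locSub F0 𝔫) z =
        algebraMap B (ssl_locSub F0 𝔫) (algebraMap A0 B π) * algebraMap B (ssl_locSub F0 𝔫) c1 +
          uR * algebraMap B (ssl_locSub F0 𝔫) c2 + vR * algebraMap B (ssl_locSub F0 𝔫) c3 :=
      Subtype.ext hsz
    have h2 : algebraMap B (ssl_locSub F0 𝔫) s * algebraMap B (ssl_locSub F0 𝔫) z ∈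
        Ideal.span {algebraMap B (ssl_locSub F0 𝔫) (algebraMap A0 B π), uR, vR} := by
      rw [h1]
      refine Ideal.add_mem _ (Ideal.add_mem _ ?_ ?_) ?_
      · exact Ideal.mul_mem_right _ _ (Ideal.subset_span (by simp))
      · exact Ideal.mul_mem_right _ _ (Ideal.subset_span (by simp))
      · exact Ideal.mul_mem_right _ _ (Ideal.subset_span (by simp))
    rw [Ideal.mem_comap]
    exact (Ideal.unit_mul_mem_iff_mem _ (ssl_loc_isUnit 𝔫 hs)).1 h2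

end NodeData

section NodePoint

variable {A0 : Type*} [CommRing A0] [IsDomain A0] [IsDiscreteValuationRing A0]
  {K : Type*} [Field K] [Algebra A0 K] [IsFractionRing A0 K]
  {F0 : Type v} [Field F0] [Algebra A0 F0] [Algebra K F0] [IsScalarTower A0 K F0]
variable {B B12 : Subalgebra A0 F0} [IsFractionRing B F0] [IsNoetherianRing B]
  [IsIntegrallyClosed B]
variable (𝔫 : Ideal B) [h𝔫 : 𝔫.IsPrime] {π : A0} (hle : B ≤ B12)

/-- **the local étale form at an ordinary double point of the chart `B`.** -/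
theorem s44tl_point_node {P1 P2 : Ideal B12} [hP1 : P1.IsPrime] [hP2 : P2.IsPrime]
    (hπ : Irreducible π) (hπ𝔫 : algebraMap A0 B π ∈ 𝔫) (hϖ0 : algebraMap A0 F0 π ≠ 0)
    (hrad : Ideal.span {algebraMap A0 B12 π} = P1 ⊓ P2) {ξ : F0}
    (hξS : ξ ∈ sfc_S B.toSubring (algebraMap A0 F0 π))
    (hclear : ∀ z ∈ B12, ∃ k : ℕ, ξ ^ k * z ∈ B)
    {σ : F0 ≃+* F0} {σ0 : A0 ≃+* A0} (hpt : ss_NodeAt π σ σ0 hle P1 P2 𝔫) (O : Subring F0)
    (hOB : ∀ z ∈ O, ∃ s ∈ sfc_S B.toSubring (algebraMap A0 F0 π), s * z ∈ B)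
    {p e k : ℕ} {ζ : A0} (D : s44t_PData π σ0 p e k ζ) {n : ℕ}
    (hn : p * e ≤ n) {f : F0} (hf : f ≠ 0) (hord : ∀ P : Place K F0, (p : ℤ) ∣ P.ord f)
    (hrat : ∀ P : Place K F0, P.ord f ≠ 0 → ss_RatPlace P)
    (hglob : ∃ G b : F0, G ≠ 0 ∧ b ∈ O ∧ f = G ^ p * (1 + algebraMap A0 F0 π ^ n * b)) :
    ∃ (D H : F0) (s : B), D ≠ 0 ∧ s ∉ 𝔫 ∧ (s : F0) * H ∈ B ∧
      f = D ^ p * (1 + algebraMap A0 F0 π ^ (p * e) * H) := by
  haveI := ssl_loc_isNoetherianRing (F0 := F0) 𝔫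
  haveI := ssl_loc_isIntegrallyClosed (F0 := F0) 𝔫
  haveI := ssl_loc_isLocalRing (F0 := F0) 𝔫
  have hPMV := ssl_powModVert_point (K := K) 𝔫 hπ hπ𝔫 hϖ0
    (Or.inr (ssl_nodeAt_of_nodeAt hle hpt)) p hf hord hrat
  obtain ⟨u, v, a, huv, -, -, hu, hv, hgen, hu1, hv2⟩ := hpt
  obtain ⟨𝔮, uu, k', N⟩ := s44tl_nodeData hle hπ hϖ0 hπ𝔫 hrad hξS hclear huv hu hv hgen
    hu1 hv2
  obtain ⟨w, hB⟩ := s44tl_base 𝔫 hπ hπ𝔫 hϖ0 D
  exact s44tl_locForm_of 𝔫 (s44tl_node_main hB N hn hf hPMV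
    (s44tl_glob 𝔫 hπ𝔫 hϖ0 O hOB hglob))

/-- **THE LOCAL ÉTALE FORM ON AN ABSTRACT CHART** `B ≤ B12 = B[1/ξ]`. -/
theorem s44tl_chart {P1 P2 : Ideal B12} [hP1 : P1.IsPrime] [hP2 : P2.IsPrime]
    (hπ : Irreducible π) (hϖ0 : algebraMap A0 F0 π ≠ 0)
    (hrad : Ideal.span {algebraMap A0 B12 π} = P1 ⊓ P2) {ξ : F0}
    (hξS : ξ ∈ sfc_S B.toSubring (algebraMap A0 F0 π))
    (hclear : ∀ z ∈ B12, ∃ k : ℕ, ξ ^ k * z ∈ B)
    {σ : F0 ≃+* F0} {σ0 : A0 ≃+* A0}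
    (hpts : ∀ 𝔫 : Ideal B, 𝔫.IsMaximal → algebraMap A0 B π ∈ 𝔫 →
      ss_SmoothAt π B 𝔫 ∨ ss_NodeAt π σ σ0 hle P1 P2 𝔫)
    (O : Subring F0)
    (hOB : ∀ z ∈ O, ∃ s ∈ sfc_S B.toSubring (algebraMap A0 F0 π), s * z ∈ B)
    {p e k : ℕ} {ζ : A0} (D : s44t_PData π σ0 p e k ζ) {n : ℕ}
    (hn : p * e ≤ n) {f : F0} (hf : f ≠ 0) (hord : ∀ P : Place K F0, (p : ℤ) ∣ P.ord f)
    (hrat : ∀ P : Place K F0, P.ord f ≠ 0 → ss_RatPlace P)
    (hglob : ∃ G b : F0, G ≠ 0 ∧ b ∈ O ∧ f = G ^ p * (1 + algebraMap A0 F0 π ^ n * b)) :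
    s44t_LocForm π p e f B := by
  intro 𝔫 h𝔫 hπ𝔫
  haveI := h𝔫.isPrime
  rcases hpts 𝔫 h𝔫 hπ𝔫 with hpt | hpt
  · exact s44tl_point_smooth (K := K) 𝔫 hπ hπ𝔫 hϖ0 hpt O hOB D hn hf hord hrat hglob
  · exact s44tl_point_node (K := K) 𝔫 hle hπ hπ𝔫 hϖ0 hrad hξS hclear hpt O hOB D hn hf hord
      hrat hglob

end NodePoint

end Fermat.Agent.S44
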