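/-
S44 project, cell [G3] = [TOR], SUB (T-LOC) (helper16).  Prefix `s44tl_`; final name `s44t_loc`.

**THE LOCAL ÉTALE FORM ON BOTH CHARTS OF AN `ss_Model`.**

`A0` a discrete valuation ring with uniformiser `π`, `K = Frac A0`, `F0 / K` a function field,
`M : ss_Model π x σ σ0 P1 P2`, `D : s44t_PData π σ0 p e k ζ`.  For `f ∈ F0ˣ` whose orders at all places
of `F0 / K` are divisible by `p`, whose zeros and poles are `K`-rational, and which has the global
split form `f = G ^ p (1 + π ^ (p e + 1) b)`, `b ∈ O = sfc_O B₁₂`:  at every closed point `𝔫` of the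
special fibre of the charts `B₁ = fc_chart A0 {x}`, `B₂ = fc_chart A0 {x⁻¹}`

  `f = D ^ p (1 + π ^ (p e) H)`,  `H ∈ B_𝔫`     (`s44t_LocForm`).

* `s44tl_loc`  : from `M` and the algebraicity / finiteness of the second chart;
* `s44t_loc`   : the same in the function-field situation (`x` transcendental over `K`,
                 `F0 / K(x)` finite, `char K = 0`).

Route (all in `Tor/Loc*.lean`): `ssl_powModVert_point` (helper10) gives `f = e₀ ^ p U`, `U` a
horizontal unit of `S = B_𝔫`; the vertical part of `U` is a `p`-th power (smooth point: valuation at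
`π S`; node: `s44tl_node_monomial` + `s44tl_node_dvd`); the remaining unit of `S` is split on every
vertical branch, so the [G1] depth induction `s44g_ind_top` and `s44g_loc_const` apply
(`s44tl_assemble`).
-/
import Mathlib
import Fermat.Agent.S44.Tor.LocInst

set_option autoImplicit false
set_option linter.unusedSectionVars false
set_option linter.style.haveILetI false
set_option linter.unusedVariables false

namespace Fermat.Agent.S44

open Fermat.Agent.SS Fermat.Agent.JT3 IsLocalRing AlgebraicCurve IntermediateField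

universe v

section Model

variable {A0 : Type*} [CommRing A0] [IsDomain A0] [IsDiscreteValuationRing A0]
  {K : Type*} [Field K] [Algebra A0 K] [IsFractionRing A0 K]
  {F0 : Type v} [Field F0] [Algebra A0 F0] [Algebra K F0] [IsScalarTower A0 K F0]
  {π : A0} {x : F0} {σ : F0 ≃+* F0} {σ0 : A0 ≃+* A0}
  {P1 P2 : Ideal (fc_chart A0 ({x, x⁻¹} : Set F0))}

/-- **the local étale form on both charts of an `ss_Model`**, from the algebraicity / finiteness of
the second chart. -/
theorem s44tl_loc (hπ : Irreducible π) (M : ss_Model π x σ σ0 P1 P2)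
    (hAlg2 : Algebra.IsAlgebraic (Algebra.adjoin A0 ({x⁻¹} : Set F0)) F0)
    (hfin2 : Module.Finite (Algebra.adjoin A0 ({x⁻¹} : Set F0))
      (integralClosure (Algebra.adjoin A0 ({x⁻¹} : Set F0)) F0))
    {p e k : ℕ} {ζ : A0} (D : s44t_PData π σ0 p e k ζ) {f : F0} (hf : f ≠ 0)
    (hord : ∀ P : Place K F0, (p : ℤ) ∣ P.ord f)
    (hrat : ∀ P : Place K F0, P.ord f ≠ 0 → ss_RatPlace P)
    (hglob : s44t_GlobForm π x p (p * e + 1) f) :
    s44t_LocForm π p e f (fc_chart A0 ({x} : Set F0)) ∧
      s44t_LocForm π p e f (fc_chart A0 ({x⁻¹} : Set F0)) := by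
  have hϖ0 := ssa_pi_ne_zero M
  have hx := ssa_x_ne_zero M
  haveI := M.prime1
  haveI := M.prime2
  constructor
  · haveI := M.isAlg
    haveI := ssa_noeth1 M
    haveI : IsIntegrallyClosed (fc_chart A0 ({x} : Set F0)) := ssl_chart_isIntegrallyClosed {x}
    exact s44tl_chart (K := K) (fc_chart1_le x) hπ hϖ0 M.hrad M.hxS1
      (fun z hz => fc_clear1 hx hz) M.pts1 _ (ssl_model_OB1 M) D (Nat.le_succ _) hf hord hrat hglob
  · haveI := hAlg2
    haveI : IsNoetherianRing (fc_chart A0 ({x⁻¹} : Set F0)) := by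
      have := fc_chart_isNoetherianRing (A0 := A0) (F0 := F0) {x⁻¹}
        (by rw [Finset.coe_singleton]; exact hfin2)
      rwa [Finset.coe_singleton] at this
    haveI : IsIntegrallyClosed (fc_chart A0 ({x⁻¹} : Set F0)) :=
      ssl_chart_isIntegrallyClosed {x⁻¹}
    exact s44tl_chart (K := K) (fc_chart2_le x) hπ hϖ0 M.hrad M.hxS2
      (fun z hz => fc_clear2 hx hz) M.pts2 _ (ssl_model_OB2 M) D (Nat.le_succ _) hf hord hrat hglob

/-- **(T-LOC) THE LOCAL ÉTALE FORM ON BOTH CHARTS**, function-field situation. -/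
theorem s44t_loc [CharZero K] (hπ : Irreducible π) (hx : Transcendental K x)
    [FiniteDimensional K⟮x⟯ F0] (M : ss_Model π x σ σ0 P1 P2) {p e k : ℕ} {ζ : A0}
    (D : s44t_PData π σ0 p e k ζ) {f : F0} (hf : f ≠ 0)
    (hord : ∀ P : Place K F0, (p : ℤ) ∣ P.ord f)
    (hrat : ∀ P : Place K F0, P.ord f ≠ 0 → ss_RatPlace P)
    (hglob : s44t_GlobForm π x p (p * e + 1) f) :
    s44t_LocForm π p e f (fc_chart A0 ({x} : Set F0)) ∧
      s44t_LocForm π p e f (fc_chart A0 ({x⁻¹} : Set F0)) := by
  have hxi : Transcendental K x⁻¹ := fun h => hx (IsAlgebraic.inv_iff.mp h)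
  haveI hfd2 : FiniteDimensional K⟮x⁻¹⟯ F0 := by
    rw [rt_adjoin_inv]; infer_instance
  exact s44tl_loc (K := K) hπ M (fc_ff_isAlgebraic (L := K) x⁻¹) (fc_ff_finite (L := K) hxi) D hf
    hord hrat hglob

end Model

end Fermat.Agent.S44
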