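/-
S44 project, cell [G3] = [TOR] (owner helper10), sub-cell (T-NF), auxiliary lemmas.  Prefix `s44t_`.

* `s44t_p_eq`        : `p = (ζ - 1) ^ (p - 1) · unit` in any domain containing a primitive `p`-th root
                       of unity `ζ`;
* `s44t_zeta_mem`    : roots of unity lie in every valuation subring;
* `s44t_perf`        : the residue field of a valuation subring `O` of an algebraic extension of `ℚ`
                       of residue characteristic `p` is perfect: `∀ c ∈ O, ∃ b ∈ O, b ^ p - c ∈ 𝔪`.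
-/
import Mathlib

set_option autoImplicit false
set_option linter.style.haveILetI false

namespace Fermat.Agent.S44

open Polynomial

/-- `p = (ζ - 1) ^ (p - 1) · unit`. -/
theorem s44t_p_eq {A : Type*} [CommRing A] [IsDomain A] {p : ℕ} (hp : p.Prime) {ζ : A}
    (hζ : IsPrimitiveRoot ζ p) : ∃ v : Aˣ, (p : A) = (ζ - 1) ^ (p - 1) * (v : A) := by
  obtain ⟨n, rfl⟩ : ∃ n, p = n + 1 := ⟨p - 1, by have := hp.pos; omega⟩
  have h1 := hζ.prod_one_sub_pow_eq_order
  have h2 : ∀ k ∈ Finset.range n, ∃ u : Aˣ, 1 - ζ ^ (k + 1) = (ζ - 1) * (u : A) := by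
    intro k hk
    rw [Finset.mem_range] at hk
    have hcop : (k + 1).Coprime (n + 1) :=
      Nat.Coprime.symm ((Nat.Prime.coprime_iff_not_dvd hp).2
        (Nat.not_dvd_of_pos_of_lt (by omega) (by omega)))
    obtain ⟨u, hu⟩ := hζ.associated_sub_one_pow_sub_one_of_coprime hcop
    refine ⟨-u, ?_⟩
    rw [Units.val_neg, mul_neg, hu]
    ring
  choose! u hu using h2
  refine ⟨∏ k ∈ Finset.range n, u k, ?_⟩
  rw [Nat.add_sub_cancel]
  have h3 : ((n + 1 : ℕ) : A) = (n : A) + 1 := by push_cast; ring
  rw [h3, ← h1, Finset.prod_congr rfl hu, Finset.prod_mul_distrib, Finset.prod_const,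
    Finset.card_range, Units.coe_prod]

/-- roots of unity lie in every valuation subring. -/
theorem s44t_zeta_mem {L : Type*} [Field L] (O : ValuationSubring L) {ζ : L} {n : ℕ} (hn : n ≠ 0)
    (hζ : ζ ^ n = 1) : ζ ∈ O := by
  rcases O.mem_or_inv_mem ζ with h | h
  · exact h
  · have h1 : ζ = ζ⁻¹ ^ (n - 1) := by
      have hζ0 : ζ ≠ 0 := by
        rintro rfl
        rw [zero_pow hn] at hζ
        exact zero_ne_one hζ
      obtain ⟨m, rfl⟩ : ∃ m, n = m + 1 := ⟨n - 1, by omega⟩
      rw [Nat.add_sub_cancel, inv_pow]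
      rw [pow_succ] at hζ
      field_simp
      rw [mul_comm]; exact hζ
    rw [h1]
    exact O.pow_mem h _

section Perf

variable {L : Type*} [Field L] [CharZero L] [Algebra.IsAlgebraic ℚ L]

/-- every element of `L` is a root of a primitive integer polynomial. -/
theorem s44t_exists_primitive (c : L) :
    ∃ g : ℤ[X], g.IsPrimitive ∧ aeval c g = 0 := by
  have hc : IsAlgebraic ℚ c := Algebra.IsAlgebraic.isAlgebraic c
  have hcZ : IsAlgebraic ℤ c := (IsFractionRing.isAlgebraic_iff ℤ ℚ L).2 hc
  obtain ⟨g, hg0, hg⟩ := hcZ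
  refine ⟨g.primPart, g.isPrimitive_primPart, ?_⟩
  have h1 : g = C g.content * g.primPart := g.eq_C_content_mul_primPart
  have h2 : aeval c g = algebraMap ℤ L g.content * aeval c g.primPart := by
    conv_lhs => rw [h1]
    rw [map_mul, aeval_C]
  rw [hg] at h2
  have h3 : algebraMap ℤ L g.content ≠ 0 := by
    rw [Ne, map_eq_zero_iff _ (algebraMap ℤ L).injective_int]
    exact content_eq_zero_iff.not.2 hg0
  exact (mul_eq_zero.1 h2.symm).resolve_left h3

variable (O : ValuationSubring L) {p : ℕ} [hp : Fact p.Prime]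

/-- **the residue field of `O` is perfect.** -/
theorem s44t_perf (hpO : (p : L) ∈ O.nonunits) (c : L) (hc : c ∈ O) :
    ∃ b ∈ O, b ^ p - c ∈ O.nonunits := by
  classical
  -- the residue field and its characteristic
  set k := IsLocalRing.ResidueField O with hk
  have hp0 : ((p : ℕ) : k) = 0 := by
    have h1 : ((p : ℕ) : O) ∈ IsLocalRing.maximalIdeal O := by
      rw [IsLocalRing.mem_maximalIdeal, mem_nonunits_iff]
      intro hu
      have h2 : ((((p : ℕ) : O) : O) : L) ∈ O.nonunits := by
        have : ((((p : ℕ) : O) : O) : L) = (p : L) := by push_cast; rfl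
        rw [this]; exact hpO
      rw [ValuationSubring.coe_mem_nonunits_iff] at h2
      exact (IsLocalRing.mem_maximalIdeal _).1 h2 hu
    have := (IsLocalRing.residue_eq_zero_iff ((p : ℕ) : O)).2 h1
    rwa [map_natCast] at this
  haveI : CharP k p := by
    obtain ⟨q, hq⟩ := CharP.exists k
    have hdvd : q ∣ p := (CharP.cast_eq_zero_iff k q p).1 hp0
    rcases (Nat.dvd_prime hp.out).1 hdvd with h1 | h1
    · exact absurd h1 (CharP.char_ne_one k q)
    · rwa [h1] at hq
  letI : Algebra (ZMod p) k := ZMod.algebra k p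
  -- `c̄` is algebraic over `𝔽_p`
  obtain ⟨g, hgprim, hg⟩ := s44t_exists_primitive c
  set cb : k := IsLocalRing.residue O ⟨c, hc⟩ with hcb
  have halg : IsAlgebraic (ZMod p) cb := by
    refine ⟨g.map (Int.castRingHom (ZMod p)), ?_, ?_⟩
    · intro h0
      have h1 : (C (p : ℤ)) ∣ g := by
        rw [C_dvd_iff_dvd_coeff]
        intro i
        have := congrArg (fun q => q.coeff i) h0
        simp only [coeff_map, coeff_zero, eq_intCast] at this
        exact (ZMod.intCast_zmod_eq_zero_iff_dvd _ _).1 this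
      have h2 := hgprim _ h1
      rw [Int.isUnit_iff] at h2
      have := hp.out.two_le
      omega
    · -- evaluate
      have h1 : aeval (⟨c, hc⟩ : O) g = 0 := by
        apply Subtype.ext
        have : ((aeval (⟨c, hc⟩ : O) g : O) : L) = aeval c g := by
          have h3 : (O.subtype : O →+* L) (aeval (⟨c, hc⟩ : O) g) =
              aeval ((O.subtype : O →+* L) ⟨c, hc⟩) g := by
            rw [aeval_def, aeval_def, hom_eval₂]
            congr 1
          exact h3
        rw [this, hg]
        rfl
      have h2 : aeval cb g = 0 := by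
        have h3 : (IsLocalRing.residue O) (aeval (⟨c, hc⟩ : O) g) = aeval cb g := by
          rw [aeval_def, aeval_def, hom_eval₂]
          congr 1
        rw [← h3, h1, map_zero]
      rw [aeval_def, eval₂_map]
      rw [aeval_def] at h2
      rw [← h2]
      congr 1
      exact RingHom.ext_int _ _
  -- the finite field `𝔽_p(c̄)`
  set F : IntermediateField (ZMod p) k := IntermediateField.adjoin (ZMod p) ({cb} : Set k) with hF
  haveI : FiniteDimensional (ZMod p) F :=
    IntermediateField.adjoin.finiteDimensional halg.isIntegral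
  haveI : Finite F := Module.finite_of_finite (ZMod p)
  haveI : CharP F p := charP_of_injective_algebraMap (algebraMap (ZMod p) F).injective p
  have hcbF : cb ∈ F := IntermediateField.mem_adjoin_simple_self (ZMod p) cb
  obtain ⟨y, hy⟩ : ∃ y : F, y ^ p = ⟨cb, hcbF⟩ :=
    ⟨(frobeniusEquiv F p).symm ⟨cb, hcbF⟩, by
      rw [← frobenius_def]; exact frobenius_apply_frobeniusEquiv_symm F p _⟩
  obtain ⟨b, hb⟩ := IsLocalRing.residue_surjective (y : k)
  refine ⟨(b : L), b.2, ?_⟩
  have h1 : IsLocalRing.residue O (b ^ p - ⟨c, hc⟩) = 0 := by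
    rw [map_sub, map_pow, hb, ← hcb]
    have := congrArg (fun z : F => (z : k)) hy
    simp only [SubmonoidClass.coe_pow] at this
    rw [this, sub_self]
  rw [IsLocalRing.residue_eq_zero_iff] at h1
  have h2 : ((b ^ p - ⟨c, hc⟩ : O) : L) ∈ O.nonunits :=
    ValuationSubring.coe_mem_nonunits_iff.2 h1
  exact h2

end Perf

end Fermat.Agent.S44
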