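/-
S44 project, cell [G3] = [TOR] (owner helper10).  Prefix `s44t_`.

**The seams of [TOR] above the abstract core.**

  `s44_Tor_stmt (s44_frame2 P M hpM)`
      ⟸ (T-TOP)   `s44t_TorBar M p hp hpM`    (function-level statement over `Q̄`)
      ⟸ (T-DESC)  `s44t_CoreNFP M p hp hp2 hpM` (the `p`-core over all large number fields, Legendre cover)
      ⟸ (T-NF)    the abstract `p`-core `s44t_core_abs` for the `ss_Model` of `SS/Model/FinalLegNF.lean`
                  at `q := p`.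
-/
import Mathlib
import Fermat.Agent.S44.Tor.Defs
import Fermat.Agent.S44.Frame2
import Fermat.Agent.SS.Model.TwoPrimesLeg
import Fermat.Agent.SS.Seams

set_option autoImplicit false

noncomputable section

namespace Fermat.Agent.S44

open Fermat.Agent.SS Fermat.Agent.JT3 AlgebraicCurve ModularCurve

local notation "Qb" => AlgebraicClosure ℚ

/-- **(T-TOP) ⟸ : the function-level [TOR] statement over `Q̄`.**  For every place `A` of `Q̄` over
`p`, `σ` in its inertia group with `σ ζ = ζ ^ k` (`ζ` a primitive `p`-th root of unity), and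
`f ∈ F̄_N ˣ` (`N = M p`) with all orders divisible by `p` which is split to depth `p²` at `w_∞`
and at `w_0 = w_∞ ∘ W̄`:  `σ f = c · r ^ p · f ^ k`. -/
def s44t_TorBar (M p : ℕ) [NeZero M] [NeZero p] (hp : p.Prime) (hpM : ¬ p ∣ M) : Prop :=
  ∀ A : ValuationSubring Qb, A.LiesOverPrime p →
    ∀ σ ∈ A.inertiaSubgroupIn ℚ, ∀ (ζ : Qb) (k : ℕ), ζ ^ p = 1 → ζ ≠ 1 → σ ζ = ζ ^ k →
      ∀ f : modularFunctionFieldBar (M * p), f ≠ 0 →
        (∀ v : Place Qb (modularFunctionFieldBar (M * p)), (p : ℤ) ∣ v.ord f) →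
        (∃ g b : modularFunctionFieldBar (M * p), g ≠ 0 ∧
          gq_IsBdd ↥A Qb (b : LaurentSeries Qb) ∧
          f = g ^ p * (1 + algebraMap Qb (modularFunctionFieldBar (M * p)) ((p : Qb) ^ 2) * b)) →
        (∃ g b : modularFunctionFieldBar (M * p), g ≠ 0 ∧
          gq_IsBdd ↥A Qb (b : LaurentSeries Qb) ∧
          ssm_al_Wbar M p hp hpM f =
            g ^ p * (1 + algebraMap Qb (modularFunctionFieldBar (M * p)) ((p : Qb) ^ 2) * b)) →
        ∃ (c : Qb) (r : modularFunctionFieldBar (M * p)), r ≠ 0 ∧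
          ss_act (M * p) σ f =
            algebraMap Qb (modularFunctionFieldBar (M * p)) c * r ^ p * f ^ k

/-- **(T-DESC) ⟸ : the `p`-core over all sufficiently large number fields** (Legendre cover
`E = lg_E L1 (M p)`, Gauss valuation `w_∞` and `w_0 = w_∞ ∘ W_E`). -/
def s44t_CoreNFP (M p : ℕ) [NeZero M] [NeZero p] (hp : p.Prime) (hp2 : ¬ 2 ∣ p)
    (hpM : ¬ p ∣ M) : Prop :=
  ∀ A : ValuationSubring Qb, A.LiesOverPrime p →
    ∃ T : Finset Qb,
      ∀ L1 : IntermediateField ℚ Qb, FiniteDimensional ℚ L1 → Normal ℚ L1 →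
        (↑T : Set Qb) ⊆ L1 →
        ∀ σ : L1 ≃ₐ[ℚ] L1, ss_Inert (A.comap (algebraMap L1 Qb)) σ.toRingEquiv →
        ∀ (ζ : L1) (k : ℕ), ζ ^ p = 1 → ζ ≠ 1 → σ ζ = ζ ^ k →
        ∀ g : lg_E L1 (M * p), g ≠ 0 →
          (∀ v : Place L1 (lg_E L1 (M * p)), (p : ℤ) ∣ v.ord g) →
          (∀ v : Place L1 (lg_E L1 (M * p)), v.ord g ≠ 0 → ss_RatPlace v) →
          (∃ G b : lg_E L1 (M * p), G ≠ 0 ∧
            gq_IsBdd ↥(A.comap (algebraMap L1 Qb)) L1 (b : LaurentSeries L1) ∧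
            g = G ^ p * (1 + algebraMap L1 (lg_E L1 (M * p)) ((p : L1) ^ 2) * b)) →
          (∃ G b : lg_E L1 (M * p), G ≠ 0 ∧
            gq_IsBdd ↥(A.comap (algebraMap L1 Qb)) L1
              ((ssm_al_WE L1 M p hp hp2 hpM b : lg_E L1 (M * p)) : LaurentSeries L1) ∧
            g = G ^ p * (1 + algebraMap L1 (lg_E L1 (M * p)) ((p : L1) ^ 2) * b)) →
          ∃ (c : L1) (r : LaurentSeries L1), r ∈ lg_E L1 (M * p) ∧ r ≠ 0 ∧
            coeffMap (σ.toRingEquiv : L1 →+* L1) (g : LaurentSeries L1) =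
              algebraMap L1 (LaurentSeries L1) c * r ^ p * (g : LaurentSeries L1) ^ k

end Fermat.Agent.S44
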