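/-
S44 project, cell [G3] = [TOR], SUBs (T-GLOB) + (T-ROOT) of helper10's seam #3909 (helper13).
Prefix `s44tv_` (helpers), final names `s44t_glob`, `s44t_root`.  Namespace `Fermat.Agent.S44`.
Imports: Mathlib + `SS/Model/TwoPrimes` + `S44/SFCp/Loc2`.

* `s44t_glob` (T-GLOB): in the two-valuation setting `ssm_tp_Hyp π V1 V2`, the two split forms
  `f = G₁ ^ p (1 + π ^ n b₁)`, `b₁ ∈ V1` and `f = G₂ ^ p (1 + π ^ n b₂)`, `b₂ ∈ V2` are realised by ONE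
  `G`: `f = G ^ p (1 + π ^ n b)`, `b ∈ V1 ∩ V2`  (weak approximation
  `G = θ G₁ + (1 - θ) G₂`, `θ = a ^ N / (a ^ N + c ^ N)`).
* `s44t_root` (T-ROOT): `x ^ p ∈ 1 + ϖ ^ (p e) V`, `ζ - 1 = ϖ ^ e · unit`
  ⟹ `x = ζ ^ a (1 + ϖ ^ e w)`, `w ∈ V`  (from `s44s_root_cong`; in fact `a = 0`).
-/
import Mathlib
import Fermat.Agent.SS.Model.TwoPrimes
import Fermat.Agent.S44.SFCp.Loc2

set_option autoImplicit false
set_option linter.unusedSectionVars false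
set_option linter.unusedVariables false

namespace Fermat.Agent.S44

open Fermat.Agent.SS

section Aux

variable {E : Type*} [Field E] (V : ValuationSubring E)

/-- a unit plus a non-unit is not a non-unit -/
theorem s44tv_unit_add {a c : E} (ha : a ∉ V.nonunits) (hc : c ∈ V.nonunits) :
    a + c ∉ V.nonunits := by
  intro h
  have := ssm_tp_nonunits_add V h (ssm_tp_nonunits_neg V hc)
  rw [add_neg_cancel_right] at this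
  exact ha this

/-- **one-sided approximation**: `a` a unit, `c` a non-unit of `V`, `ϖ` a uniformiser, `ϖ ^ k ρ ∈ V`,
`N = k + (m + 1)` ⟹ `c ^ N / (a ^ N + c ^ N) · ρ ∈ ϖ ^ (m + 1) V` and `a ^ N + c ^ N ≠ 0`. -/
theorem s44tv_approx {ϖ : E} (hϖV : ϖ ∈ V) (hϖ0 : ϖ ≠ 0)
    (hunif : ∀ z ∈ V.nonunits, ϖ⁻¹ * z ∈ V) {a c : E} (haV : a ∈ V) (ha : a ∉ V.nonunits)
    (hc : c ∈ V.nonunits) {ρ : E} {k : ℕ} (hρ : ϖ ^ k * ρ ∈ V) (m : ℕ) :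
    a ^ (k + (m + 1)) + c ^ (k + (m + 1)) ≠ 0 ∧
      ∃ y ∈ V, c ^ (k + (m + 1)) * (a ^ (k + (m + 1)) + c ^ (k + (m + 1)))⁻¹ * ρ =
        ϖ ^ (m + 1) * y := by
  set N := k + (m + 1) with hN
  have hcV : c ∈ V := V.nonunits_subset hc
  have hc' : ϖ⁻¹ * c ∈ V := hunif c hc
  have haN : a ^ N ∉ V.nonunits := ssm_tp_pow_not_mem V ha N
  have hcN : c ^ N ∈ V.nonunits := by
    have : c ^ N = c * c ^ (k + m) := by rw [hN, ← pow_succ']; rfl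
    rw [this]
    exact ssm_tp_nonunits_mul V hc (V.pow_mem hcV _)
  have hD : a ^ N + c ^ N ∉ V.nonunits := s44tv_unit_add V haN hcN
  have hD0 : a ^ N + c ^ N ≠ 0 := ssm_tp_ne_zero V hD
  have hDinv : (a ^ N + c ^ N)⁻¹ ∈ V := ssm_tp_inv_mem V hD
  refine ⟨hD0, (ϖ⁻¹ * c) ^ N * (a ^ N + c ^ N)⁻¹ * (ϖ ^ k * ρ),
    V.mul_mem _ _ (V.mul_mem _ _ (V.pow_mem hc' N) hDinv) hρ, ?_⟩
  have h1 : (ϖ⁻¹ * c) ^ N = (ϖ ^ N)⁻¹ * c ^ N := by rw [mul_pow, inv_pow]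
  have h2 : ϖ ^ N = ϖ ^ (m + 1) * ϖ ^ k := by rw [hN, pow_add, mul_comm]
  have hϖN : ϖ ^ N ≠ 0 := pow_ne_zero _ hϖ0
  rw [h1]
  have h3 : ϖ ^ (m + 1) * ((ϖ ^ N)⁻¹ * c ^ N * (a ^ N + c ^ N)⁻¹ * (ϖ ^ k * ρ)) =
      (ϖ ^ (m + 1) * ϖ ^ k) * (ϖ ^ N)⁻¹ * (c ^ N * (a ^ N + c ^ N)⁻¹ * ρ) := by ring
  rw [h3, ← h2, mul_inv_cancel₀ hϖN, one_mul]

/-- `U = 1 + ϖ ^ (m + 1) y` is a unit of `V` and `U ^ (-p) ∈ 1 + ϖ ^ (m + 1) V`. -/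
theorem s44tv_unit_pow {ϖ : E} (hϖ : ϖ ∈ V.nonunits) {y : E} (hy : y ∈ V) (m p : ℕ) :
    1 + ϖ ^ (m + 1) * y ≠ 0 ∧
      ∃ y'' ∈ V, ((1 + ϖ ^ (m + 1) * y)⁻¹) ^ p = 1 + ϖ ^ (m + 1) * y'' := by
  have hϖV : ϖ ∈ V := V.nonunits_subset hϖ
  have hnu : ϖ ^ (m + 1) * y ∈ V.nonunits := by
    rw [pow_succ', mul_assoc]
    exact ssm_tp_nonunits_mul V hϖ (V.mul_mem _ _ (V.pow_mem hϖV m) hy)
  have hU : 1 + ϖ ^ (m + 1) * y ∉ V.nonunits :=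
    s44tv_unit_add V (ssm_tp_one_not_mem_nonunits V) hnu
  have hU0 : 1 + ϖ ^ (m + 1) * y ≠ 0 := ssm_tp_ne_zero V hU
  have hUinv : (1 + ϖ ^ (m + 1) * y)⁻¹ ∈ V := ssm_tp_inv_mem V hU
  refine ⟨hU0, -((1 + ϖ ^ (m + 1) * y)⁻¹ * y *
    ∑ i ∈ Finset.range p, ((1 + ϖ ^ (m + 1) * y)⁻¹) ^ i), ?_, ?_⟩
  · apply V.neg_mem
    refine V.mul_mem _ _ (V.mul_mem _ _ hUinv hy) ?_
    exact sum_mem (fun i _ => V.pow_mem hUinv i)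
  · have h1 := geom_sum_mul ((1 + ϖ ^ (m + 1) * y)⁻¹) p
    have h2 : (1 + ϖ ^ (m + 1) * y)⁻¹ - 1 = -((1 + ϖ ^ (m + 1) * y)⁻¹ * (ϖ ^ (m + 1) * y)) := by
      field_simp
      ring
    rw [h2] at h1
    linear_combination -h1

/-- **one side of (T-GLOB)**: `f = G₁ ^ p (1 + ϖ ^ n b₁)`, `b₁ ∈ V`, `G = G₁ (1 + ϖ ^ (n + 1) y)`,
`y ∈ V` ⟹ `G ≠ 0` and `f = G ^ p (1 + ϖ ^ n β)`, `β ∈ V`. -/
theorem s44tv_side {ϖ : E} (hϖ : ϖ ∈ V.nonunits) {p n : ℕ} {f G1 b1 G y : E} (hG1 : G1 ≠ 0)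
    (hb1 : b1 ∈ V) (hf : f = G1 ^ p * (1 + ϖ ^ n * b1)) (hy : y ∈ V)
    (hG : G = G1 * (1 + ϖ ^ (n + 1) * y)) :
    G ≠ 0 ∧ ∃ β ∈ V, f = G ^ p * (1 + ϖ ^ n * β) := by
  have hϖV : ϖ ∈ V := V.nonunits_subset hϖ
  obtain ⟨hU0, y'', hy'', hpow⟩ := s44tv_unit_pow V hϖ hy n p
  refine ⟨by rw [hG]; exact mul_ne_zero hG1 hU0, b1 + ϖ * y'' + ϖ ^ (n + 1) * b1 * y'', ?_, ?_⟩
  · exact V.add_mem _ _ (V.add_mem _ _ hb1 (V.mul_mem _ _ hϖV hy''))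
      (V.mul_mem _ _ (V.mul_mem _ _ (V.pow_mem hϖV _) hb1) hy'')
  · have hUp : (1 + ϖ ^ (n + 1) * y) ^ p ≠ 0 := pow_ne_zero _ hU0
    have h1 : 1 + ϖ ^ n * (b1 + ϖ * y'' + ϖ ^ (n + 1) * b1 * y'') =
        (1 + ϖ ^ (n + 1) * y'') * (1 + ϖ ^ n * b1) := by ring
    rw [h1, ← hpow, hf, hG, mul_pow, inv_pow]
    field_simp

end Aux

section Glob

variable {R : Type*} [CommRing R] [IsDomain R] [IsIntegrallyClosed R]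
  {E : Type*} [Field E] [Algebra R E] [FaithfulSMul R E]

/-- **(T-GLOB)** weak approximation for the split forms at the two components. -/
theorem s44t_glob {π : R} {V1 V2 : ValuationSubring E} (H : ssm_tp_Hyp π V1 V2) {p : ℕ}
    (hp : 0 < p) (n : ℕ) {f : E}
    (h1 : ∃ G b : E, G ≠ 0 ∧ b ∈ V1 ∧ f = G ^ p * (1 + algebraMap R E π ^ n * b))
    (h2 : ∃ G b : E, G ≠ 0 ∧ b ∈ V2 ∧ f = G ^ p * (1 + algebraMap R E π ^ n * b)) :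
    ∃ G b : E, G ≠ 0 ∧ b ∈ V1 ∧ b ∈ V2 ∧ f = G ^ p * (1 + algebraMap R E π ^ n * b) := by
  obtain ⟨G1, b1, hG1, hb1, hf1⟩ := h1
  obtain ⟨G2, b2, hG2, hb2, hf2⟩ := h2
  set ϖ := algebraMap R E π with hϖdef
  have hϖ0 : ϖ ≠ 0 := H.algebraMap_ne_zero
  have hϖ1 : ϖ ∈ V1.nonunits := H.over1.pi_mem
  have hϖ2 : ϖ ∈ V2.nonunits := H.over2.pi_mem
  obtain ⟨a, haint, ha1, ha2⟩ := H.sep12
  obtain ⟨c, hcint, hc2, hc1⟩ := H.sep21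
  have haV1 : a ∈ V1 := H.over1.mem_of_isIntegral haint
  have hcV2 : c ∈ V2 := H.over2.mem_of_isIntegral hcint
  -- pole bounds
  obtain ⟨k1, hk1⟩ := H.over1.exists_pow_mul_mem H.fin H.alg (G2 * G1⁻¹ - 1)
  obtain ⟨k2, hk2⟩ := H.over2.exists_pow_mul_mem H.fin H.alg (G1 * G2⁻¹ - 1)
  have hk1' : ϖ ^ (k1 + k2) * (G2 * G1⁻¹ - 1) ∈ V1 := by
    rw [pow_add, mul_comm (ϖ ^ k1), mul_assoc]
    exact V1.mul_mem _ _ (V1.pow_mem (V1.nonunits_subset hϖ1) _) hk1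
  have hk2' : ϖ ^ (k1 + k2) * (G1 * G2⁻¹ - 1) ∈ V2 := by
    rw [pow_add, mul_assoc]
    exact V2.mul_mem _ _ (V2.pow_mem (V2.nonunits_subset hϖ2) _) hk2
  obtain ⟨hD0, y1, hy1, hy1e⟩ := s44tv_approx V1 (V1.nonunits_subset hϖ1) hϖ0 H.unif1 haV1 ha1 hc1
    hk1' n
  obtain ⟨-, y2, hy2, hy2e⟩ := s44tv_approx V2 (V2.nonunits_subset hϖ2) hϖ0 H.unif2 hcV2 hc2 ha2
    hk2' n
  set N := k1 + k2 + (n + 1) with hN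
  set D := a ^ N + c ^ N with hD
  have hD' : c ^ N + a ^ N = D := by rw [hD, add_comm]
  rw [hD'] at hy2e
  -- the glued root
  set G := a ^ N * D⁻¹ * G1 + c ^ N * D⁻¹ * G2 with hG
  have hGV1 : G = G1 * (1 + ϖ ^ (n + 1) * y1) := by
    rw [← hy1e, hG]
    field_simp
    rw [hD]
    ring
  have hGV2 : G = G2 * (1 + ϖ ^ (n + 1) * y2) := by
    rw [← hy2e, hG]
    field_simp
    rw [hD]
    ring
  obtain ⟨hG0, β1, hβ1, hfβ1⟩ := s44tv_side V1 hϖ1 hG1 hb1 hf1 hy1 hGV1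
  obtain ⟨-, β2, hβ2, hfβ2⟩ := s44tv_side V2 hϖ2 hG2 hb2 hf2 hy2 hGV2
  have hβ : β1 = β2 := by
    have h3 : G ^ p * (1 + ϖ ^ n * β1) = G ^ p * (1 + ϖ ^ n * β2) := by rw [← hfβ1, ← hfβ2]
    have h4 := mul_left_cancel₀ (pow_ne_zero p hG0) h3
    have h5 : ϖ ^ n * β1 = ϖ ^ n * β2 := add_left_cancel h4
    exact mul_left_cancel₀ (pow_ne_zero n hϖ0) h5
  exact ⟨G, β1, hG0, hβ1, hβ ▸ hβ2, hfβ1⟩

end Glob

section Root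

variable {E : Type*} [Field E]

/-- **(T-ROOT)** `x ^ p ∈ 1 + ϖ ^ (p e) V`, `ζ - 1 = ϖ ^ e · unit` ⟹ `x = ζ ^ a (1 + ϖ ^ e w)`. -/
theorem s44t_root (V : ValuationSubring E) {p e : ℕ} (hp : p.Prime) {ϖ ζ : E} (hϖ : ϖ ∈ V)
    (hζ : ζ ^ p = 1) (hζ1 : ζ ≠ 1)
    (hζe : ∃ u : E, u ∈ V ∧ u⁻¹ ∈ V ∧ ζ - 1 = ϖ ^ e * u) {x : E}
    (hx : ∃ y ∈ V, x ^ p = 1 + ϖ ^ (p * e) * y) :
    ∃ (a : ℕ) (w : E), w ∈ V ∧ x = ζ ^ a * (1 + ϖ ^ e * w) := by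
  obtain ⟨u, hu, hu', hζu⟩ := hζe
  obtain ⟨y, hy, hxy⟩ := hx
  have hprim : IsPrimitiveRoot ζ p := by
    have h := IsPrimitiveRoot.orderOf ζ
    have : Fact p.Prime := ⟨hp⟩
    rwa [orderOf_eq_prime hζ hζ1] at h
  have hu0 : u ≠ 0 := by
    intro h0
    apply hζ1
    have : ζ - 1 = 0 := by rw [hζu, h0, mul_zero]
    exact sub_eq_zero.1 this
  have hd : ∃ H ∈ V, x ^ p - 1 = (ζ - 1) ^ p * H := by
    refine ⟨(u⁻¹) ^ p * y, V.mul_mem _ _ (V.pow_mem hu' p) hy, ?_⟩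
    rw [hxy, hζu, mul_pow, ← pow_mul, mul_comm e p, inv_pow]
    have : u ^ p ≠ 0 := pow_ne_zero _ hu0
    field_simp
    ring
  obtain ⟨ε, hε, hxε⟩ := s44s_root_cong V hp hprim hd
  refine ⟨0, u * ε, V.mul_mem _ _ hu hε, ?_⟩
  rw [pow_zero, one_mul]
  have : x = 1 + (ζ - 1) * ε := by rw [← hxε]; ring
  rw [this, hζu]
  ring

end Root

end Fermat.Agent.S44
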