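/-
S44 project, cell [G3] = [TOR] (owner helper10), sub-cell (T-NF).  Prefix `s44t_`.

**The `p`-core over all sufficiently large number fields** `s44t_CoreNFP M p hp hp2 hpM`, from the
abstract `p`-core (`s44t_AbsCoreLeg M p` = the statement of `s44t_core_abs` for the Legendre cover
fields) applied to the `ss_Model` of `SS/Model/FinalLegNF.lean` at `q := p`.

* `s44t_pdata`      : the arithmetic data `s44t_PData` for `O = A ∩ L1`, `ζ` a nontrivial `p`-th root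
                      of unity of `L1`;
* `s44t_AbsCoreLeg` : the abstract `p`-core, instantiated at the Legendre cover fields;
* `s44t_coreNFP_of` : `s44t_AbsCoreLeg M p → s44t_CoreNFP M p hp hp2 hpM`.
-/
import Mathlib
import Fermat.Agent.S44.Tor.Seams
import Fermat.Agent.S44.Tor.NFAux
import Fermat.Agent.S44.Tor.Val
import Fermat.Agent.SS.Model.NodeLegB

set_option autoImplicit false
set_option linter.unusedVariables false
set_option linter.unusedSectionVars false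
set_option linter.style.haveILetI false

noncomputable section

namespace Fermat.Agent.S44

open Fermat.Agent.SS Fermat.Agent.JT3 AlgebraicCurve ModularCurve IntermediateField IsLocalRing

local notation "Qb" => AlgebraicClosure ℚ

section PData

variable {L : Type*} [Field L] [CharZero L] [Algebra.IsAlgebraic ℚ L]
  (O : ValuationSubring L) [IsDiscreteValuationRing O] {π : O} (hπ : Irreducible π)
  {p : ℕ} [hp : Fact p.Prime]

include hπ in
/-- **the arithmetic data at `p`** for a discrete valuation ring `O` of residue characteristic `p`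
of an algebraic extension of `ℚ`, `σ` stabilising `O`, `ζ` a nontrivial `p`-th root of unity. -/
theorem s44t_pdata (hp2 : ¬ 2 ∣ p) (hpO : (p : L) ∈ O.nonunits) (σ : L ≃+* L)
    (h : ∀ z ∈ O, σ z ∈ O) (h' : ∀ z ∈ O, σ.symm z ∈ O) {ζ : L} {k : ℕ} (hζp : ζ ^ p = 1)
    (hζ1 : ζ ≠ 1) (hσζ : σ ζ = ζ ^ k) :
    ∃ e : ℕ, s44t_PData π (ss_sigmaO O σ h h') p e k
      (⟨ζ, s44t_zeta_mem O hp.out.ne_zero hζp⟩ : O) := by
  have hpp := hp.out
  set ζO : O := ⟨ζ, s44t_zeta_mem O hpp.ne_zero hζp⟩ with hζO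
  have hζOp : ζO ^ p = 1 := Subtype.ext (by simpa using hζp)
  have hζO1 : ζO ≠ 1 := fun h0 => hζ1 (by
    have := congrArg (fun z : O => (z : L)) h0
    simpa [hζO] using this)
  have hprim : IsPrimitiveRoot ζO p := by
    have h1 : orderOf ζO ∣ p := orderOf_dvd_of_pow_eq_one hζOp
    rcases (Nat.dvd_prime hpp).1 h1 with h2 | h2
    · exact absurd (orderOf_eq_one_iff.1 h2) hζO1
    · rw [← h2]; exact IsPrimitiveRoot.orderOf ζO
  have hsub0 : ζO - 1 ≠ 0 := sub_ne_zero.2 hζO1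
  obtain ⟨e, he⟩ := IsDiscreteValuationRing.associated_pow_irreducible hsub0 hπ
  obtain ⟨u, hu⟩ := he.symm
  -- `p ∈ 𝔪`
  have hpm : ((p : ℕ) : O) ∈ maximalIdeal O := by
    have h2 : ((((p : ℕ) : O) : O) : L) ∈ O.nonunits := by
      have : ((((p : ℕ) : O) : O) : L) = (p : L) := by push_cast; rfl
      rw [this]; exact hpO
    exact ValuationSubring.coe_mem_nonunits_iff.1 h2
  have he0 : 0 < e := by
    rcases Nat.eq_zero_or_pos e with h0 | h0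
    · exfalso
      rw [h0, pow_zero, one_mul] at hu
      have h3 : ζO - 1 ∣ ((p : ℕ) : O) := sub_one_dvd_natCast_of_pow_eq_one hζOp hζO1
      have h4 : IsUnit ((p : ℕ) : O) → False := (mem_maximalIdeal _).1 hpm
      rw [← hu] at h3
      -- a unit divides `p`, fine; but then `ζ - 1` is a unit and `p ∈ (ζ-1)`... use residue
      have h5 : (ζO - 1) ∈ maximalIdeal O := by
        -- `(ζ̄ - 1)^p = ζ̄^p - 1 = 0` in characteristic `p`
        have hchar : CharP (ResidueField O) p := by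
          have h0' : ((p : ℕ) : ResidueField O) = 0 := by
            have := (residue_eq_zero_iff ((p : ℕ) : O)).2 hpm
            rwa [map_natCast] at this
          obtain ⟨q, hq⟩ := CharP.exists (ResidueField O)
          have hdvd : q ∣ p := (CharP.cast_eq_zero_iff (ResidueField O) q p).1 h0'
          rcases (Nat.dvd_prime hpp).1 hdvd with h1 | h1
          · exact absurd h1 (CharP.char_ne_one (ResidueField O) q)
          · rwa [h1] at hq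
        rw [← residue_eq_zero_iff, map_sub, map_one]
        have h6 : (residue O ζO - 1) ^ p = 0 := by
          rw [sub_pow_char, one_pow, ← map_pow, hζOp, map_one, sub_self]
        exact pow_eq_zero_iff hpp.ne_zero |>.1 h6
      exact (mem_maximalIdeal _).1 h5 (hu ▸ u.isUnit)
    · exact h0
  obtain ⟨v, hv⟩ := s44t_p_eq hpp hprim
  refine ⟨e, ⟨hpp, ?_, he0, hζOp, ⟨u, hu.symm⟩, ?_, ?_, ?_⟩⟩
  · have := hpp.two_le
    rcases Nat.lt_or_ge p 3 with h3 | h3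
    · exfalso
      have : p = 2 := by omega
      exact hp2 (by rw [this])
    · exact h3
  · refine ⟨u ^ (p - 1) * v, ?_⟩
    rw [hv, ← hu, mul_pow, ← pow_mul, Units.val_mul, Units.val_pow_eq_pow_val, mul_comm e (p - 1)]
    ring
  · apply Subtype.ext
    simpa using hσζ
  · intro c
    obtain ⟨b, hb, hbc⟩ := s44t_perf O hpO (c : L) c.2
    refine ⟨⟨b, hb⟩, ?_⟩
    have h1 : ((⟨b, hb⟩ : O) ^ p - c) ∈ maximalIdeal O := by
      apply ValuationSubring.coe_mem_nonunits_iff.1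
      simpa using hbc
    rw [hπ.maximalIdeal_eq, Ideal.mem_span_singleton] at h1
    exact h1

end PData

section Main

/-- **the abstract `p`-core at the Legendre cover fields** (= `s44t_core_abs` for
`A0 = O`, `K = L1`, `F0 = lg_E L1 (M p)`, `x = λ`). -/
def s44t_AbsCoreLeg (M p : ℕ) [NeZero M] [NeZero p] : Prop :=
  ∀ (L1 : IntermediateField ℚ Qb) [NumberField ↥L1] (O : ValuationSubring ↥L1)
    [IsDiscreteValuationRing ↥O] {π : ↥O} (_hπ : Irreducible π)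
    (σE : ↥(lg_E ↥L1 (M * p)) ≃+* ↥(lg_E ↥L1 (M * p))) (σ0 : ↥O ≃+* ↥O)
    (P1 P2 : Ideal (fc_chart ↥O
      ({lg_lamE (M * p), (lg_lamE (M * p))⁻¹} : Set ↥(lg_E ↥L1 (M * p)))))
    (_Mod : ss_Model π (lg_lamE (L := ↥L1) (M * p)) σE σ0 P1 P2) {e k : ℕ} {ζ : ↥O}
    (_D : s44t_PData π σ0 p e k ζ) {f : ↥(lg_E ↥L1 (M * p))} (_hf : f ≠ 0)
    (_hord : ∀ P : Place ↥L1 ↥(lg_E ↥L1 (M * p)), (p : ℤ) ∣ P.ord f)
    (_hrat : ∀ P : Place ↥L1 ↥(lg_E ↥L1 (M * p)), P.ord f ≠ 0 → ss_RatPlace P)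
    (_hglob : s44t_GlobForm π (lg_lamE (L := ↥L1) (M * p)) p (p * e + 1) f),
    ∃ (c : ↥O) (g : ↥(lg_E ↥L1 (M * p))), g ≠ 0 ∧
      σE f = algebraMap ↥O ↥(lg_E ↥L1 (M * p)) c * g ^ p * f ^ k

/-- **(T-NF)** -/
theorem s44t_coreNFP_of (M p : ℕ) [NeZero M] [NeZero p] (hp : p.Prime) (hp2 : ¬ 2 ∣ p)
    (hpM : ¬ p ∣ M) (hcore : s44t_AbsCoreLeg M p) : s44t_CoreNFP M p hp hp2 hpM := by
  haveI : Fact p.Prime := ⟨hp⟩
  obtain ⟨ζ', hζ'⟩ := HasEnoughRootsOfUnity.exists_primitiveRoot Qb M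
  intro A hA
  refine ⟨{ζ'}, fun L1 hfd hn hT σ hin ζ k hζp hζ1 hσζ g hg hord hrat hs1 hs2 => ?_⟩
  have hζmem : ζ' ∈ L1 := hT (by simp)
  have hζM : IsPrimitiveRoot (⟨ζ', hζmem⟩ : ↥L1) M :=
    (IsPrimitiveRoot.map_iff_of_injective (f := algebraMap ↥L1 Qb)
      (FaithfulSMul.algebraMap_injective ↥L1 Qb)).1 hζ'
  haveI : NumberField ↥L1 := { to_charZero := inferInstance, to_finiteDimensional := hfd }
  haveI hdvr : IsDiscreteValuationRing ↥(A.comap (algebraMap ↥L1 Qb)) :=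
    dsc_isDVR_comap_numberField A p hA hp.ne_zero ↥L1
  obtain ⟨π, hπ⟩ := IsDiscreteValuationRing.exists_irreducible ↥(A.comap (algebraMap ↥L1 Qb))
  have hmem := lg_natCast_mem_maximalIdeal A hA ↥L1
  haveI : CharP (IsLocalRing.ResidueField ↥(A.comap (algebraMap ↥L1 Qb))) p :=
    ss_nfl_charP_residue hmem
  have h : ∀ z ∈ A.comap (algebraMap ↥L1 Qb), σ.toRingEquiv z ∈ A.comap (algebraMap ↥L1 Qb) :=
    fun z hz => ssm_gs_mem hin hz
  have h' : ∀ z ∈ A.comap (algebraMap ↥L1 Qb),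
      σ.toRingEquiv.symm z ∈ A.comap (algebraMap ↥L1 Qb) :=
    fun z hz => ssm_gs_mem (ssm_gs_inert_symm _ _ hin) hz
  have hE : ∀ z ∈ lg_E ↥L1 (M * p),
      coeffMap (σ.toRingEquiv : ↥L1 →+* ↥L1) z ∈ lg_E ↥L1 (M * p) :=
    fun z hz => ssm_gs_coeffMap_mem_E (M * p) _ hz
  have hE' : ∀ z ∈ lg_E ↥L1 (M * p),
      coeffMap (σ.toRingEquiv.symm : ↥L1 →+* ↥L1) z ∈ lg_E ↥L1 (M * p) :=
    fun z hz => ssm_gs_coeffMap_mem_E (M * p) _ hz
  have Mod := ssm_fln_model_of_node ↥L1 (A.comap (algebraMap ↥L1 Qb)) hπ M p hp2 hpM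
    ⟨ζ', hζmem⟩ hζM σ.toRingEquiv hin hE hE' h h'
    (ssm_nlb_nodeHyp ↥L1 (A.comap (algebraMap ↥L1 Qb)) hπ M p hp2 hpM ⟨ζ', hζmem⟩ hζM
      σ.toRingEquiv hin)
  have hx : Transcendental ↥L1 (lg_lamE (L := ↥L1) (M * p)) :=
    lgf_lam_transcendental ↥L1 (M * p) two_ne_zero
  haveI := lgf_finite ↥L1 (M * p)
  -- the arithmetic data
  have hpO : (p : ↥L1) ∈ (A.comap (algebraMap ↥L1 Qb)).nonunits := by
    rw [dsc_mem_comap_nonunits_iff, map_natCast]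
    exact hA
  obtain ⟨e, D⟩ := s44t_pdata (A.comap (algebraMap ↥L1 Qb)) hπ hp2 hpO σ.toRingEquiv h h' hζp hζ1
    hσζ
  -- the two-primes hypotheses and the dictionary
  have hpr := ssm_ll_prime ↥L1 M hπ p hmem (ssm_fl_ne_two p hp2) hpM ⟨ζ', hζmem⟩ hζM
  have H := ssm_gl_hyp (A.comap (algebraMap ↥L1 Qb)) hπ M p hp2 hpM hpr.1
  haveI := ssm_go_isScalarTower (A.comap (algebraMap ↥L1 Qb)) (lg_E ↥L1 (M * p))
  have hdict := ssm_tp_ff_model (L := ↥L1) hπ hx H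
  -- `p² = π ^ (p e + 1) · c₁`
  obtain ⟨v, hv⟩ := D.p_eq
  have he0 := D.e_pos
  have hp3 := D.three_le
  set c₁ : ↥(A.comap (algebraMap ↥L1 Qb)) := π ^ ((p - 2) * e - 1) * (v : _) ^ 2 with hc₁
  have hpsq : ((p : ℕ) : ↥(A.comap (algebraMap ↥L1 Qb))) ^ 2 = π ^ (p * e + 1) * c₁ := by
    rw [hv, hc₁, mul_pow, ← pow_mul, ← mul_assoc, ← pow_add]
    congr 2
    obtain ⟨t, rfl⟩ : ∃ t, p = t + 3 := ⟨p - 3, by omega⟩
    obtain ⟨s, rfl⟩ : ∃ s, e = s + 1 := ⟨e - 1, by omega⟩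
    have e1 : t + 3 - 1 = t + 2 := by omega
    have e2 : t + 3 - 2 = t + 1 := by omega
    have e3 : (t + 1) * (s + 1) - 1 = t * s + t + s := by
      have : (t + 1) * (s + 1) = t * s + t + s + 1 := by ring
      omega
    rw [e1, e2, e3]
    ring
  have hpsqE : algebraMap ↥L1 ↥(lg_E ↥L1 (M * p)) ((p : ↥L1) ^ 2) =
      algebraMap ↥(A.comap (algebraMap ↥L1 Qb)) ↥(lg_E ↥L1 (M * p)) π ^ (p * e + 1) *
        algebraMap ↥(A.comap (algebraMap ↥L1 Qb)) ↥(lg_E ↥L1 (M * p)) c₁ := by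
    rw [← map_pow, ← map_mul, ← hpsq,
      IsScalarTower.algebraMap_apply ↥(A.comap (algebraMap ↥L1 Qb)) ↥L1 ↥(lg_E ↥L1 (M * p))]
    congr 1
  -- constants of `O` lie in both Gauss rings
  have hc1 : ∀ c : ↥(A.comap (algebraMap ↥L1 Qb)),
      algebraMap ↥(A.comap (algebraMap ↥L1 Qb)) ↥(lg_E ↥L1 (M * p)) c ∈
        ssm_gl_V1 (A.comap (algebraMap ↥L1 Qb)) hπ M p := fun c =>
    H.over1.le (algebraMap ↥(A.comap (algebraMap ↥L1 Qb))
      (Algebra.adjoin ↥(A.comap (algebraMap ↥L1 Qb))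
        ({lg_lamE (M * p)} : Set ↥(lg_E ↥L1 (M * p)))) c)
  have hc2 : ∀ c : ↥(A.comap (algebraMap ↥L1 Qb)),
      algebraMap ↥(A.comap (algebraMap ↥L1 Qb)) ↥(lg_E ↥L1 (M * p)) c ∈
        ssm_gl_V2 (A.comap (algebraMap ↥L1 Qb)) hπ M p hp2 hpM := fun c =>
    H.over2.le (algebraMap ↥(A.comap (algebraMap ↥L1 Qb))
      (Algebra.adjoin ↥(A.comap (algebraMap ↥L1 Qb))
        ({lg_lamE (M * p)} : Set ↥(lg_E ↥L1 (M * p)))) c)
  -- the two split forms, in `π`-units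
  have h1 : ∃ G b : ↥(lg_E ↥L1 (M * p)), G ≠ 0 ∧
      b ∈ ssm_gl_V1 (A.comap (algebraMap ↥L1 Qb)) hπ M p ∧
      g = G ^ p * (1 + algebraMap (Algebra.adjoin ↥(A.comap (algebraMap ↥L1 Qb))
          ({lg_lamE (M * p)} : Set ↥(lg_E ↥L1 (M * p)))) ↥(lg_E ↥L1 (M * p))
          (algebraMap ↥(A.comap (algebraMap ↥L1 Qb)) _ π) ^ (p * e + 1) * b) := by
    obtain ⟨G, b, hG, hb, hgeq⟩ := hs1
    refine ⟨G, algebraMap ↥(A.comap (algebraMap ↥L1 Qb)) ↥(lg_E ↥L1 (M * p)) c₁ * b, hG,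
      ValuationSubring.mul_mem _ _ _ (hc1 c₁) hb, ?_⟩
    rw [hgeq, hpsqE]
    have : algebraMap (Algebra.adjoin ↥(A.comap (algebraMap ↥L1 Qb))
          ({lg_lamE (M * p)} : Set ↥(lg_E ↥L1 (M * p)))) ↥(lg_E ↥L1 (M * p))
          (algebraMap ↥(A.comap (algebraMap ↥L1 Qb)) _ π) =
        algebraMap ↥(A.comap (algebraMap ↥L1 Qb)) ↥(lg_E ↥L1 (M * p)) π := rfl
    rw [this]
    ring
  have h2 : ∃ G b : ↥(lg_E ↥L1 (M * p)), G ≠ 0 ∧
      b ∈ ssm_gl_V2 (A.comap (algebraMap ↥L1 Qb)) hπ M p hp2 hpM ∧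
      g = G ^ p * (1 + algebraMap (Algebra.adjoin ↥(A.comap (algebraMap ↥L1 Qb))
          ({lg_lamE (M * p)} : Set ↥(lg_E ↥L1 (M * p)))) ↥(lg_E ↥L1 (M * p))
          (algebraMap ↥(A.comap (algebraMap ↥L1 Qb)) _ π) ^ (p * e + 1) * b) := by
    obtain ⟨G, b, hG, hb, hgeq⟩ := hs2
    refine ⟨G, algebraMap ↥(A.comap (algebraMap ↥L1 Qb)) ↥(lg_E ↥L1 (M * p)) c₁ * b, hG,
      ValuationSubring.mul_mem _ _ _ (hc2 c₁) hb, ?_⟩
    rw [hgeq, hpsqE]
    have : algebraMap (Algebra.adjoin ↥(A.comap (algebraMap ↥L1 Qb))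
          ({lg_lamE (M * p)} : Set ↥(lg_E ↥L1 (M * p)))) ↥(lg_E ↥L1 (M * p))
          (algebraMap ↥(A.comap (algebraMap ↥L1 Qb)) _ π) =
        algebraMap ↥(A.comap (algebraMap ↥L1 Qb)) ↥(lg_E ↥L1 (M * p)) π := rfl
    rw [this]
    ring
  haveI : IsIntegrallyClosed (Algebra.adjoin ↥(A.comap (algebraMap ↥L1 Qb))
      ({lg_lamE (M * p)} : Set ↥(lg_E ↥L1 (M * p)))) :=
    fc_ff_isIntegrallyClosed (fc_ff_transcendental (L := ↥L1) hx)
  haveI : FaithfulSMul (Algebra.adjoin ↥(A.comap (algebraMap ↥L1 Qb))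
      ({lg_lamE (M * p)} : Set ↥(lg_E ↥L1 (M * p)))) ↥(lg_E ↥L1 (M * p)) :=
    (faithfulSMul_iff_algebraMap_injective _ _).2 Subtype.val_injective
  obtain ⟨G, b, hG, hb1, hb2, hgeq⟩ := s44t_glob H hp.pos (p * e + 1) h1 h2
  have hglob : s44t_GlobForm π (lg_lamE (L := ↥L1) (M * p)) p (p * e + 1) g :=
    ⟨G, b, hG, (hdict.2.2.2.2.2.2.1 b).2 ⟨hb1, hb2⟩, hgeq⟩
  -- the abstract core
  obtain ⟨c, r, hr, hcr⟩ := hcore L1 (A.comap (algebraMap ↥L1 Qb)) hπ _ _ _ _ Mod D hg hord hrat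
    hglob
  refine ⟨(c : ↥L1), (r : LaurentSeries ↥L1), r.2, fun h0 => hr (Subtype.ext h0), ?_⟩
  have hcoe : ((algebraMap ↥(A.comap (algebraMap ↥L1 Qb)) ↥(lg_E ↥L1 (M * p)) c :
      ↥(lg_E ↥L1 (M * p))) : LaurentSeries ↥L1) =
      algebraMap ↥L1 (LaurentSeries ↥L1) (c : ↥L1) := rfl
  have := congrArg (fun z : ↥(lg_E ↥L1 (M * p)) => (z : LaurentSeries ↥L1)) hcr
  simpa [hcoe] using this

end Main

end Fermat.Agent.S44
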