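/-
S44 project, cell [G3] = [TOR] (owner helper10), sub-cell (T-TOP).  Prefix `s44t_`.

**`s44t_TorBar M P.p P.pp hpM → s44_Tor_stmt (s44_frame2 P M hpM)`**: a split class `z` has ONE
representing function `f` which is split to depth `p²` at `w_∞` and at `w_0` (helper7's
`s44b_depth2_any_rep`), the function-level statement gives the Kummer relation
`σ f = c r^p f^k`, and helper7's `s44b_chiEigen_of_kummer` concludes.
-/
import Mathlib
import Fermat.Agent.S44.Tor.Seams
import Fermat.Agent.S44.Low.Seams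
import Fermat.Agent.S44.Bridge.Eigen

set_option autoImplicit false

noncomputable section

namespace Fermat.Agent.S44

open Fermat.Agent.SS Fermat.Agent.JT3 AlgebraicCurve ModularCurve

local notation "Qb" => AlgebraicClosure ℚ

/-- **(T-TOP)** -/
theorem s44t_tor_of_bar (P : FreyPackage) (M : ℕ) [NeZero M] [NeZero (M * P.p)]
    (hpM : ¬ P.p ∣ M) (h : s44t_TorBar M P.p P.pp hpM) :
    s44_Tor_stmt (s44_frame2 P M hpM) := by
  intro z hz hsplit
  have hp0 : P.p ≠ 0 := P.pp.ne_zero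
  obtain ⟨f, hf⟩ := s44b_rep_exists (M * P.p) hz
  have hc : ((P.p : Qb)) ^ 2 ≠ 0 := pow_ne_zero _ (by exact_mod_cast hp0)
  obtain ⟨hd1, hd2⟩ := hsplit _ hc
  have h1 := s44b_depth2_any_rep (M * P.p) (s44f_A P.p P.pp) hp0 (AlgHom.id _ _) hd1 hf
  have h2 := s44b_depth2_any_rep (M * P.p) (s44f_A P.p P.pp) hp0
    (ssm_al_Wbar M P.p P.pp hpM) hd2 hf
  refine s44b_chiEigen_of_kummer (s44_frame2 P M hpM) hf fun σ hσ k hk => ?_
  have hζ := s44f_zeta_spec P.p P.pp
  have hord : ∀ v : Place Qb (modularFunctionFieldBar (M * P.p)), (P.p : ℤ) ∣ v.ord f := by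
    obtain ⟨-, D, -, hD⟩ := hf
    exact fun v => ⟨_, (hD v).symm⟩
  obtain ⟨c, r, hr, hcr⟩ := h (s44f_A P.p P.pp) (s44f_A_liesOver P.p P.pp) σ hσ
    (s44f_zeta P.p P.pp) k hζ.pow_eq_one (hζ.ne_one P.pp.one_lt) hk f hf.1 hord h1 h2
  have hc0 : c ≠ 0 := by
    rintro rfl
    rw [map_zero, zero_mul, zero_mul] at hcr
    have : arithmeticGalois (modularFunctionFieldFull (M * P.p)) σ • f ≠ 0 := by
      rw [Ne, smul_eq_zero_iff_eq]; exact hf.1
    exact this hcr
  refine ⟨c, r, hc0, hr, ?_⟩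
  rw [show arithmeticGalois (modularFunctionFieldFull (M * P.p)) σ • f = ss_act (M * P.p) σ f
    from rfl, hcr]
  ring

end Fermat.Agent.S44
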