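/-
S44 project, cell [G3] = [TOR] (owner helper10).  Prefix `s44t_`.

**[TOR] closed**: `s44t_tor : s44_Tor_stmt (s44_frame2 P M hpM)`
  = (T-TOP) `s44t_tor_of_bar` ∘ (T-DESC) `s44t_torBar_of_core` (helper5) ∘ (T-NF) `s44t_coreNFP_of`
    ∘ [(T-ASM) `s44t_core_of_loc` (helper12) ∘ (T-LOC) `s44t_loc` (helper16)].
-/
import Mathlib
import Fermat.Agent.S44.Tor.NF
import Fermat.Agent.S44.Tor.Top
import Fermat.Agent.S44.Tor.Loc
import Fermat.Agent.S44.Tor.Asm
import Fermat.Agent.S44.Tor.Desc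

set_option autoImplicit false
set_option linter.style.haveILetI false

noncomputable section

namespace Fermat.Agent.S44

open Fermat.Agent.SS Fermat.Agent.JT3 AlgebraicCurve ModularCurve IntermediateField

local notation "Qb" => AlgebraicClosure ℚ

/-- the abstract `p`-core at the Legendre cover fields. -/
theorem s44t_absCoreLeg (M p : ℕ) [NeZero M] [NeZero p] : s44t_AbsCoreLeg M p := by
  intro L1 _ O _ π hπ σE σ0 P1 P2 Mod e k ζ D f hf hord hrat hglob
  haveI := ssm_go_isScalarTower O (lg_E ↥L1 (M * p))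
  have hx : Transcendental ↥L1 (lg_lamE (L := ↥L1) (M * p)) :=
    lgf_lam_transcendental ↥L1 (M * p) two_ne_zero
  haveI := lgf_finite ↥L1 (M * p)
  obtain ⟨h1, h2⟩ := s44t_loc (K := ↥L1) hπ hx Mod D hf hord hrat hglob
  exact s44t_core_of_loc hπ Mod D hf hglob h1 h2

/-- **[TOR]**: split classes are `χ`-eigen. -/
theorem s44t_tor (P : FreyPackage) (M : ℕ) [NeZero M] [NeZero (M * P.p)] (hpM : ¬ P.p ∣ M) :
    s44_Tor_stmt (s44_frame2 P M hpM) := by
  have hp2 : ¬ 2 ∣ P.p := by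
    intro h2
    have h3 := (Nat.prime_dvd_prime_iff_eq Nat.prime_two P.pp).1 h2
    have := P.hp5
    omega
  exact s44t_tor_of_bar P M hpM (s44t_torBar_of_core M P.p P.pp hp2 hpM
    (s44t_coreNFP_of M P.p P.pp hp2 hpM (s44t_absCoreLeg M P.p)))

end Fermat.Agent.S44
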