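/-
S44 project, cell [G3] = [TOR], node (T-DESC) (helper5, SUB of helper10 #3926).  Prefix `s44td_`.

  `s44t_torBar_of_core : s44t_CoreNFP M p hp hp2 hpM → s44t_TorBar M p hp hpM`

the descent from the function-level [TOR] statement over `Q̄` to the `p`-core over all large number
fields on the Legendre cover; twin of `SS/Descent/Generic.lean` (`ssd_keyBar_of_core`) and
`SS2/DescPhi/StepLeg.lean` (`ss2_dp_pullback`), with ONE application of `σ` and the two split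
hypotheses (at `w_∞` and at `w_0 = w_∞ ∘ W`) carried along.

Proof.  Given `A | p`, `σ ∈ I_A`, `ζ`, `k`, `f` with its two split forms `f = g_a^p (1 + p² b_a)`,
`W̄ f = g_b^p (1 + p² b_b)`: choose (`s44b_exists_nf`) a number field `L1 ⊆ Q̄`, normal over `ℚ`,
containing the finite set `T` of the core, `ζ`, the set `srat` of `ssd_rational` (the zeros and poles
of `φ(f)` on the cover become rational) and over which `f, g_a, b_a, g_b, b_b` are defined.  The two
split forms descend to `lg_F L1 N` (injectivity of the coefficient embedding, `ssm_al_W_spec`), the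
second one is transported by the involution `W` and both are pushed to the cover by `φ = (X ↦ X²)`
(`ssm_al_coe_WE_phi`: `W_E ∘ φ = φ ∘ W`; boundedness: `s44b_int2_iotaF_iff`, `ssm_ga_beta_isBdd`).
The core gives `σ(φ f1) = c r^p (φ f1)^k` in the cover; `s44td_pullback` (root descent
`ssd_leg_rootDescent` + extension of constants) brings it back to `F̄_N`.
-/
import Mathlib
import Fermat.Agent.S44.Tor.Seams
import Fermat.Agent.S44.Bridge.NF
import Fermat.Agent.SS.Descent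
import Fermat.Agent.SS2.DescPhi.StepLeg
import Fermat.Agent.SS.Model.ALInst

set_option autoImplicit false
set_option linter.unusedSectionVars false
set_option linter.unusedVariables false
set_option linter.style.haveILetI false

noncomputable section

namespace Fermat.Agent.S44

open ModularCurve AlgebraicCurve Module Fermat.Agent.JT3 Fermat.Agent.S24 Fermat.Agent.SS
  Fermat.Agent.SS2 Fermat.Agent.S35 IntermediateField

local notation "Qb" => AlgebraicClosure ℚ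

/-! ### the pull-back of the core relation (one application of `σ`) -/

section Pullback

variable (L1 : Type) [Field L1] [Algebra ℚ L1] [CharZero L1] [Algebra L1 Qb]
  [IsScalarTower ℚ L1 Qb] (N : ℕ) [NeZero N]

/-- if all orders of `g` are divisible by `m`, so are all orders of `Φ g / g ^ k`. -/
theorem s44td_dvd_ord_quot {K F : Type*} [Field K] [Field F] [Algebra K F]
    (Φ : SemilinearAut K F) (m : ℤ) {g : F} (hg : g ≠ 0)
    (h : ∀ v : Place K F, m ∣ v.ord g) (k : ℕ) (w : Place K F) :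
    m ∣ w.ord (Φ • g / g ^ k) := by
  have hΦg : Φ • g ≠ 0 := by rwa [Ne, smul_eq_zero_iff_eq]
  rw [div_eq_mul_inv, w.ord_mul hΦg (inv_ne_zero (pow_ne_zero k hg)), w.ord_inv,
    ← zpow_natCast, w.ord_zpow, ssd_ord_smul]
  exact dvd_add (h _) ((dvd_neg).2 (Dvd.dvd.mul_left (h _) _))

/-- **from the core relation in the cover over `L1` to the Kummer relation over `Q̄`.** -/
theorem s44td_pullback (σ : Qb ≃ₐ[ℚ] Qb) (σ1 : L1 ≃ₐ[ℚ] L1)
    (hσ : ∀ x : L1, algebraMap L1 Qb (σ1 x) = σ (algebraMap L1 Qb x))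
    {m : ℕ} (hm : m ≠ 0) (k : ℕ)
    (g1 : laurentBaseChange L1 (modularFunctionFieldFull N)) (hg1 : g1 ≠ 0)
    (hord : ∀ w : Place L1 (laurentBaseChange L1 (modularFunctionFieldFull N)),
      (m : ℤ) ∣ w.ord g1)
    (c : L1) (r : LaurentSeries L1) (hr : r ∈ lg_E L1 N)
    (hcr : coeffMap (σ1.toRingEquiv : L1 →+* L1) (qExpand L1 2 (g1 : LaurentSeries L1)) =
      algebraMap L1 (LaurentSeries L1) c * r ^ m * qExpand L1 2 (g1 : LaurentSeries L1) ^ k) :
    ∃ (c' : Qb) (r' : modularFunctionFieldBar N), r' ≠ 0 ∧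
      ss_act N σ (dsc_bcHom L1 Qb (modularFunctionFieldFull N) g1) =
        algebraMap Qb (modularFunctionFieldBar N) c' * r' ^ m *
          dsc_bcHom L1 Qb (modularFunctionFieldFull N) g1 ^ k := by
  set Φ1 := arithmeticGalois (modularFunctionFieldFull N) σ1 with hΦ1
  set G := dsc_bcHom L1 Qb (modularFunctionFieldFull N) g1 with hG
  have hΦg : Φ1 • g1 ≠ 0 := by rwa [Ne, smul_eq_zero_iff_eq]
  have hG0 : G ≠ 0 := by rwa [hG, Ne, map_eq_zero]
  obtain ⟨h1, hh1⟩ : ∃ h1 : laurentBaseChange L1 (modularFunctionFieldFull N),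
      h1 = Φ1 • g1 / g1 ^ k := ⟨_, rfl⟩
  have hh10 : h1 ≠ 0 := by
    rw [hh1]
    exact div_ne_zero hΦg (pow_ne_zero _ hg1)
  have hordh : ∀ w : Place L1 (laurentBaseChange L1 (modularFunctionFieldFull N)),
      (m : ℤ) ∣ w.ord h1 := fun w => by
    rw [hh1]
    exact s44td_dvd_ord_quot Φ1 (m : ℤ) hg1 hord k w
  -- the image of `h1` in the cover
  have hq0 : qExpand L1 2 (g1 : LaurentSeries L1) ≠ 0 := by
    intro h0
    apply hg1
    apply Subtype.ext
    exact (map_eq_zero_iff _ (qExpand L1 2).injective).1 h0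
  have heq : qExpand L1 2 (h1 : LaurentSeries L1) =
      algebraMap L1 (LaurentSeries L1) c * r ^ m := by
    have e1 : (h1 : LaurentSeries L1) =
        coeffMap (σ1.toRingEquiv : L1 →+* L1) (g1 : LaurentSeries L1) /
          (g1 : LaurentSeries L1) ^ k := by
      rw [hh1, IntermediateField.coe_div, IntermediateField.coe_pow, coe_arithmeticGalois_smul]
      congr 1
    rw [e1, map_div₀, map_pow, ← coeffMap_qExpand, hcr]
    field_simp
  have hmemE : ∀ x : LaurentSeries L1, x ∈ lg_E L1 N → x ∈ laurentBaseChange L1 (lg_E ℚ N) :=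
    fun x hx => by rw [← ssd_lg_E_eq L1 N]; exact hx
  obtain ⟨c', g', hcg⟩ := ssd_leg_rootDescent N L1 hm h1 hordh c r (hmemE _ hr) heq
  have hg'0 : g' ≠ 0 := by
    rintro rfl
    rw [zero_pow hm, mul_zero] at hcg
    exact hh10 hcg
  refine ⟨algebraMap L1 Qb c', dsc_bcHom L1 Qb (modularFunctionFieldFull N) g',
    by rwa [Ne, map_eq_zero], ?_⟩
  have e1 : dsc_bcHom L1 Qb (modularFunctionFieldFull N) h1 = ss_act N σ G / G ^ k := by
    rw [hh1, map_div₀, map_pow, ss2_dp_bc_smul L1 N σ σ1 hσ]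
  have e2 : dsc_bcHom L1 Qb (modularFunctionFieldFull N) h1 =
      algebraMap Qb (modularFunctionFieldBar N) (algebraMap L1 Qb c') *
        dsc_bcHom L1 Qb (modularFunctionFieldFull N) g' ^ m := by
    rw [hcg, map_mul, map_pow, dsc_bcHom_algebraMap]
  rw [← e2, e1, div_mul_cancel₀ _ (pow_ne_zero k hG0)]

end Pullback

/-! ### transport between the two vocabularies -/

section Transport

variable (L : Type) [Field L] [Algebra ℚ L] [CharZero L] (N : ℕ) [NeZero N]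

/-- `φ = (X ↦ X²) : F_N(L) → E = lg_E L N`, in the `lg_F` vocabulary. -/
def s44td_phi : lg_F L N →ₐ[L] lg_E L N :=
  ((qExpandAlgHomC L 2).comp (lg_F L N).val).codRestrict
    (lg_E L N).toSubalgebra (fun x => lg_phi_mem_E L N x.2)

theorem s44td_phi_coe (x : lg_F L N) :
    ((s44td_phi L N x : lg_E L N) : LaurentSeries L) = qExpand L 2 (x : LaurentSeries L) := rfl

/-- the same element in the base change vocabulary -/
def s44td_toBC (x : lg_F L N) : laurentBaseChange L (modularFunctionFieldFull N) :=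
  ⟨(x : LaurentSeries L), ss2_dp_mem_lbc L N x.2⟩

theorem s44td_toBC_coe (x : lg_F L N) :
    ((s44td_toBC L N x : laurentBaseChange L (modularFunctionFieldFull N)) : LaurentSeries L) =
      (x : LaurentSeries L) := by
  unfold s44td_toBC
  rfl

theorem s44td_iota_toBC (x : lg_F L N) : ss2_dp_iota L N (s44td_toBC L N x) = s44td_phi L N x := by
  apply Subtype.ext
  rw [ss2_dp_iota_coe, s44td_toBC_coe, s44td_phi_coe]

end Transport

/-- rationality of the zeros and poles, transported along an equality of cover fields. -/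
theorem s44td_rat_transport (L1 : Type) [Field L1] [Algebra ℚ L1] [Algebra L1 Qb]
    [IsScalarTower ℚ L1 Qb] (E₀ : IntermediateField ℚ (LaurentSeries ℚ))
    (E : IntermediateField L1 (LaurentSeries L1)) (hE : E = laurentBaseChange L1 E₀)
    (gbar : laurentBaseChange Qb E₀)
    (hrat : ∀ g1 : laurentBaseChange L1 E₀, dsc_bcHom L1 Qb E₀ g1 = gbar →
      ∀ v : Place L1 (laurentBaseChange L1 E₀), v.ord g1 ≠ 0 → ss_RatPlace v)
    (g : E) (hg : dsc_cm L1 Qb (g : LaurentSeries L1) = (gbar : LaurentSeries Qb)) :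
    ∀ v : Place L1 E, v.ord g ≠ 0 → ss_RatPlace v := by
  subst hE
  exact hrat g (Subtype.ext hg)

/-! ### the descent step over one abstract level `L1 → Q̄` -/

section Step

variable (L1 : Type) [Field L1] [Algebra ℚ L1] [CharZero L1] [Algebra L1 Qb]
  [IsScalarTower ℚ L1 Qb]
  (M p : ℕ) [NeZero M] [NeZero p] (hp : p.Prime) (hp2 : ¬ 2 ∣ p) (hpM : ¬ p ∣ M)

/-- the two split forms over `L1`, from the split forms over `Q̄`. -/
theorem s44td_split_desc
    (f1 ga1 ba1 gb1 bb1 : lg_F L1 (M * p))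
    (hfa : ssm_al_iotaF L1 (M * p) f1 = ssm_al_iotaF L1 (M * p) ga1 ^ p *
      (1 + algebraMap Qb (modularFunctionFieldBar (M * p)) ((p : Qb) ^ 2) *
        ssm_al_iotaF L1 (M * p) ba1))
    (hfb : ssm_al_Wbar M p hp hpM (ssm_al_iotaF L1 (M * p) f1) =
      ssm_al_iotaF L1 (M * p) gb1 ^ p *
      (1 + algebraMap Qb (modularFunctionFieldBar (M * p)) ((p : Qb) ^ 2) *
        ssm_al_iotaF L1 (M * p) bb1)) :
    f1 = ga1 ^ p * (1 + algebraMap L1 (lg_F L1 (M * p)) ((p : L1) ^ 2) * ba1) ∧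
    f1 = ssm_al_W L1 M p hp hpM gb1 ^ p *
      (1 + algebraMap L1 (lg_F L1 (M * p)) ((p : L1) ^ 2) * ssm_al_W L1 M p hp hpM bb1) := by
  have hιinj := ssm_al_iotaF_injective L1 (M * p)
  have hpcast : algebraMap L1 Qb ((p : L1) ^ 2) = (p : Qb) ^ 2 := by
    rw [map_pow, map_natCast]
  have hsa : f1 = ga1 ^ p * (1 + algebraMap L1 (lg_F L1 (M * p)) ((p : L1) ^ 2) * ba1) := by
    apply hιinj
    rw [map_mul, map_pow, map_add, map_one, map_mul, ssm_al_iotaF_algebraMap, hpcast]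
    exact hfa
  have hWf1 : ssm_al_W L1 M p hp hpM f1 = gb1 ^ p *
      (1 + algebraMap L1 (lg_F L1 (M * p)) ((p : L1) ^ 2) * bb1) := by
    apply hιinj
    rw [ssm_al_W_spec, map_mul, map_pow, map_add, map_one, map_mul, ssm_al_iotaF_algebraMap,
      hpcast]
    exact hfb
  refine ⟨hsa, ?_⟩
  have := congrArg (ssm_al_W L1 M p hp hpM) hWf1
  rw [ssm_al_W_W, map_mul, map_pow, map_add, map_one, map_mul, AlgEquiv.commutes] at this
  exact this

set_option maxHeartbeats 1000000 in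
/-- **THE DESCENT STEP.** -/
theorem s44td_step (A : ValuationSubring Qb) (σ : Qb ≃ₐ[ℚ] Qb) (σ1 : L1 ≃ₐ[ℚ] L1)
    (hσ1c : ∀ x : L1, algebraMap L1 Qb (σ1 x) = σ (algebraMap L1 Qb x)) (k : ℕ)
    (hbdd : ∀ b1 : lg_F L1 (M * p),
      gq_IsBdd ↥A Qb ((ssm_al_iotaF L1 (M * p) b1 : modularFunctionFieldBar (M * p)) :
        LaurentSeries Qb) →
      gq_IsBdd ↥(A.comap (algebraMap L1 Qb)) L1 (b1 : LaurentSeries L1))
    (hcoreL : ∀ g : lg_E L1 (M * p), g ≠ 0 →
      (∀ v : Place L1 (lg_E L1 (M * p)), (p : ℤ) ∣ v.ord g) →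
      (∀ v : Place L1 (lg_E L1 (M * p)), v.ord g ≠ 0 → ss_RatPlace v) →
      (∃ G b : lg_E L1 (M * p), G ≠ 0 ∧
        gq_IsBdd ↥(A.comap (algebraMap L1 Qb)) L1 (b : LaurentSeries L1) ∧
        g = G ^ p * (1 + algebraMap L1 (lg_E L1 (M * p)) ((p : L1) ^ 2) * b)) →
      (∃ G b : lg_E L1 (M * p), G ≠ 0 ∧
        gq_IsBdd ↥(A.comap (algebraMap L1 Qb)) L1
          ((ssm_al_WE L1 M p hp hp2 hpM b : lg_E L1 (M * p)) : LaurentSeries L1) ∧
        g = G ^ p * (1 + algebraMap L1 (lg_E L1 (M * p)) ((p : L1) ^ 2) * b)) →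
      ∃ (c : L1) (r : LaurentSeries L1), r ∈ lg_E L1 (M * p) ∧ r ≠ 0 ∧
        coeffMap (σ1.toRingEquiv : L1 →+* L1) (g : LaurentSeries L1) =
          algebraMap L1 (LaurentSeries L1) c * r ^ p * (g : LaurentSeries L1) ^ k)
    (f ga ba gb bb : modularFunctionFieldBar (M * p)) (hf : f ≠ 0) (hga : ga ≠ 0) (hgb : gb ≠ 0)
    (hord : ∀ v : Place Qb (modularFunctionFieldBar (M * p)), (p : ℤ) ∣ v.ord f)
    (hba : gq_IsBdd ↥A Qb (ba : LaurentSeries Qb))
    (hbb : gq_IsBdd ↥A Qb (bb : LaurentSeries Qb))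
    (hfa : f = ga ^ p *
      (1 + algebraMap Qb (modularFunctionFieldBar (M * p)) ((p : Qb) ^ 2) * ba))
    (hfb : ssm_al_Wbar M p hp hpM f = gb ^ p *
      (1 + algebraMap Qb (modularFunctionFieldBar (M * p)) ((p : Qb) ^ 2) * bb))
    (f1 ga1 ba1 gb1 bb1 : lg_F L1 (M * p))
    (hf1 : ssm_al_iotaF L1 (M * p) f1 = f) (hga1 : ssm_al_iotaF L1 (M * p) ga1 = ga)
    (hba1 : ssm_al_iotaF L1 (M * p) ba1 = ba) (hgb1 : ssm_al_iotaF L1 (M * p) gb1 = gb)
    (hbb1 : ssm_al_iotaF L1 (M * p) bb1 = bb)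
    (gbar : laurentBaseChange Qb (lg_E ℚ (M * p)))
    (hgbar : (gbar : LaurentSeries Qb) = qExpand Qb 2 (f : LaurentSeries Qb))
    (hratQ : ∀ g1 : laurentBaseChange L1 (lg_E ℚ (M * p)),
      dsc_bcHom L1 Qb (lg_E ℚ (M * p)) g1 = gbar →
      ∀ v : Place L1 (laurentBaseChange L1 (lg_E ℚ (M * p))), v.ord g1 ≠ 0 → ss_RatPlace v) :
    ∃ (c : Qb) (r : modularFunctionFieldBar (M * p)), r ≠ 0 ∧
      ss_act (M * p) σ f =
        algebraMap Qb (modularFunctionFieldBar (M * p)) c * r ^ p * f ^ k := by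
  have _ : Algebra.IsAlgebraic ℚ Qb := AlgebraicClosure.isAlgebraic ℚ
  have _ : Algebra.IsAlgebraic L1 Qb := Algebra.IsAlgebraic.tower_top (K := ℚ) L1
  -- the two split forms over `L1`
  obtain ⟨hsa, hsb⟩ := s44td_split_desc L1 M p hp hpM f1 ga1 ba1 gb1 bb1
    (by rw [hf1, hga1, hba1]; exact hfa) (by rw [hf1, hgb1, hbb1]; exact hfb)
  -- nonvanishing
  have hf10 : f1 ≠ 0 := by
    rintro rfl
    rw [map_zero] at hf1
    exact hf hf1.symm
  have hga10 : ga1 ≠ 0 := by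
    rintro rfl
    rw [map_zero] at hga1
    exact hga hga1.symm
  have hgb10 : gb1 ≠ 0 := by
    rintro rfl
    rw [map_zero] at hgb1
    exact hgb hgb1.symm
  -- boundedness over `L1`
  have hba1b : gq_IsBdd ↥(A.comap (algebraMap L1 Qb)) L1 (ba1 : LaurentSeries L1) :=
    hbdd ba1 (by rw [hba1]; exact hba)
  have hbb1b : gq_IsBdd ↥(A.comap (algebraMap L1 Qb)) L1 (bb1 : LaurentSeries L1) :=
    hbdd bb1 (by rw [hbb1]; exact hbb)
  -- the function on the cover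
  obtain ⟨g, hg⟩ : ∃ g : lg_E L1 (M * p), g = s44td_phi L1 (M * p) f1 := ⟨_, rfl⟩
  have hg0 : g ≠ 0 := by rwa [hg, Ne, map_eq_zero]
  have hgcoe : (g : LaurentSeries L1) = qExpand L1 2 (f1 : LaurentSeries L1) := by
    rw [hg, s44td_phi_coe]
  -- the base change vocabulary
  obtain ⟨f1', hf1'⟩ : ∃ f1' : laurentBaseChange L1 (modularFunctionFieldFull (M * p)),
      f1' = s44td_toBC L1 (M * p) f1 := ⟨_, rfl⟩
  have hf1'coe : (f1' : LaurentSeries L1) = (f1 : LaurentSeries L1) := by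
    rw [hf1', s44td_toBC_coe]
  have hιcoe : ((ssm_al_iotaF L1 (M * p) f1 : modularFunctionFieldBar (M * p)) :
      LaurentSeries Qb) = dsc_cm L1 Qb (f1 : LaurentSeries L1) := by
    rw [ssm_al_coe_iotaF, dsc_cm]
  have hbc : dsc_bcHom L1 Qb (modularFunctionFieldFull (M * p)) f1' = f := by
    apply Subtype.ext
    rw [dsc_bcHom_coe, hf1'coe, ← hf1, hιcoe]
  have hf1'0 : f1' ≠ 0 := by
    intro h0
    apply hf10
    apply Subtype.ext
    rw [← hf1'coe, h0]
    rfl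
  have hord1 : ∀ Q : Place L1 (laurentBaseChange L1 (modularFunctionFieldFull (M * p))),
      (p : ℤ) ∣ Q.ord f1' := fun Q =>
    dsc_bc_dvd_ord L1 Qb (modularFunctionFieldFull (M * p)) (p : ℤ) f1'
      (fun P => by rw [hbc]; exact hord P) Q
  have hordg : ∀ v : Place L1 (lg_E L1 (M * p)), (p : ℤ) ∣ v.ord g := fun v => by
    have := lg_dvd_ord_of_embedding (ss2_dp_iota L1 (M * p)) (p : ℤ) f1' hord1 v
    rwa [hf1', s44td_iota_toBC, ← hg] at this
  -- rationality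
  have hrat : ∀ v : Place L1 (lg_E L1 (M * p)), v.ord g ≠ 0 → ss_RatPlace v := by
    refine s44td_rat_transport L1 (lg_E ℚ (M * p)) (lg_E L1 (M * p)) (ssd_lg_E_eq L1 (M * p))
      gbar hratQ g ?_
    rw [hgbar, hgcoe, dsc_cm, coeffMap_qExpand, ← hf1, ssm_al_coe_iotaF]
  -- the split forms on the cover
  have hs1 : ∃ G b : lg_E L1 (M * p), G ≠ 0 ∧
      gq_IsBdd ↥(A.comap (algebraMap L1 Qb)) L1 (b : LaurentSeries L1) ∧
      g = G ^ p * (1 + algebraMap L1 (lg_E L1 (M * p)) ((p : L1) ^ 2) * b) := by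
    refine ⟨s44td_phi L1 (M * p) ga1, s44td_phi L1 (M * p) ba1, by rwa [Ne, map_eq_zero], ?_, ?_⟩
    · rw [s44td_phi_coe]
      exact ssm_ga_beta_isBdd 2 hba1b
    · rw [hg]
      conv_lhs => rw [hsa]
      rw [map_mul, map_pow, map_add, map_one, map_mul, AlgHom.commutes]
  have hs2 : ∃ G b : lg_E L1 (M * p), G ≠ 0 ∧
      gq_IsBdd ↥(A.comap (algebraMap L1 Qb)) L1
        ((ssm_al_WE L1 M p hp hp2 hpM b : lg_E L1 (M * p)) : LaurentSeries L1) ∧
      g = G ^ p * (1 + algebraMap L1 (lg_E L1 (M * p)) ((p : L1) ^ 2) * b) := by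
    refine ⟨s44td_phi L1 (M * p) (ssm_al_W L1 M p hp hpM gb1),
      s44td_phi L1 (M * p) (ssm_al_W L1 M p hp hpM bb1), ?_, ?_, ?_⟩
    · rw [Ne, map_eq_zero, map_eq_zero]
      exact hgb10
    · have e := ssm_al_coe_WE_phi L1 M p hp hp2 hpM (ssm_al_W L1 M p hp hpM bb1)
        (s44td_phi L1 (M * p) (ssm_al_W L1 M p hp hpM bb1)).2
      rw [ssm_al_W_W] at e
      have e' : ((ssm_al_WE L1 M p hp hp2 hpM
          (s44td_phi L1 (M * p) (ssm_al_W L1 M p hp hpM bb1)) :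
          lg_E L1 (M * p)) : LaurentSeries L1) = qExpand L1 2 (bb1 : LaurentSeries L1) := e
      rw [e']
      exact ssm_ga_beta_isBdd 2 hbb1b
    · rw [hg]
      conv_lhs => rw [hsb]
      rw [map_mul, map_pow, map_add, map_one, map_mul, AlgHom.commutes]
  -- the core
  obtain ⟨c, r, hrE, hr0, hcr⟩ := hcoreL g hg0 hordg hrat hs1 hs2
  -- back to `Q̄`
  have hcr' : coeffMap (σ1.toRingEquiv : L1 →+* L1)
      (qExpand L1 2 (f1' : LaurentSeries L1)) =
      algebraMap L1 (LaurentSeries L1) c * r ^ p *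
        qExpand L1 2 (f1' : LaurentSeries L1) ^ k := by
    rw [hf1'coe, ← hgcoe]
    exact hcr
  obtain ⟨c', r', hr', hfin⟩ := s44td_pullback L1 (M * p) σ σ1 hσ1c hp.ne_zero k f1' hf1'0
    hord1 c r hrE hcr'
  rw [hbc] at hfin
  exact ⟨c', r', hr', hfin⟩

end Step

/-! ### (T-DESC) -/

section Main

variable (M p : ℕ) [NeZero M] [NeZero p] (hp : p.Prime) (hp2 : ¬ 2 ∣ p) (hpM : ¬ p ∣ M)

set_option maxHeartbeats 1000000 in
/-- **(T-DESC)**: the `p`-core over all large number fields gives the function-level [TOR]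
statement over `Q̄`. -/
theorem s44t_torBar_of_core (h : s44t_CoreNFP M p hp hp2 hpM) : s44t_TorBar M p hp hpM := by
  classical
  intro A hA σ hσ ζ k hζp hζ1 hσζ f hf hord hS1 hS2
  obtain ⟨T, hT⟩ := h A hA
  obtain ⟨ga, ba, hga, hba, hfa⟩ := hS1
  obtain ⟨gb, bb, hgb, hbb, hfb⟩ := hS2
  have _ : Algebra.IsAlgebraic ℚ Qb := AlgebraicClosure.isAlgebraic ℚ
  -- finiteness of the cover over `Q̄`
  obtain ⟨x0, hx0⟩ : ∃ x0 : laurentBaseChange Qb (lg_E ℚ (M * p)),
      FiniteDimensional Qb⟮x0⟯ (laurentBaseChange Qb (lg_E ℚ (M * p))) := by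
    have key : ∀ E : IntermediateField Qb (LaurentSeries Qb), lg_E Qb (M * p) = E →
        ∃ x0 : E, FiniteDimensional Qb⟮x0⟯ E := by
      rintro E rfl
      exact ⟨lg_lamE (M * p), lgf_finite Qb (M * p)⟩
    exact key _ (ssd_lg_E_eq Qb (M * p))
  -- the image of `f` in the cover over `Q̄`
  have hfF : (f : LaurentSeries Qb) ∈ lg_F Qb (M * p) := by
    rw [lg_F_eq_bar]
    exact f.2
  have hφQ : qExpand Qb 2 (f : LaurentSeries Qb) ∈ laurentBaseChange Qb (lg_E ℚ (M * p)) := by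
    rw [← ssd_lg_E_eq Qb (M * p)]
    exact lg_phi_mem_E Qb (M * p) hfF
  obtain ⟨gbar, hgbar⟩ : ∃ gbar : laurentBaseChange Qb (lg_E ℚ (M * p)),
      (gbar : LaurentSeries Qb) = qExpand Qb 2 (f : LaurentSeries Qb) := ⟨⟨_, hφQ⟩, rfl⟩
  obtain ⟨srat, hsrat⟩ := ssd_rational (lg_E ℚ (M * p)) x0 gbar
  -- the number field
  obtain ⟨L1, hfd, hnorm, hTsub, hS⟩ :=
    s44b_exists_nf (M * p) {f, ga, ba, gb, bb} (T ∪ srat ∪ {ζ})
  haveI := hfd
  haveI := hnorm
  have hTsub' : (↑T : Set Qb) ⊆ L1 := fun x hx => hTsub (by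
    rw [Finset.mem_coe] at hx ⊢; simp [hx])
  have hsratsub : (↑srat : Set Qb) ⊆ L1 := fun x hx => hTsub (by
    rw [Finset.mem_coe] at hx ⊢; simp [hx])
  have hζL1 : ζ ∈ L1 := hTsub (by rw [Finset.mem_coe]; simp)
  obtain ⟨f1, hf1⟩ := hS f (by simp)
  obtain ⟨ga1, hga1⟩ := hS ga (by simp)
  obtain ⟨ba1, hba1⟩ := hS ba (by simp)
  obtain ⟨gb1, hgb1⟩ := hS gb (by simp)
  obtain ⟨bb1, hbb1⟩ := hS bb (by simp)
  -- the restriction of `σ`
  obtain ⟨σ1, hσ1c⟩ : ∃ σ1 : ↥L1 ≃ₐ[ℚ] ↥L1,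
      ∀ x : ↥L1, algebraMap ↥L1 Qb (σ1 x) = σ (algebraMap ↥L1 Qb x) :=
    ⟨σ.restrictNormal ↥L1, fun x => AlgEquiv.restrictNormal_commutes σ ↥L1 x⟩
  have hinert := ssd_inert A σ hσ ↥L1 σ1 hσ1c
  -- the root of unity
  obtain ⟨ζ1, hζ1c⟩ : ∃ ζ1 : ↥L1, algebraMap ↥L1 Qb ζ1 = ζ := ⟨⟨ζ, hζL1⟩, rfl⟩
  have hinj : Function.Injective (algebraMap ↥L1 Qb) := (algebraMap ↥L1 Qb).injective
  have hζ1p : ζ1 ^ p = 1 := hinj (by rw [map_pow, hζ1c, hζp, map_one])
  have hζ1ne : ζ1 ≠ 1 := by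
    rintro rfl
    exact hζ1 (by rw [← hζ1c, map_one])
  have hσ1ζ : σ1 ζ1 = ζ1 ^ k := hinj (by rw [hσ1c, map_pow, hζ1c, hσζ])
  -- the core at `L1`
  have hcoreL := hT L1 hfd hnorm hTsub' σ1 hinert ζ1 k hζ1p hζ1ne hσ1ζ
  -- boundedness
  have hbdd : ∀ b1 : lg_F ↥L1 (M * p),
      gq_IsBdd ↥A Qb ((ssm_al_iotaF ↥L1 (M * p) b1 : modularFunctionFieldBar (M * p)) :
        LaurentSeries Qb) →
      gq_IsBdd ↥(A.comap (algebraMap ↥L1 Qb)) ↥L1 (b1 : LaurentSeries ↥L1) := fun b1 hb =>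
    (s44b_int2_iotaF_iff (M * p) A L1 hA hp.ne_zero b1).1 hb
  exact s44td_step ↥L1 M p hp hp2 hpM A σ σ1 hσ1c k hbdd hcoreL f ga ba gb bb hf hga hgb hord
    hba hbb hfa hfb f1 ga1 ba1 gb1 bb1 hf1 hga1 hba1 hgb1 hbb1 gbar hgbar
    (hsrat ↥L1 (fun x hx => ⟨⟨x, hsratsub hx⟩, rfl⟩))

end Main

end Fermat.Agent.S44
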