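/-
S44 project, cell [G3] = [TOR], SUB (T-ASM) 'core-p' (helper12), part 1.  Prefix `s44ta_`.
Namespace `Fermat.Agent.S44`.

THE LOCALISATION SUBRINGS.  For a subalgebra `B ⊆ F0` and a prime `P` of `B`,
`s44ta_V B P = {z | ∃ s ∈ B ∖ P, s z ∈ B} = B_P ⊆ F0`.  It is used twice:

* `(B, P) = (B₁₂, P_j)` : the ring of the component `P_j` of the special fibre (`V_j`), a discrete
  valuation ring with uniformiser `ϖ`;
* `(B, P) = (B_i, 𝔫)`   : the local ring of a closed point `𝔫` of the chart `B_i`.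

* `s44ta_V_jac`    : `1 + ϖ V ⊆ Vˣ` when `ϖ ∈ P`;
* `s44ta_V_sigma`  : an automorphism trivial modulo `ϖ` on `B` is trivial modulo `ϖ` on `V`;
* `s44ta_V_unif`   : `P V = ϖ V` when `P` is locally generated by `ϖ`;
* `s44ta_V_of_O`   : the semilocal Gauss ring is contained in the component rings;
* `s44ta_V_ord`    : every `G ≠ 0` is `ϖ ^ k · (unit of V)` (component rings of an `ss_Model`);
* `s44ta_Vval`     : the component ring as a valuation subring.
-/
import Mathlib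
import Fermat.Agent.SS.CoreAssembly

set_option autoImplicit false
set_option linter.unusedSectionVars false

namespace Fermat.Agent.S44

open Fermat.Agent.JT3 Fermat.Agent.SS

universe v

section Loc

variable {A0 : Type*} [CommRing A0] {F0 : Type v} [Field F0] [Algebra A0 F0]

/-- the localisation `B_P` inside `F0`. -/
def s44ta_V (B : Subalgebra A0 F0) (P : Ideal B) [hP : P.IsPrime] : Subring F0 where
  carrier := {z | ∃ s : B, s ∉ P ∧ (s : F0) * z ∈ B}
  mul_mem' := by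
    rintro z1 z2 ⟨s1, hs1, h1⟩ ⟨s2, hs2, h2⟩
    refine ⟨s1 * s2, fun h => (hP.mem_or_mem h).elim hs1 hs2, ?_⟩
    have : ((s1 * s2 : B) : F0) * (z1 * z2) = ((s1 : F0) * z1) * ((s2 : F0) * z2) := by
      push_cast; ring
    rw [this]; exact B.mul_mem h1 h2
  one_mem' := ⟨1, fun h => hP.ne_top ((Ideal.eq_top_iff_one P).2 h), by
    rw [OneMemClass.coe_one, mul_one]; exact B.one_mem⟩
  add_mem' := by
    rintro z1 z2 ⟨s1, hs1, h1⟩ ⟨s2, hs2, h2⟩
    refine ⟨s1 * s2, fun h => (hP.mem_or_mem h).elim hs1 hs2, ?_⟩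
    have : ((s1 * s2 : B) : F0) * (z1 + z2) =
        (s2 : F0) * ((s1 : F0) * z1) + (s1 : F0) * ((s2 : F0) * z2) := by
      push_cast; ring
    rw [this]; exact B.add_mem (B.mul_mem s2.2 h1) (B.mul_mem s1.2 h2)
  zero_mem' := ⟨1, fun h => hP.ne_top ((Ideal.eq_top_iff_one P).2 h), by
    rw [mul_zero]; exact B.zero_mem⟩
  neg_mem' := by
    rintro z ⟨s, hs, h⟩
    exact ⟨s, hs, by rw [mul_neg]; exact B.neg_mem h⟩

variable {B : Subalgebra A0 F0} {P : Ideal B} [hP : P.IsPrime]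

theorem s44ta_mem_V {z : F0} : z ∈ s44ta_V B P ↔ ∃ s : B, s ∉ P ∧ (s : F0) * z ∈ B := Iff.rfl

theorem s44ta_V_of_mem {z : F0} (hz : z ∈ B) : z ∈ s44ta_V B P :=
  ⟨1, fun h => hP.ne_top ((Ideal.eq_top_iff_one P).2 h), by
    rw [OneMemClass.coe_one, one_mul]; exact hz⟩

theorem s44ta_coe_ne_zero {s : B} (hs : s ∉ P) : (s : F0) ≠ 0 := by
  intro h0
  apply hs
  have : s = 0 := Subtype.ext h0
  rw [this]; exact P.zero_mem

/-- `b / s ∈ V` for `b ∈ B`, `s ∈ B ∖ P`. -/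
theorem s44ta_V_div {b : F0} (hb : b ∈ B) {s : B} (hs : s ∉ P) : b * (s : F0)⁻¹ ∈ s44ta_V B P :=
  ⟨s, hs, by
    have hs0 : (s : F0) ≠ 0 := s44ta_coe_ne_zero hs
    have : (s : F0) * (b * (s : F0)⁻¹) = b := by field_simp
    rw [this]; exact hb⟩

/-- the inverse of an element of `B ∖ P` lies in `V`. -/
theorem s44ta_V_inv {s : B} (hs : s ∉ P) : ((s : F0))⁻¹ ∈ s44ta_V B P := by
  have := s44ta_V_div (P := P) B.one_mem hs
  rwa [one_mul] at this

variable {π : A0}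

/-- `1 + ϖ V ⊆ Vˣ` when `ϖ ∈ P`. -/
theorem s44ta_V_jac (hπP : algebraMap A0 B π ∈ P) {y : F0} (hy : y ∈ s44ta_V B P) :
    (1 + algebraMap A0 F0 π * y)⁻¹ ∈ s44ta_V B P ∧ 1 + algebraMap A0 F0 π * y ≠ 0 := by
  obtain ⟨s, hs, hsy⟩ := hy
  have hs0 : (s : F0) ≠ 0 := s44ta_coe_ne_zero hs
  set t : B := s + algebraMap A0 B π * ⟨_, hsy⟩ with ht
  have htP : t ∉ P := by
    intro h
    apply hs
    have : s = t - algebraMap A0 B π * ⟨_, hsy⟩ := by rw [ht]; ring
    rw [this]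
    exact P.sub_mem h (P.mul_mem_right _ hπP)
  have htF : (t : F0) = (s : F0) * (1 + algebraMap A0 F0 π * y) := by
    rw [ht]; push_cast; ring
  have ht0 : (t : F0) ≠ 0 := s44ta_coe_ne_zero htP
  have h10 : 1 + algebraMap A0 F0 π * y ≠ 0 := by
    intro h0; apply ht0; rw [htF, h0, mul_zero]
  refine ⟨⟨t, htP, ?_⟩, h10⟩
  rw [htF, mul_assoc, mul_inv_cancel₀ h10, mul_one]
  exact s.2

/-- an automorphism which is trivial modulo `ϖ` on `B` is trivial modulo `ϖ` on `V = B_P`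
(`ϖ ∈ P`). -/
theorem s44ta_V_sigma (hπP : algebraMap A0 B π ∈ P) (σ : F0 ≃+* F0)
    (hσB : ∀ b ∈ B, ∃ c ∈ B, σ b - b = algebraMap A0 F0 π * c) {z : F0}
    (hz : z ∈ s44ta_V B P) : ∃ c ∈ s44ta_V B P, σ z - z = algebraMap A0 F0 π * c := by
  obtain ⟨s, hs, hsz⟩ := hz
  obtain ⟨c1, hc1, h1⟩ := hσB _ hsz
  obtain ⟨c2, hc2, h2⟩ := hσB _ s.2
  have hs0 : (s : F0) ≠ 0 := s44ta_coe_ne_zero hs
  have hσs0 : σ (s : F0) ≠ 0 := (map_ne_zero σ).2 hs0
  have e2 : σ (s : F0) = (s : F0) + algebraMap A0 F0 π * c2 := by linear_combination h2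
  have hσsB : σ (s : F0) ∈ B := by
    rw [e2]; exact B.add_mem s.2 (B.mul_mem (B.algebraMap_mem π) hc2)
  have hσsP : (⟨σ (s : F0), hσsB⟩ : B) ∉ P := by
    intro h
    apply hs
    have : s = ⟨σ (s : F0), hσsB⟩ - algebraMap A0 B π * ⟨c2, hc2⟩ := by
      apply Subtype.ext
      show (s : F0) = σ (s : F0) - algebraMap A0 F0 π * c2
      rw [e2]; ring
    rw [this]
    exact P.sub_mem h (P.mul_mem_right _ hπP)
  refine ⟨(c1 - z * c2) * (σ (s : F0))⁻¹, ?_, ?_⟩
  · refine ⟨s * ⟨σ (s : F0), hσsB⟩, fun h => (hP.mem_or_mem h).elim hs hσsP, ?_⟩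
    have : ((s * ⟨σ (s : F0), hσsB⟩ : B) : F0) * ((c1 - z * c2) * (σ (s : F0))⁻¹) =
        (s : F0) * c1 - ((s : F0) * z) * c2 := by
      push_cast
      field_simp
    rw [this]
    exact B.sub_mem (B.mul_mem s.2 hc1) (B.mul_mem hsz hc2)
  · rw [map_mul] at h1
    have e1 : σ (s : F0) * σ z = (s : F0) * z + algebraMap A0 F0 π * c1 := by
      linear_combination h1
    have hσz : σ z = ((s : F0) * z + algebraMap A0 F0 π * c1) * (σ (s : F0))⁻¹ := by
      rw [← e1]; field_simp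
    rw [hσz]
    field_simp
    rw [e2]
    ring

/-- `P V = ϖ V` when `P` is locally generated by `ϖ`. -/
theorem s44ta_V_unif {t0 : B} (ht0 : t0 ∉ P) (hloc : ∀ z ∈ P, algebraMap A0 B π ∣ t0 * z)
    {z : B} (hz : z ∈ P) : ∃ c ∈ s44ta_V B P, (z : F0) = algebraMap A0 F0 π * c := by
  obtain ⟨c0, hc0⟩ := hloc z hz
  have ht00 : (t0 : F0) ≠ 0 := s44ta_coe_ne_zero ht0
  refine ⟨(c0 : F0) * (t0 : F0)⁻¹, s44ta_V_div c0.2 ht0, ?_⟩
  have h := congrArg (fun w : B => (w : F0)) hc0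
  simp only [Subalgebra.coe_mul, Subalgebra.coe_algebraMap] at h
  field_simp
  linear_combination h

end Loc

section Comp

variable {A0 : Type*} [CommRing A0] {F0 : Type v} [Field F0] [Algebra A0 F0]

/-- **the data of one component** `P` of the special fibre on the overlap chart `B12`
(`P'` the other component): `ϖ B12 = P ∩ P'`, `P' ⊄ P`. -/
structure s44ta_Comp (π : A0) (B12 : Subalgebra A0 F0) (P P' : Ideal B12) : Prop where
  prime : P.IsPrime
  hrad : Ideal.span {algebraMap A0 B12 π} = P ⊓ P'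
  hnot : ¬ P' ≤ P

namespace s44ta_Comp

variable {π : A0} {B12 : Subalgebra A0 F0} {P P' : Ideal B12} (C : s44ta_Comp π B12 P P')
include C

theorem pi_mem : algebraMap A0 B12 π ∈ P := by
  have : algebraMap A0 B12 π ∈ P ⊓ P' := by
    rw [← C.hrad]; exact Ideal.subset_span rfl
  exact this.1

/-- `P` is locally generated by `ϖ`. -/
theorem exists_loc : ∃ t0 : B12, t0 ∉ P ∧ t0 ∈ P' ∧
    ∀ z ∈ P, algebraMap A0 B12 π ∣ t0 * z := by
  obtain ⟨t0, ht0, ht0'⟩ := SetLike.not_le_iff_exists.1 C.hnot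
  refine ⟨t0, ht0', ht0, fun z hz => ?_⟩
  rw [← Ideal.mem_span_singleton, C.hrad]
  exact ⟨P.mul_mem_left _ hz, P'.mul_mem_right _ ht0⟩

/-- a non-zero-divisor modulo `ϖ` of the overlap chart lies outside the component. -/
theorem not_mem_of_S {s : F0} (hs : s ∈ sfc_S B12.toSubring (algebraMap A0 F0 π)) :
    (⟨s, hs.1⟩ : B12) ∉ P := by
  have := C.prime
  obtain ⟨t0, ht0, -, hloc⟩ := C.exists_loc
  intro hmem
  obtain ⟨c, hc⟩ := hloc _ hmem
  have hcF : (t0 : F0) * s = algebraMap A0 F0 π * (c : F0) := by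
    have := congrArg (fun w : B12 => (w : F0)) hc
    simpa only [Subalgebra.coe_mul, Subalgebra.coe_algebraMap] using this
  obtain ⟨c', hc', h⟩ := hs.2.2 (t0 : F0) t0.2 ⟨(c : F0), c.2, by rw [← hcF]; ring⟩
  apply ht0
  have : t0 = algebraMap A0 B12 π * ⟨c', hc'⟩ :=
    Subtype.ext (by simpa only [Subalgebra.coe_mul, Subalgebra.coe_algebraMap] using h)
  rw [this]
  exact P.mul_mem_right _ C.pi_mem

/-- the semilocal Gauss ring is contained in the component ring. -/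
theorem V_of_O {z : F0} (hz : z ∈ sfc_O B12.toSubring (algebraMap A0 F0 π)) :
    haveI := C.prime
    z ∈ s44ta_V B12 P := by
  obtain ⟨s, hs, hsz⟩ := hz
  exact ⟨⟨s, hs.1⟩, C.not_mem_of_S hs, hsz⟩

end s44ta_Comp

variable {B1 B12 : Subalgebra A0 F0} (hle : B1 ≤ B12) {x : F0} (hx : x ≠ 0) (hx1 : x ∈ B1)
  (hxinv : x⁻¹ ∈ B12) (hclear : ∀ z ∈ B12, ∃ k : ℕ, x ^ k * z ∈ B1) {π : A0}

include hle hx hx1 hxinv hclear in
/-- **the order along a component** (abstract charts): every `G ≠ 0` is `ϖ ^ k · w` with `w` a unit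
of the component ring. -/
theorem s44ta_V_ord_abs [IsDomain A0] [IsNoetherianRing B1] [IsFractionRing B1 F0]
    (hϖF : algebraMap A0 F0 π ≠ 0) {P P' : Ideal B12} (C : s44ta_Comp π B12 P P') {G : F0}
    (hG : G ≠ 0) :
    haveI := C.prime
    ∃ (k : ℤ) (w : F0), w ∈ s44ta_V B12 P ∧ w⁻¹ ∈ s44ta_V B12 P ∧
      G = algebraMap A0 F0 π ^ k * w := by
  classical
  have := C.prime
  obtain ⟨t0, ht0, -, hloc⟩ := C.exists_loc
  set Q : Ideal B1 := P.comap (Subalgebra.inclusion hle).toRingHom with hQ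
  have hQprime : Q.IsPrime := Ideal.comap_isPrime _ P
  have hmemQ : ∀ z : B1, z ∈ Q ↔ Subalgebra.inclusion hle z ∈ P := fun z => Iff.rfl
  have hϖQ : algebraMap A0 B1 π ∈ Q := by
    rw [hmemQ]
    have : Subalgebra.inclusion hle (algebraMap A0 B1 π) = algebraMap A0 B12 π := by
      apply Subtype.ext
      simp only [Subalgebra.coe_inclusion, Subalgebra.coe_algebraMap]
    rw [this]; exact C.pi_mem
  have hϖ0 : algebraMap A0 B1 π ≠ 0 := by
    intro h
    apply hϖF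
    have := congrArg Subtype.val h
    simpa only [Subalgebra.coe_algebraMap, ZeroMemClass.coe_zero] using this
  have hlocQ : ∀ z ∈ Q, ∃ t : B1, t ∉ Q ∧ algebraMap A0 B1 π ∣ t * z := fun z hz =>
    ssa_locQ hle hx hx1 hxinv hclear P ht0 hloc z ((hmemQ z).1 hz)
  obtain ⟨k, a, b, ha, hb, hGab⟩ := ssa_ord_at_frac F0 Q hϖQ hϖ0 hlocQ hG
  have hGab' : G * (b : F0) = algebraMap A0 F0 π ^ k * (a : F0) := hGab
  have ha' : Subalgebra.inclusion hle a ∉ P := ha
  have hb' : Subalgebra.inclusion hle b ∉ P := hb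
  have ha0 : (a : F0) ≠ 0 := by
    have := s44ta_coe_ne_zero ha'
    simpa only [Subalgebra.coe_inclusion] using this
  have hb0 : (b : F0) ≠ 0 := by
    have := s44ta_coe_ne_zero hb'
    simpa only [Subalgebra.coe_inclusion] using this
  refine ⟨k, (a : F0) * (b : F0)⁻¹, ?_, ?_, ?_⟩
  · have := s44ta_V_div (P := P) (Subalgebra.inclusion hle a).2 hb'
    simpa only [Subalgebra.coe_inclusion] using this
  · have := s44ta_V_div (P := P) (Subalgebra.inclusion hle b).2 ha'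
    simp only [Subalgebra.coe_inclusion] at this
    rwa [mul_inv, inv_inv, mul_comm]
  · rw [← mul_assoc, ← hGab']
    field_simp

/-- **a subring with the order property is a valuation subring.** -/
noncomputable def s44ta_valOf (V : Subring F0) (ϖ : F0) (hϖV : ϖ ∈ V)
    (hord : ∀ G : F0, G ≠ 0 → ∃ (k : ℤ) (w : F0), w ∈ V ∧ w⁻¹ ∈ V ∧ G = ϖ ^ k * w) :
    ValuationSubring F0 :=
  { V with
    mem_or_inv_mem' := fun z => by
      by_cases hz : z = 0
      · left; rw [hz]; exact Subring.zero_mem _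
      · obtain ⟨k, w, hw, hwinv, hG⟩ := hord z hz
        rcases le_total 0 k with hk | hk
        · left
          obtain ⟨n, rfl⟩ := Int.eq_ofNat_of_zero_le hk
          rw [hG, zpow_natCast]
          exact Subring.mul_mem _ (Subring.pow_mem _ hϖV n) hw
        · right
          obtain ⟨n, hn⟩ := Int.eq_ofNat_of_zero_le (neg_nonneg.2 hk)
          have : z⁻¹ = ϖ ^ n * w⁻¹ := by
            rw [hG, mul_inv, ← zpow_neg, hn, zpow_natCast]
          rw [this]
          exact Subring.mul_mem _ (Subring.pow_mem _ hϖV n) hwinv }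

theorem s44ta_mem_valOf (V : Subring F0) (ϖ : F0) (hϖV : ϖ ∈ V)
    (hord : ∀ G : F0, G ≠ 0 → ∃ (k : ℤ) (w : F0), w ∈ V ∧ w⁻¹ ∈ V ∧ G = ϖ ^ k * w) {z : F0} :
    z ∈ s44ta_valOf V ϖ hϖV hord ↔ z ∈ V := Iff.rfl

end Comp

end Fermat.Agent.S44
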