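/-
S44 project, cell [G3] = [TOR], SUB (T-ASM) 'core-p' (helper12), part 2.  Prefix `s44ta_`.
Namespace `Fermat.Agent.S44`.

THE LOCAL ANALYSIS AT A CLOSED POINT `𝔫` OF A CHART `B ≤ B₁₂` (abstract subalgebras, so that the
kernel never unfolds `fc_chart`).  Data: `f = G ^ p (1 + ϖ ^ (p e + 1) b)` with `b` in both component
rings (GLOBAL split form) and `f = D ^ p (1 + ϖ ^ (p e) H)` with `H ∈ B_𝔫` (LOCAL étale form);
`σ` trivial modulo `ϖ` on the charts, `σ ζ = ζ ^ k`, `ζ - 1 = ϖ ^ e · unit`.  Then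

  `h' := σ f / (f ^ k (σ G / G ^ k) ^ p) = T ^ (-p) (1 + ϖ ^ (p e + 1) y)`,  `T := σ (G/D) / (G/D) ^ k`,

with `y ∈ B_𝔫`, and for each component ring `V_j` a multiplier `s_j ∈ B ∖ 𝔫` with
`s_j (T - 1) ∈ ϖ ^ (e + 1) V_j`: the hypotheses of helper13's `s44s_main_factor2`.

* `s44ta_sig_local` : `σ (1 + ϖ ^ (p e) H) = (1 + ϖ ^ (p e) H) ^ k (1 + ϖ ^ (p e + 1) y)` in a ring
                      on which `σ` is trivial modulo `ϖ`;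
* `s44ta_through`   : `T ≡ 1 mod ϖ ^ (e + 1) V` on a component THROUGH `𝔫` (root extraction + the
                      `σ`-bookkeeping; `σ (ζ ^ a) = (ζ ^ a) ^ k` cancels);
* `s44ta_mult`      : the multiplier for one component (through `𝔫` or not);
* `s44ta_point`     : the local datum at `𝔫`.
-/
import Mathlib
import Fermat.Agent.S44.Tor.AsmComp
import Fermat.Agent.S44.SFCp.Sigma
import Fermat.Agent.S44.SFCp.Loc2
import Fermat.Agent.S44.Tor.Val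

set_option autoImplicit false
set_option linter.unusedSectionVars false

namespace Fermat.Agent.S44

open Fermat.Agent.JT3 Fermat.Agent.SS

universe v

section Arith

variable {F0 : Type v} [Field F0]

/-- **the arithmetic data at `p` inside `F0`** relative to a subring `R` (which contains the image of
the base ring): `lam = ζ - 1 = ϖ ^ e u`, `u` a unit of `R`, `p = lam w`, `σ ζ = ζ ^ k`. -/
structure s44ta_Arith (R : Subring F0) (σ : F0 ≃+* F0) (ϖ ζ u uinv w : F0) (p e k : ℕ) : Prop where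
  prime : p.Prime
  e_pos : 0 < e
  ϖ_mem : ϖ ∈ R
  u_mem : u ∈ R
  uinv_mem : uinv ∈ R
  w_mem : w ∈ R
  u_inv : u * uinv = 1
  ζ_sub : ζ - 1 = ϖ ^ e * u
  p_eq : (p : F0) = (ζ - 1) * w
  σζ : σ ζ = ζ ^ k
  jac : ∀ y ∈ R, (1 + ϖ * y)⁻¹ ∈ R ∧ 1 + ϖ * y ≠ 0
  triv : ∀ z ∈ R, ∃ c ∈ R, σ z - z = ϖ * c

namespace s44ta_Arith

variable {R : Subring F0} {σ : F0 ≃+* F0} {ϖ ζ u uinv w : F0} {p e k : ℕ}
  (Ar : s44ta_Arith R σ ϖ ζ u uinv w p e k)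
include Ar

theorem lam_eq : ζ - 1 = ϖ * (ϖ ^ (e - 1) * u) := by
  rw [Ar.ζ_sub, ← mul_assoc, ← pow_succ']
  congr 2
  have := Ar.e_pos
  omega

theorem l'_mem : ϖ ^ (e - 1) * u ∈ R := R.mul_mem (R.pow_mem Ar.ϖ_mem _) Ar.u_mem

theorem σlam : (σ : F0 →+* F0) (ζ - 1) = (1 + (ζ - 1)) ^ k - 1 := by
  rw [RingEquiv.coe_toRingHom, map_sub, map_one, Ar.σζ]
  ring_nf

theorem triv' : ∀ z ∈ R, ∃ c ∈ R, (σ : F0 →+* F0) z - z = ϖ * c := fun z hz => by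
  rw [RingEquiv.coe_toRingHom]; exact Ar.triv z hz

/-- `σ (1 + ϖ ^ e ε) = (1 + ϖ ^ e ε) ^ k (1 + ϖ ^ (e + 1) y)`. -/
theorem sig_e {ε : F0} (hε : ε ∈ R) :
    ∃ y ∈ R, σ (1 + ϖ ^ e * ε) = (1 + ϖ ^ e * ε) ^ k * (1 + ϖ ^ (e + 1) * y) := by
  obtain ⟨y, hy, h⟩ := s44s_sig_lam R (σ : F0 →+* F0) k Ar.ϖ_mem Ar.l'_mem Ar.lam_eq Ar.jac
    Ar.triv' Ar.σlam (R.mul_mem Ar.uinv_mem hε)
  rw [RingEquiv.coe_toRingHom] at h
  refine ⟨u * y, R.mul_mem Ar.u_mem hy, ?_⟩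
  have h1 : (ζ - 1) * (uinv * ε) = ϖ ^ e * ε := by
    rw [Ar.ζ_sub]
    linear_combination (ϖ ^ e * ε) * Ar.u_inv
  have h2 : (ζ - 1) * ϖ * y = ϖ ^ (e + 1) * (u * y) := by
    rw [Ar.ζ_sub, pow_succ]; ring
  rw [h1, h2] at h
  exact h

/-- `σ (1 + ϖ ^ (p e) H) = (1 + ϖ ^ (p e) H) ^ k (1 + ϖ ^ (p e + 1) y)`. -/
theorem sig_pe {H : F0} (hH : H ∈ R) :
    ∃ y ∈ R, σ (1 + ϖ ^ (p * e) * H) =
      (1 + ϖ ^ (p * e) * H) ^ k * (1 + ϖ ^ (p * e + 1) * y) := by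
  obtain ⟨y, hy, h⟩ := s44s_sig_lamp R (σ : F0 →+* F0) k Ar.ϖ_mem Ar.l'_mem Ar.lam_eq Ar.jac
    Ar.triv' Ar.σlam Ar.prime Ar.w_mem Ar.p_eq (R.mul_mem (R.pow_mem Ar.uinv_mem p) hH)
  rw [RingEquiv.coe_toRingHom] at h
  refine ⟨u ^ p * y, R.mul_mem (R.pow_mem Ar.u_mem p) hy, ?_⟩
  have hu : u ^ p * uinv ^ p = 1 := by rw [← mul_pow, Ar.u_inv, one_pow]
  have h1 : (ζ - 1) ^ p * (uinv ^ p * H) = ϖ ^ (p * e) * H := by
    rw [Ar.ζ_sub, mul_pow, ← pow_mul, mul_comm e p]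
    linear_combination (ϖ ^ (p * e) * H) * hu
  have h2 : (ζ - 1) ^ p * ϖ * y = ϖ ^ (p * e + 1) * (u ^ p * y) := by
    rw [Ar.ζ_sub, mul_pow, ← pow_mul, mul_comm e p, pow_succ]; ring
  rw [h1, h2] at h
  exact h

end s44ta_Arith

end Arith

section Base

variable {A0 : Type*} [CommRing A0] {F0 : Type v} [Field F0] [Algebra A0 F0]

/-- **the arithmetic data at `p` over the base ring** (no function field involved):
`ζ ^ p = 1`, `ζ - 1 = π ^ e u`, `u uinv = 1`, `p = (ζ - 1) w`. -/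
structure s44ta_Base (π : A0) (p e : ℕ) (ζ u uinv w : A0) : Prop where
  prime : p.Prime
  e_pos : 0 < e
  ζ_pow : ζ ^ p = 1
  u_inv : u * uinv = 1
  ζ_sub : ζ - 1 = π ^ e * u
  p_eq : (p : A0) = (ζ - 1) * w

variable {π : A0} {p e k : ℕ} {ζ u uinv w : A0}

/-- the arithmetic data in the localisation `B_P` of a chart on which `σ` is trivial modulo `ϖ`. -/
theorem s44ta_arith_of_base (hb : s44ta_Base π p e ζ u uinv w) (σ : F0 ≃+* F0)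
    (hσζ : σ (algebraMap A0 F0 ζ) = algebraMap A0 F0 ζ ^ k)
    {B : Subalgebra A0 F0} {P : Ideal B} [P.IsPrime] (hπP : algebraMap A0 B π ∈ P)
    (hσB : ∀ b ∈ B, ∃ c ∈ B, σ b - b = algebraMap A0 F0 π * c) :
    s44ta_Arith (s44ta_V B P) σ (algebraMap A0 F0 π) (algebraMap A0 F0 ζ) (algebraMap A0 F0 u)
      (algebraMap A0 F0 uinv) (algebraMap A0 F0 w) p e k where
  prime := hb.prime
  e_pos := hb.e_pos
  ϖ_mem := s44ta_V_of_mem (B.algebraMap_mem π)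
  u_mem := s44ta_V_of_mem (B.algebraMap_mem u)
  uinv_mem := s44ta_V_of_mem (B.algebraMap_mem uinv)
  w_mem := s44ta_V_of_mem (B.algebraMap_mem w)
  u_inv := by rw [← map_mul, hb.u_inv, map_one]
  ζ_sub := by rw [← map_one (algebraMap A0 F0), ← map_sub, hb.ζ_sub, map_mul, map_pow]
  p_eq := by
    rw [← map_one (algebraMap A0 F0), ← map_sub, ← map_mul, ← hb.p_eq, map_natCast]
  σζ := hσζ
  jac := fun _ hy => s44ta_V_jac hπP hy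
  triv := fun _ hz => s44ta_V_sigma hπP σ hσB hz

end Base

section Mult

variable {A0 : Type*} [CommRing A0] {F0 : Type v} [Field F0] [Algebra A0 F0]
  {B B12 : Subalgebra A0 F0} {π : A0} {p e k : ℕ} {ζ u uinv w : A0}

/-- pole bound from the order property. -/
theorem s44ta_pole (V : Subring F0) {ϖ : F0} (hϖV : ϖ ∈ V) (hϖ0 : ϖ ≠ 0)
    (hord : ∀ G : F0, G ≠ 0 → ∃ (k : ℤ) (w : F0), w ∈ V ∧ w⁻¹ ∈ V ∧ G = ϖ ^ k * w)
    (T : F0) : ∃ a : ℕ, ϖ ^ a * T ∈ V := by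
  by_cases hT : T = 0
  · exact ⟨0, by rw [hT, mul_zero]; exact V.zero_mem⟩
  obtain ⟨k, w, hw, -, hTw⟩ := hord T hT
  rcases le_total 0 k with hk | hk
  · obtain ⟨n, rfl⟩ := Int.eq_ofNat_of_zero_le hk
    refine ⟨0, ?_⟩
    rw [pow_zero, one_mul, hTw, zpow_natCast]
    exact V.mul_mem (V.pow_mem hϖV n) hw
  · obtain ⟨n, hn⟩ := Int.eq_ofNat_of_zero_le (neg_nonneg.2 hk)
    refine ⟨n, ?_⟩
    have : ϖ ^ n * T = w := by
      rw [hTw, ← mul_assoc, ← zpow_natCast, ← zpow_add₀ hϖ0, ← hn, neg_add_cancel, zpow_zero,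
        one_mul]
    rw [this]; exact hw

/-- **component THROUGH the point**: `X ^ p (1 + ϖ ^ (p e + 1) b) = 1 + ϖ ^ (p e) H` with `b, H` in the
component ring `V` ⟹ `σ X / X ^ k ≡ 1 mod ϖ ^ (e + 1) V`. -/
theorem s44ta_through (hϖF : algebraMap A0 F0 π ≠ 0) (hb : s44ta_Base π p e ζ u uinv w)
    (σ : F0 ≃+* F0) (hσζ : σ (algebraMap A0 F0 ζ) = algebraMap A0 F0 ζ ^ k)
    {P : Ideal B12} [P.IsPrime] (hπP : algebraMap A0 B12 π ∈ P)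
    (hσ12 : ∀ b ∈ B12, ∃ c ∈ B12, σ b - b = algebraMap A0 F0 π * c)
    (hord : ∀ G : F0, G ≠ 0 → ∃ (k : ℤ) (w : F0), w ∈ s44ta_V B12 P ∧ w⁻¹ ∈ s44ta_V B12 P ∧
      G = algebraMap A0 F0 π ^ k * w)
    {X b H : F0} (hX : X ≠ 0) (hbV : b ∈ s44ta_V B12 P) (hHV : H ∈ s44ta_V B12 P)
    (hXp : X ^ p * (1 + algebraMap A0 F0 π ^ (p * e + 1) * b) =
      1 + algebraMap A0 F0 π ^ (p * e) * H) :
    ∃ y ∈ s44ta_V B12 P, σ X * (X ^ k)⁻¹ - 1 = algebraMap A0 F0 π ^ (e + 1) * y := by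
  have Ar := s44ta_arith_of_base hb σ hσζ hπP hσ12
  set ϖ := algebraMap A0 F0 π with hϖdef
  set V := s44ta_V B12 P with hV
  have hϖV : ϖ ∈ V := Ar.ϖ_mem
  have hU : (1 + ϖ ^ (p * e + 1) * b)⁻¹ ∈ V ∧ 1 + ϖ ^ (p * e + 1) * b ≠ 0 := by
    have := Ar.jac (ϖ ^ (p * e) * b) (V.mul_mem (V.pow_mem hϖV _) hbV)
    rwa [← mul_assoc, ← pow_succ'] at this
  have hyV : (H - ϖ * b) * (1 + ϖ ^ (p * e + 1) * b)⁻¹ ∈ V :=
    V.mul_mem (V.sub_mem hHV (V.mul_mem hϖV hbV)) hU.1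
  have hXy : X ^ p = 1 + ϖ ^ (p * e) * ((H - ϖ * b) * (1 + ϖ ^ (p * e + 1) * b)⁻¹) := by
    have h1 : X ^ p = (1 + ϖ ^ (p * e) * H) * (1 + ϖ ^ (p * e + 1) * b)⁻¹ := by
      rw [← hXp, mul_assoc, mul_inv_cancel₀ hU.2, mul_one]
    rw [h1]
    have h2 := hU.2
    field_simp
    ring
  have hu1 : (algebraMap A0 F0 u)⁻¹ = algebraMap A0 F0 uinv := inv_eq_of_mul_eq_one_right Ar.u_inv
  have hu0 : algebraMap A0 F0 u ≠ 0 := by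
    intro h0
    have := Ar.u_inv
    rw [h0, zero_mul] at this
    exact zero_ne_one this
  have hζp : algebraMap A0 F0 ζ ^ p = 1 := by rw [← map_pow, hb.ζ_pow, map_one]
  have hζ1 : algebraMap A0 F0 ζ ≠ 1 := by
    intro h1
    have := Ar.ζ_sub
    rw [h1, sub_self] at this
    exact mul_ne_zero (pow_ne_zero _ hϖF) hu0 this.symm
  have hζ0 : algebraMap A0 F0 ζ ≠ 0 := by
    intro h0
    rw [h0, zero_pow hb.prime.ne_zero] at hζp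
    exact zero_ne_one hζp
  obtain ⟨a, w', hw', hXa⟩ := s44t_root (s44ta_valOf V ϖ hϖV hord) hb.prime (ϖ := ϖ)
    (ζ := algebraMap A0 F0 ζ) (e := e) hϖV hζp hζ1
    ⟨algebraMap A0 F0 u, Ar.u_mem, by rw [hu1]; exact Ar.uinv_mem, Ar.ζ_sub⟩
    ⟨_, hyV, hXy⟩
  obtain ⟨y1, hy1, hσ1⟩ := Ar.sig_e hw'
  refine ⟨y1, hy1, ?_⟩
  have hE0 : 1 + ϖ ^ e * w' ≠ 0 := by
    intro h; apply hX; rw [hXa, h, mul_zero]
  have hZ : (algebraMap A0 F0 ζ ^ k) ^ a = (algebraMap A0 F0 ζ ^ a) ^ k := by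
    rw [← pow_mul, mul_comm, pow_mul]
  have hZ0 : (algebraMap A0 F0 ζ ^ a) ^ k ≠ 0 := pow_ne_zero _ (pow_ne_zero _ hζ0)
  have hEk : (1 + ϖ ^ e * w') ^ k ≠ 0 := pow_ne_zero _ hE0
  rw [hXa, map_mul, map_pow, Ar.σζ, hσ1, hZ, mul_pow]
  have h3 : (algebraMap A0 F0 ζ ^ a) ^ k * ((1 + ϖ ^ e * w') ^ k * (1 + ϖ ^ (e + 1) * y1)) *
      ((algebraMap A0 F0 ζ ^ a) ^ k * (1 + ϖ ^ e * w') ^ k)⁻¹ = 1 + ϖ ^ (e + 1) * y1 := by
    field_simp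
  rw [h3]
  ring

/-- **the multiplier for one component** `P` (through the point `𝔫` of the chart `B ≤ B12` or not). -/
theorem s44ta_mult (hle : B ≤ B12) (hϖF : algebraMap A0 F0 π ≠ 0)
    (hb : s44ta_Base π p e ζ u uinv w)
    (σ : F0 ≃+* F0) (hσζ : σ (algebraMap A0 F0 ζ) = algebraMap A0 F0 ζ ^ k)
    {P P' : Ideal B12} [P.IsPrime] (C : s44ta_Comp π B12 P P')
    (hσ12 : ∀ b ∈ B12, ∃ c ∈ B12, σ b - b = algebraMap A0 F0 π * c)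
    (hord : ∀ G : F0, G ≠ 0 → ∃ (k : ℤ) (w : F0), w ∈ s44ta_V B12 P ∧ w⁻¹ ∈ s44ta_V B12 P ∧
      G = algebraMap A0 F0 π ^ k * w)
    (𝔫 : Ideal B) [h𝔫 : 𝔫.IsPrime]
    {X b H : F0} (hX : X ≠ 0) (hbV : b ∈ s44ta_V B12 P) (hH : H ∈ s44ta_V B 𝔫)
    (hXp : X ^ p * (1 + algebraMap A0 F0 π ^ (p * e + 1) * b) =
      1 + algebraMap A0 F0 π ^ (p * e) * H) :
    ∃ s₁ : B, s₁ ∉ 𝔫 ∧ ∃ y₁ ∈ s44ta_V B12 P,
      (s₁ : F0) * (σ X * (X ^ k)⁻¹ - 1) = algebraMap A0 F0 π ^ (e + 1) * y₁ := by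
  by_cases hthr : ∀ t : B, Subalgebra.inclusion hle t ∈ P → t ∈ 𝔫
  · -- the component passes through the point
    have hHV : H ∈ s44ta_V B12 P := by
      obtain ⟨s, hs, hsH⟩ := hH
      exact ⟨Subalgebra.inclusion hle s, fun h => hs (hthr s h), hle hsH⟩
    obtain ⟨y, hy, h⟩ := s44ta_through hϖF hb σ hσζ C.pi_mem hσ12 hord hX hbV hHV hXp
    refine ⟨1, fun h1 => h𝔫.ne_top ((Ideal.eq_top_iff_one 𝔫).2 h1), y, hy, ?_⟩
    rw [OneMemClass.coe_one, one_mul, h]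
  · -- the component does not pass through the point
    push Not at hthr
    obtain ⟨s₀, hs₀P, hs₀⟩ := hthr
    obtain ⟨t0, ht0, -, hloc⟩ := C.exists_loc
    have hs₀V := s44ta_V_unif ht0 hloc hs₀P
    have hϖV : algebraMap A0 F0 π ∈ s44ta_V B12 P := s44ta_V_of_mem (B12.algebraMap_mem π)
    have hpole := s44ta_pole (s44ta_V B12 P) hϖV hϖF hord (σ X * (X ^ k)⁻¹)
    have := s44s_mult_of_pole B π e 𝔫 h𝔫 (s44ta_V B12 P) hϖV (r := (σ X * (X ^ k)⁻¹)⁻¹)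
      hs₀ hs₀V (by rw [inv_inv]; exact hpole)
    rwa [inv_inv] at this

end Mult

section Point

variable {A0 : Type*} [CommRing A0] {F0 : Type v} [Field F0] [Algebra A0 F0]
  {B B12 : Subalgebra A0 F0} {π : A0} {p e k : ℕ} {ζ u uinv w : A0}

/-- **the local datum at a closed point `𝔫`** of the chart `B ≤ B12`: from the GLOBAL split form
`f = G ^ p (1 + ϖ ^ (p e + 1) b)` (`b` in both component rings) and the LOCAL étale form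
`f = D ^ p (1 + ϖ ^ (p e) H)` (`H ∈ B_𝔫`), the function
`h' := σ f / (f ^ k (σ G / G ^ k) ^ p)` has the shape of the hypothesis `hloc` of
`s44s_main_factor2`. -/
theorem s44ta_point (hle : B ≤ B12) (hϖF : algebraMap A0 F0 π ≠ 0)
    (hb : s44ta_Base π p e ζ u uinv w)
    (σ : F0 ≃+* F0) (hσζ : σ (algebraMap A0 F0 ζ) = algebraMap A0 F0 ζ ^ k)
    {P1 P2 : Ideal B12} [P1.IsPrime] [P2.IsPrime]
    (C1 : s44ta_Comp π B12 P1 P2) (C2 : s44ta_Comp π B12 P2 P1)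
    (hσB : ∀ b ∈ B, ∃ c ∈ B, σ b - b = algebraMap A0 F0 π * c)
    (hσ12 : ∀ b ∈ B12, ∃ c ∈ B12, σ b - b = algebraMap A0 F0 π * c)
    (hord1 : ∀ G : F0, G ≠ 0 → ∃ (k : ℤ) (w : F0), w ∈ s44ta_V B12 P1 ∧ w⁻¹ ∈ s44ta_V B12 P1 ∧
      G = algebraMap A0 F0 π ^ k * w)
    (hord2 : ∀ G : F0, G ≠ 0 → ∃ (k : ℤ) (w : F0), w ∈ s44ta_V B12 P2 ∧ w⁻¹ ∈ s44ta_V B12 P2 ∧
      G = algebraMap A0 F0 π ^ k * w)
    (𝔫 : Ideal B) [h𝔫 : 𝔫.IsPrime] (hπ𝔫 : algebraMap A0 B π ∈ 𝔫)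
    {f G b D H : F0} (hf : f ≠ 0) (hG : G ≠ 0)
    (hb1 : b ∈ s44ta_V B12 P1) (hb2 : b ∈ s44ta_V B12 P2)
    (hfG : f = G ^ p * (1 + algebraMap A0 F0 π ^ (p * e + 1) * b))
    (hD : D ≠ 0) (hH : H ∈ s44ta_V B 𝔫)
    (hfD : f = D ^ p * (1 + algebraMap A0 F0 π ^ (p * e) * H)) :
    ∃ (r y : F0) (s : B), s ∉ 𝔫 ∧ (s : F0) * y ∈ B ∧ r ≠ 0 ∧
      σ f * (f ^ k)⁻¹ * ((σ G * (G ^ k)⁻¹) ^ p)⁻¹ =
        (1 + algebraMap A0 F0 π ^ (p * e + 1) * y) * r ^ p ∧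
      (∃ s₁ : B, s₁ ∉ 𝔫 ∧ ∃ y₁ ∈ s44ta_V B12 P1,
        (s₁ : F0) * (r⁻¹ - 1) = algebraMap A0 F0 π ^ (e + 1) * y₁) ∧
      (∃ s₂ : B, s₂ ∉ 𝔫 ∧ ∃ y₂ ∈ s44ta_V B12 P2,
        (s₂ : F0) * (r⁻¹ - 1) = algebraMap A0 F0 π ^ (e + 1) * y₂) := by
  have Ar := s44ta_arith_of_base hb σ hσζ hπ𝔫 hσB
  obtain ⟨y3, hy3, hσE⟩ := Ar.sig_pe hH
  obtain ⟨s, hs, hsy⟩ := hy3
  have hX : G * D⁻¹ ≠ 0 := mul_ne_zero hG (inv_ne_zero hD)
  have hE0 : 1 + algebraMap A0 F0 π ^ (p * e) * H ≠ 0 := by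
    intro h; apply hf; rw [hfD, h, mul_zero]
  have hXp : (G * D⁻¹) ^ p * (1 + algebraMap A0 F0 π ^ (p * e + 1) * b) =
      1 + algebraMap A0 F0 π ^ (p * e) * H := by
    have h1 : G ^ p * (1 + algebraMap A0 F0 π ^ (p * e + 1) * b) =
        D ^ p * (1 + algebraMap A0 F0 π ^ (p * e) * H) := by rw [← hfG, ← hfD]
    have hDp : D ^ p ≠ 0 := pow_ne_zero _ hD
    rw [mul_pow, inv_pow, mul_comm (G ^ p), mul_assoc, h1, ← mul_assoc, inv_mul_cancel₀ hDp,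
      one_mul]
  have hσX : σ (G * D⁻¹) ≠ 0 := (map_ne_zero σ).2 hX
  have hT0 : σ (G * D⁻¹) * ((G * D⁻¹) ^ k)⁻¹ ≠ 0 :=
    mul_ne_zero hσX (inv_ne_zero (pow_ne_zero _ hX))
  refine ⟨(σ (G * D⁻¹) * ((G * D⁻¹) ^ k)⁻¹)⁻¹, y3, s, hs, hsy, inv_ne_zero hT0, ?_, ?_, ?_⟩
  · have hσf : σ f = (σ D) ^ p * ((1 + algebraMap A0 F0 π ^ (p * e) * H) ^ k *
        (1 + algebraMap A0 F0 π ^ (p * e + 1) * y3)) := by
      conv_lhs => rw [hfD]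
      rw [map_mul, map_pow, hσE]
    have hσG : σ G ≠ 0 := (map_ne_zero σ).2 hG
    have hσD : σ D ≠ 0 := (map_ne_zero σ).2 hD
    rw [hσf, map_mul, map_inv₀]
    conv_lhs => rw [hfD]
    generalize σ G = a at *
    generalize σ D = d at *
    generalize 1 + algebraMap A0 F0 π ^ (p * e) * H = E at *
    generalize 1 + algebraMap A0 F0 π ^ (p * e + 1) * y3 = Y at *
    have hEk : E ^ k ≠ 0 := pow_ne_zero _ hE0
    simp only [mul_pow, inv_pow, mul_inv, inv_inv, ← pow_mul]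
    field_simp
    ring
  · have := s44ta_mult hle hϖF hb σ hσζ C1 hσ12 hord1 𝔫 hX hb1 hH hXp
    rwa [inv_inv]
  · have := s44ta_mult hle hϖF hb σ hσζ C2 hσ12 hord2 𝔫 hX hb2 hH hXp
    rwa [inv_inv]

end Point

end Fermat.Agent.S44
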