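/-
S44 project, cell [G3] = [TOR], SUB (T-LOC), abstract leaf (helper10).  Prefix `s44tn_`.

THE VERTICAL PART OF A `p`-TH POWER MODULO `1 + πⁿ(..)` AT A NODE / A SMOOTH POINT.

`S` a noetherian integrally closed local domain with fraction field `F` (in the application
`S = B_𝔫 = ssl_locSub F0 𝔫`), `π ∈ S`.

* node: two primes `𝔭 true`, `𝔭 false` containing `π` with `𝔭 true ∩ 𝔭 false = (π)`, parameters
  `u b ∉ 𝔭 b` of the two branches, `u true * u false = π ^ N * unit`, `𝔪_S = (π, u true, u false)`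
  (the hypotheses of `s44gi_node`);
* smooth point: `π` a prime element.

If `U ∈ F` is a unit at every horizontal prime of `S` and `U = g ^ p * (1 + π ^ n * b)` with
`0 < n` and `b` in the local rings of the vertical primes, then `U = D1 ^ p * ε` with `ε ∈ Sˣ`
(`s44tn_node_vert`, `s44tn_smooth_vert`).  At the node `D1 = π ^ a * u true ^ ν`; the proof uses
only that the branch `S ⧸ 𝔭 true` is a discrete valuation ring with uniformiser `u true`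
(no class group, no thickness).
-/
import Mathlib
import Fermat.Agent.SS.Local.Height1

set_option autoImplicit false
set_option linter.unusedSectionVars false
set_option linter.style.haveILetI false
set_option linter.unusedVariables false

namespace Fermat.Agent.S44

open Fermat.Agent.SS IsLocalRing

section Branch

variable {S : Type*} [CommRing S] [IsLocalRing S] [IsNoetherianRing S]

/-- **the branch is a discrete valuation ring with uniformiser `t`**: if `𝔪_S ≤ 𝔮 + (t)` then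
every `s ∉ 𝔮` is `≡ t ^ ν * ε` modulo `𝔮`, `ε ∈ Sˣ`. -/
theorem s44tn_branch_ord (𝔮 : Ideal S) [h𝔮 : 𝔮.IsPrime] {t : S} (ht : t ∈ maximalIdeal S)
    (h : maximalIdeal S ≤ 𝔮 ⊔ Ideal.span {t}) {s : S} (hs : s ∉ 𝔮) :
    ∃ (ν : ℕ) (ε : Sˣ), s - t ^ ν * (ε : S) ∈ 𝔮 := by
  haveI : IsLocalRing (S ⧸ 𝔮) :=
    IsLocalRing.of_surjective' (Ideal.Quotient.mk 𝔮) Ideal.Quotient.mk_surjective
  have h𝔮le : 𝔮 ≤ maximalIdeal S := le_maximalIdeal h𝔮.ne_top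
  -- a lift of a unit of the quotient is a unit
  have hlift : ∀ e0 : S, IsUnit (Ideal.Quotient.mk 𝔮 e0) → IsUnit e0 := by
    intro e0 hu
    by_contra hnu
    have he0 : e0 ∈ maximalIdeal S := (mem_maximalIdeal e0).2 hnu
    obtain ⟨y, hy⟩ := isUnit_iff_exists_inv.1 hu
    obtain ⟨y0, rfl⟩ := Ideal.Quotient.mk_surjective y
    have h1 : e0 * y0 - 1 ∈ 𝔮 := by
      rw [← Ideal.Quotient.eq_zero_iff_mem, map_sub, map_mul, hy, map_one, sub_self]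
    have h2 : e0 * y0 ∈ maximalIdeal S := Ideal.mul_mem_right _ _ he0
    have h3 : (1 : S) ∈ maximalIdeal S := by
      have := Ideal.sub_mem _ h2 (h𝔮le h1)
      rwa [sub_sub_cancel] at this
    exact (mem_maximalIdeal _).1 h3 isUnit_one
  have hmaxD : maximalIdeal (S ⧸ 𝔮) = Ideal.span {Ideal.Quotient.mk 𝔮 t} := by
    apply le_antisymm
    · intro x hx
      obtain ⟨x0, rfl⟩ := Ideal.Quotient.mk_surjective x
      have hx0 : x0 ∈ maximalIdeal S := by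
        by_contra hcon
        have hu : IsUnit x0 := by
          by_contra hnu
          exact hcon ((mem_maximalIdeal x0).2 hnu)
        exact (mem_maximalIdeal _).1 hx (hu.map (Ideal.Quotient.mk 𝔮))
      obtain ⟨a, ha, b, hb, hab⟩ := Submodule.mem_sup.1 (h hx0)
      obtain ⟨c, rfl⟩ := Ideal.mem_span_singleton.1 hb
      rw [← hab, map_add, Ideal.Quotient.eq_zero_iff_mem.2 ha, zero_add, map_mul]
      exact Ideal.mem_span_singleton.2 (dvd_mul_right _ _)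
    · rw [Submodule.span_singleton_le_iff_mem]
      rw [mem_maximalIdeal, mem_nonunits_iff]
      intro hu
      exact (mem_maximalIdeal _).1 ht (hlift t hu)
  have hprinc : (maximalIdeal (S ⧸ 𝔮)).IsPrincipal := ⟨_, hmaxD⟩
  have hs0 : (Ideal.Quotient.mk 𝔮 s : S ⧸ 𝔮) ≠ 0 := by
    rwa [Ne, Ideal.Quotient.eq_zero_iff_mem]
  obtain ⟨n, hn⟩ := exists_maximalIdeal_pow_eq_of_principal (S ⧸ 𝔮) hprinc
    (Ideal.span {Ideal.Quotient.mk 𝔮 s}) (by rwa [Ne, Ideal.span_singleton_eq_bot])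
  rw [hmaxD, Ideal.span_singleton_pow, Ideal.span_singleton_eq_span_singleton] at hn
  obtain ⟨e, he⟩ := hn.symm
  obtain ⟨e0, he0⟩ := Ideal.Quotient.mk_surjective (e : S ⧸ 𝔮)
  have hu : IsUnit e0 := hlift e0 (he0 ▸ e.isUnit)
  refine ⟨n, hu.unit, ?_⟩
  rw [← Ideal.Quotient.eq_zero_iff_mem, map_sub, map_mul, map_pow, IsUnit.unit_spec, he0, he,
    sub_self]

end Branch

/-- the field identity `U / D1 ^ p = N / M` of `s44tn_node_vert`. -/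
theorem s44tn_field_id {F : Type*} [Field F] (A Sg Q V P B0 D0 : F) (p n α1 α2 : ℕ) (hS : Sg ≠ 0)
    (hQ : Q ≠ 0) (hV : V ≠ 0) (hD : D0 ≠ 0) :
    (A / Sg * Q) ^ p * (1 + P ^ n * (B0 / D0)) / (Q * V ^ α1 / V ^ α2) ^ p *
      (Sg ^ p * D0 * V ^ (p * α1)) = A ^ p * (D0 + P ^ n * B0) * V ^ (p * α2) := by
  rw [div_pow, mul_pow, div_pow, mul_pow, ← pow_mul, ← pow_mul, mul_comm α1 p, mul_comm α2 p]
  have h1 := pow_ne_zero p hS
  have h2 := pow_ne_zero p hQ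
  have h3 := pow_ne_zero (p * α1) hV
  have h4 := pow_ne_zero (p * α2) hV
  generalize Sg ^ p = X1 at *
  generalize Q ^ p = X2 at *
  generalize V ^ (p * α1) = X3 at *
  generalize V ^ (p * α2) = X4 at *
  field_simp

section Main

variable {S : Type*} [CommRing S] [IsDomain S] [IsLocalRing S] [IsNoetherianRing S]
  [IsIntegrallyClosed S] {F : Type*} [Field F] [Algebra S F] [IsFractionRing S F]

/-- one half of `s44tn_unit_of_assoc`: the case `z ∈ S_𝔮2`. -/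
theorem s44tn_unit_of_assoc_aux {π : S} (𝔮1 𝔮2 : Ideal S) [h1p : 𝔮1.IsPrime] [h2p : 𝔮2.IsPrime]
    (hvert : ∀ 𝔮 : Ideal S, 𝔮.IsPrime → 𝔮.height = 1 → π ∈ 𝔮 → 𝔮 = 𝔮1 ∨ 𝔮 = 𝔮2)
    {z : F} (hz : ∀ 𝔮 : Ideal S, ssl_Horiz π 𝔮 → ssl_UnitAt F 𝔮 z)
    {N M : S} (hN : N ∉ 𝔮1) (hM : M ∉ 𝔮1) (hzM : z * algebraMap S F M = algebraMap S F N)
    (ε1 ε2 : Sˣ) (hε : (ε1 : S) * N - (ε2 : S) * M ∈ 𝔮1) (hz2 : ssl_MemAt F 𝔮2 z) :
    ∃ ω : Sˣ, algebraMap S F (ω : S) = z := by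
  have h𝔮le : 𝔮1 ≤ maximalIdeal S := le_maximalIdeal h1p.ne_top
  obtain ⟨r, hr⟩ := ssl_krull (F := F) (z := z) (by
    intro 𝔮 h𝔮 h1
    by_cases hπ𝔮 : π ∈ 𝔮
    · rcases hvert 𝔮 h𝔮 h1 hπ𝔮 with rfl | rfl
      · exact ⟨N, M, hM, hzM⟩
      · exact hz2
    · exact ssl_memAt_of_unitAt 𝔮 (hz 𝔮 ⟨h𝔮, h1, hπ𝔮⟩))
  have hrM : r * M = N := by
    apply IsFractionRing.injective S F
    rw [map_mul, hr, hzM]
  have h1 : ((ε1 : S) * r - (ε2 : S)) * M ∈ 𝔮1 := by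
    have : ((ε1 : S) * r - (ε2 : S)) * M = (ε1 : S) * N - (ε2 : S) * M := by rw [← hrM]; ring
    rw [this]; exact hε
  have h2 : (ε1 : S) * r - (ε2 : S) ∈ 𝔮1 := (h1p.mem_or_mem h1).resolve_right hM
  have hru : IsUnit r := by
    by_contra hnu
    have hrm : r ∈ maximalIdeal S := (mem_maximalIdeal r).2 hnu
    have h3 : (ε2 : S) ∈ maximalIdeal S := by
      have h4 := Ideal.sub_mem _ (Ideal.mul_mem_left _ (ε1 : S) hrm) (h𝔮le h2)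
      rwa [sub_sub_cancel] at h4
    exact (mem_maximalIdeal _).1 h3 ε2.isUnit
  exact ⟨hru.unit, by rw [IsUnit.unit_spec, hr]⟩

/-- **units by association on a branch**: `z = N / M` with `N`, `M ∉ 𝔮1` associated modulo `𝔮1`
(`ε1 N ≡ ε2 M`), `z` a unit at the horizontal primes, `𝔮1`, `𝔮2` the only vertical primes of
height one ⟹ `z ∈ Sˣ`. -/
theorem s44tn_unit_of_assoc {π : S} (𝔮1 𝔮2 : Ideal S) [h1p : 𝔮1.IsPrime] [h2p : 𝔮2.IsPrime]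
    (h2 : 𝔮2.height = 1)
    (hvert : ∀ 𝔮 : Ideal S, 𝔮.IsPrime → 𝔮.height = 1 → π ∈ 𝔮 → 𝔮 = 𝔮1 ∨ 𝔮 = 𝔮2)
    {z : F} (hz : ∀ 𝔮 : Ideal S, ssl_Horiz π 𝔮 → ssl_UnitAt F 𝔮 z)
    {N M : S} (hN : N ∉ 𝔮1) (hM : M ∉ 𝔮1) (hzM : z * algebraMap S F M = algebraMap S F N)
    (ε1 ε2 : Sˣ) (hε : (ε1 : S) * N - (ε2 : S) * M ∈ 𝔮1) :
    ∃ ω : Sˣ, algebraMap S F (ω : S) = z := by
  have hN0 : algebraMap S F N ≠ 0 := ssl_algebraMap_ne_zero fun h0 => hN (h0 ▸ 𝔮1.zero_mem)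
  have hM0 : algebraMap S F M ≠ 0 := ssl_algebraMap_ne_zero fun h0 => hM (h0 ▸ 𝔮1.zero_mem)
  have hz0 : z ≠ 0 := by
    rintro rfl
    rw [zero_mul] at hzM
    exact hN0 hzM.symm
  rcases (ssl_valAt (F := F) 𝔮2 h2).mem_or_inv_mem z with hmem | hmem
  · exact s44tn_unit_of_assoc_aux 𝔮1 𝔮2 hvert hz hN hM hzM ε1 ε2 hε ((ssl_mem_valAt 𝔮2 h2).1 hmem)
  · obtain ⟨ω, hω⟩ := s44tn_unit_of_assoc_aux (z := z⁻¹) 𝔮1 𝔮2 hvert
      (fun 𝔮 h𝔮 => by haveI := h𝔮.1; exact ssl_unitAt_inv 𝔮 (hz 𝔮 h𝔮)) hM hN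
      (by rw [← hzM]; field_simp) ε2 ε1
      (by
        have : (ε2 : S) * M - (ε1 : S) * N = -((ε1 : S) * N - (ε2 : S) * M) := by ring
        rw [this]; exact 𝔮1.neg_mem hε)
      ((ssl_mem_valAt 𝔮2 h2).1 hmem)
    refine ⟨ω⁻¹, ?_⟩
    have h3 : algebraMap S F ((ω⁻¹ : Sˣ) : S) * algebraMap S F (ω : S) = 1 := by
      rw [← map_mul, Units.inv_mul, map_one]
    rw [hω] at h3
    field_simp at h3
    exact h3

/-- the ideal theory of the node: `u (!b) ∈ 𝔭 b`, the two primes have height one and are the only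
vertical primes of height one, `π` generates `𝔭 b S_{𝔭 b}`, `𝔪_S ≤ 𝔭 b + (u b)`, and the `u b` lie
in no horizontal prime. -/
theorem s44tn_node_ideals {π : S} (hπ0 : π ≠ 0) (𝔭 : Bool → Ideal S) [h𝔭 : ∀ b, (𝔭 b).IsPrime]
    (u : Bool → S) (hπ : ∀ b, π ∈ 𝔭 b)
    (hrad : ∀ s : S, s ∈ 𝔭 true → s ∈ 𝔭 false → π ∣ s)
    (hu : ∀ b, u b ∉ 𝔭 b) (humax : ∀ b, u b ∈ maximalIdeal S)
    (hprod : ∃ (N : ℕ) (ε : Sˣ), u true * u false = π ^ N * (ε : S))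
    (hmax : maximalIdeal S ≤ Ideal.span {π, u true, u false}) :
    (∀ b, u (!b) ∈ 𝔭 b) ∧ (∀ b, (𝔭 b).height = 1) ∧
      (∀ 𝔮 : Ideal S, 𝔮.IsPrime → 𝔮.height = 1 → π ∈ 𝔮 → 𝔮 = 𝔭 true ∨ 𝔮 = 𝔭 false) ∧
      (∀ b, ∀ x ∈ 𝔭 b, ∃ s : S, s ∉ 𝔭 b ∧ π ∣ s * x) ∧
      (∀ b, maximalIdeal S ≤ 𝔭 b ⊔ Ideal.span {u b}) ∧
      (∀ b, ∀ 𝔮 : Ideal S, ssl_Horiz π 𝔮 → u b ∉ 𝔮) := by
  obtain ⟨N, ε, hNε⟩ := hprod
  have hN : N ≠ 0 := by
    rintro rfl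
    rw [pow_zero, one_mul] at hNε
    have h1 : IsUnit (u true * u false) := hNε ▸ ε.isUnit
    exact (mem_maximalIdeal _).1 (humax true) (isUnit_of_mul_isUnit_left h1)
  have huv : π ∣ u true * u false := by
    rw [hNε]
    exact Dvd.dvd.mul_right (dvd_pow_self π hN) _
  have hother : ∀ b, u (!b) ∈ 𝔭 b := by
    intro b
    have h1 : u true * u false ∈ 𝔭 b := Ideal.mem_of_dvd _ huv (hπ b)
    cases b
    · rcases (h𝔭 false).mem_or_mem h1 with h2 | h2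
      · exact h2
      · exact absurd h2 (hu false)
    · rcases (h𝔭 true).mem_or_mem h1 with h2 | h2
      · exact absurd h2 (hu true)
      · exact h2
  have hrad' : ∀ b, ∀ s : S, s ∈ 𝔭 b → s ∈ 𝔭 (!b) → π ∣ s := by
    intro b s h1 h2
    cases b
    · exact hrad s h2 h1
    · exact hrad s h1 h2
  have hgen : ∀ b, ∀ x ∈ 𝔭 b, ∃ s : S, s ∉ 𝔭 b ∧ π ∣ s * x := by
    intro b x hx
    refine ⟨u b, hu b, hrad' b _ (Ideal.mul_mem_left _ _ hx) ?_⟩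
    have := hother (!b)
    rw [Bool.not_not] at this
    exact Ideal.mul_mem_right _ _ this
  have hle : ∀ b, maximalIdeal S ≤ 𝔭 b ⊔ Ideal.span {u b} := by
    intro b
    refine hmax.trans ?_
    rw [Ideal.span_le]
    rintro x (rfl | rfl | hx)
    · exact Ideal.mem_sup_left (hπ b)
    · cases b
      · exact Ideal.mem_sup_left (hother false)
      · exact Ideal.mem_sup_right (Ideal.mem_span_singleton_self _)
    · rw [Set.mem_singleton_iff] at hx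
      subst hx
      cases b
      · exact Ideal.mem_sup_right (Ideal.mem_span_singleton_self _)
      · exact Ideal.mem_sup_left (hother true)
  have hmin : ∀ b, 𝔭 b ∈ (Ideal.span {π}).minimalPrimes := by
    intro b
    refine ⟨⟨h𝔭 b, ?_⟩, ?_⟩
    · rw [Ideal.span_le, Set.singleton_subset_iff]; exact hπ b
    · rintro 𝔮 ⟨h𝔮, hπ𝔮⟩ h𝔮le x hx
      have hπ𝔮' : π ∈ 𝔮 := hπ𝔮 (Ideal.mem_span_singleton_self _)
      obtain ⟨s, hs, hdvd⟩ := hgen b x hx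
      have h1 : s * x ∈ 𝔮 := Ideal.mem_of_dvd _ hdvd hπ𝔮'
      exact (h𝔮.mem_or_mem h1).resolve_left fun h2 => hs (h𝔮le h2)
  have hheight : ∀ b, (𝔭 b).height = 1 := by
    intro b
    apply le_antisymm
    · exact Ideal.height_le_one_of_isPrincipal_of_mem_minimalPrimes (Ideal.span {π}) _ (hmin b)
    · rw [Order.one_le_iff_pos, pos_iff_ne_zero, Ne, Ideal.height_eq_zero_iff_eq_bot]
      intro h0
      have : π ∈ (⊥ : Ideal S) := h0 ▸ hπ b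
      exact hπ0 ((Ideal.mem_bot).1 this)
  refine ⟨hother, hheight, ?_, hgen, hle, ?_⟩
  · intro 𝔮 h𝔮 h1 hπ𝔮
    by_cases ht : 𝔭 true ≤ 𝔮
    · exact Or.inl (ssl_eq_of_le (hheight true) h1 ht).symm
    · right
      obtain ⟨x, hx, hx𝔮⟩ := Set.not_subset.1 ht
      have hf : 𝔭 false ≤ 𝔮 := by
        intro y hy
        have h2 : π ∣ x * y := hrad _ (Ideal.mul_mem_right _ _ hx) (Ideal.mul_mem_left _ _ hy)
        have h3 : x * y ∈ 𝔮 := Ideal.mem_of_dvd _ h2 hπ𝔮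
        exact (h𝔮.mem_or_mem h3).resolve_left hx𝔮
      exact (ssl_eq_of_le (hheight false) h1 hf).symm
  · rintro b 𝔮 ⟨h𝔮, -, hπ𝔮⟩ hub
    have h1 : u true * u false ∈ 𝔮 := by
      cases b
      · exact Ideal.mul_mem_left _ _ hub
      · exact Ideal.mul_mem_right _ _ hub
    rw [hNε] at h1
    rcases h𝔮.mem_or_mem h1 with h2 | h2
    · exact hπ𝔮 (h𝔮.mem_of_pow_mem N h2)
    · exact h𝔮.ne_top (Ideal.eq_top_of_isUnit_mem _ h2 ε.isUnit)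

/-- **THE VERTICAL PART AT A NODE.** -/
theorem s44tn_node_vert {π : S} (hπ0 : π ≠ 0) (𝔭 : Bool → Ideal S) [h𝔭 : ∀ b, (𝔭 b).IsPrime]
    (u : Bool → S) (hπ : ∀ b, π ∈ 𝔭 b)
    (hrad : ∀ s : S, s ∈ 𝔭 true → s ∈ 𝔭 false → π ∣ s)
    (hu : ∀ b, u b ∉ 𝔭 b) (humax : ∀ b, u b ∈ maximalIdeal S)
    (hprod : ∃ (N : ℕ) (ε : Sˣ), u true * u false = π ^ N * (ε : S))
    (hmax : maximalIdeal S ≤ Ideal.span {π, u true, u false})
    {p n : ℕ} (hn : 0 < n) {U g b : F} (hg : g ≠ 0)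
    (hU : ∀ 𝔮 : Ideal S, ssl_Horiz π 𝔮 → ssl_UnitAt F 𝔮 U)
    (hb : ssl_MemAt F (𝔭 true) b)
    (hUg : U = g ^ p * (1 + algebraMap S F π ^ n * b)) :
    ∃ (D1 : F) (ε : Sˣ), D1 ≠ 0 ∧ U = D1 ^ p * algebraMap S F (ε : S) := by
  obtain ⟨hother, hheight, hvert, hgen, hle, hhoriz⟩ :=
    s44tn_node_ideals hπ0 𝔭 u hπ hrad hu humax hprod hmax
  set 𝔮1 := 𝔭 true with h𝔮1
  set u1 := u true with hu1
  have hP0 : algebraMap S F π ≠ 0 := ssl_algebraMap_ne_zero hπ0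
  have hu10 : u1 ≠ 0 := fun h0 => hu true (by rw [← hu1, h0]; exact Ideal.zero_mem _)
  have hV0 : algebraMap S F u1 ≠ 0 := ssl_algebraMap_ne_zero hu10
  -- `g = π ^ a1 * g'`, `g'` a unit at `𝔮1`
  obtain ⟨a1, hg'⟩ := ssl_exists_zpow (F := F) 𝔮1 (hheight true) (hπ true)
    (fun z hz => hgen true z hz) hg
  obtain ⟨a, s, ha, hs, hgs⟩ := hg'
  obtain ⟨b0, d0, hd0, hbd⟩ := hb
  obtain ⟨α1, εa, hεa⟩ := s44tn_branch_ord 𝔮1 (humax true) (hle true) ha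
  obtain ⟨α2, εs, hεs⟩ := s44tn_branch_ord 𝔮1 (humax true) (hle true) hs
  set Q : F := algebraMap S F π ^ a1 with hQ
  have hQ0 : Q ≠ 0 := zpow_ne_zero _ hP0
  have hs0 : algebraMap S F s ≠ 0 := ssl_algebraMap_ne_zero fun h0 => hs (h0 ▸ 𝔮1.zero_mem)
  have hd00 : algebraMap S F d0 ≠ 0 := ssl_algebraMap_ne_zero fun h0 => hd0 (h0 ▸ 𝔮1.zero_mem)
  set D1 : F := Q * algebraMap S F u1 ^ α1 / algebraMap S F u1 ^ α2 with hD1
  have hD10 : D1 ≠ 0 :=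
    div_ne_zero (mul_ne_zero hQ0 (pow_ne_zero _ hV0)) (pow_ne_zero _ hV0)
  set N : S := a ^ p * (d0 + π ^ n * b0) * u1 ^ (p * α2) with hN
  set M : S := s ^ p * d0 * u1 ^ (p * α1) with hM
  have hπn : π ^ n * b0 ∈ 𝔮1 :=
    Ideal.mul_mem_right _ _ (Ideal.pow_mem_of_mem _ (hπ true) n hn)
  have hc : d0 + π ^ n * b0 ∉ 𝔮1 := by
    intro h1
    apply hd0
    have := Ideal.sub_mem _ h1 hπn
    rwa [add_sub_cancel_right] at this
  have hpow : ∀ (x : S) (k : ℕ), x ∉ 𝔮1 → x ^ k ∉ 𝔮1 := fun x k hx h1 =>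
    hx ((h𝔭 true).mem_of_pow_mem k h1)
  have hmul : ∀ x y : S, x ∉ 𝔮1 → y ∉ 𝔮1 → x * y ∉ 𝔮1 := fun x y hx hy h1 =>
    ((h𝔭 true).mem_or_mem h1).elim hx hy
  have hNmem : N ∉ 𝔮1 := hmul _ _ (hmul _ _ (hpow a p ha) hc) (hpow u1 _ (hu true))
  have hMmem : M ∉ 𝔮1 := hmul _ _ (hmul _ _ (hpow s p hs) hd0) (hpow u1 _ (hu true))
  -- the identity `U / D1 ^ p = N / M`
  have hgeq : g = algebraMap S F a / algebraMap S F s * Q := by
    rw [← hgs, hQ]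
    field_simp
  have hbeq : b = algebraMap S F b0 / algebraMap S F d0 := by
    rw [← hbd]; field_simp
  have hzM : U / D1 ^ p * algebraMap S F M = algebraMap S F N := by
    rw [hUg, hgeq, hbeq, hD1, hN, hM]
    simp only [map_mul, map_pow, map_add]
    exact s44tn_field_id _ _ _ _ _ _ _ p n α1 α2 hs0 hQ0 hV0 hd00
  -- `ε1 N ≡ ε2 M` modulo `𝔮1`
  have hassoc : ((εs ^ p : Sˣ) : S) * N - ((εa ^ p : Sˣ) : S) * M ∈ 𝔮1 := by
    rw [← Ideal.Quotient.eq_zero_iff_mem]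
    have hA : Ideal.Quotient.mk 𝔮1 a = Ideal.Quotient.mk 𝔮1 u1 ^ α1 * Ideal.Quotient.mk 𝔮1 εa := by
      rw [← map_pow, ← map_mul]; exact Ideal.Quotient.eq.2 hεa
    have hSs : Ideal.Quotient.mk 𝔮1 s = Ideal.Quotient.mk 𝔮1 u1 ^ α2 * Ideal.Quotient.mk 𝔮1 εs := by
      rw [← map_pow, ← map_mul]; exact Ideal.Quotient.eq.2 hεs
    have hPi0 : Ideal.Quotient.mk 𝔮1 π = 0 := Ideal.Quotient.eq_zero_iff_mem.2 (hπ true)
    rw [hN, hM, Units.val_pow_eq_pow_val, Units.val_pow_eq_pow_val]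
    simp only [map_sub, map_mul, map_pow, map_add]
    rw [hA, hSs, hPi0, zero_pow hn.ne']
    ring
  -- `U / D1 ^ p` is a unit at the horizontal primes
  have hzh : ∀ 𝔮 : Ideal S, ssl_Horiz π 𝔮 → ssl_UnitAt F 𝔮 (U / D1 ^ p) := by
    intro 𝔮 h𝔮
    haveI := h𝔮.1
    have h1 : ssl_UnitAt F 𝔮 (algebraMap S F π) := ssl_unitAt_algebraMap 𝔮 h𝔮.2.2
    have h2 : ssl_UnitAt F 𝔮 (algebraMap S F u1) := ssl_unitAt_algebraMap 𝔮 (hhoriz true 𝔮 h𝔮)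
    refine ssl_unitAt_div 𝔮 (hU 𝔮 h𝔮) (ssl_unitAt_pow 𝔮 ?_ p)
    exact ssl_unitAt_div 𝔮 (ssl_unitAt_mul 𝔮 (ssl_unitAt_zpow 𝔮 h1 a1) (ssl_unitAt_pow 𝔮 h2 α1))
      (ssl_unitAt_pow 𝔮 h2 α2)
  obtain ⟨ω, hω⟩ := s44tn_unit_of_assoc (F := F) 𝔮1 (𝔭 false) (hheight false) hvert hzh hNmem hMmem
    hzM (εs ^ p) (εa ^ p) hassoc
  refine ⟨D1, ω, hD10, ?_⟩
  rw [hω]
  field_simp

/-- **THE VERTICAL PART AT A SMOOTH POINT** (`π` a prime element). -/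
theorem s44tn_smooth_vert {π : S} (hπ : Prime π) {p n : ℕ} (hn : 0 < n) {U g b : F} (hg : g ≠ 0)
    (hU : ∀ 𝔮 : Ideal S, ssl_Horiz π 𝔮 → ssl_UnitAt F 𝔮 U)
    (hb : haveI : (Ideal.span {π}).IsPrime := (Ideal.span_singleton_prime hπ.ne_zero).2 hπ
      ssl_MemAt F (Ideal.span {π}) b)
    (hUg : U = g ^ p * (1 + algebraMap S F π ^ n * b)) :
    ∃ (D1 : F) (ε : Sˣ), D1 ≠ 0 ∧ U = D1 ^ p * algebraMap S F (ε : S) := by
  haveI h𝔮0 : (Ideal.span {π}).IsPrime := (Ideal.span_singleton_prime hπ.ne_zero).2 hπ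
  set 𝔮0 : Ideal S := Ideal.span {π} with h𝔮0def
  have hπ0 : π ≠ 0 := hπ.ne_zero
  have hπ𝔮0 : π ∈ 𝔮0 := Ideal.mem_span_singleton_self π
  have hP0 : algebraMap S F π ≠ 0 := ssl_algebraMap_ne_zero hπ0
  have hheight : 𝔮0.height = 1 := by
    apply le_antisymm
    · refine Ideal.height_le_one_of_isPrincipal_of_mem_minimalPrimes (Ideal.span {π}) _
        ⟨⟨h𝔮0, le_rfl⟩, fun 𝔮 h𝔮 _ => h𝔮.2⟩
    · rw [Order.one_le_iff_pos, pos_iff_ne_zero, Ne, Ideal.height_eq_zero_iff_eq_bot]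
      intro h0
      have : π ∈ (⊥ : Ideal S) := h0 ▸ hπ𝔮0
      exact hπ0 ((Ideal.mem_bot).1 this)
  have hgen : ∀ z ∈ 𝔮0, ∃ s : S, s ∉ 𝔮0 ∧ π ∣ s * z := by
    intro z hz
    refine ⟨1, fun h1 => h𝔮0.ne_top ((Ideal.eq_top_iff_one _).2 h1), ?_⟩
    rw [one_mul]
    exact Ideal.mem_span_singleton.1 hz
  obtain ⟨a1, hg'⟩ := ssl_exists_zpow (F := F) 𝔮0 hheight hπ𝔮0 hgen hg
  obtain ⟨b0, d0, hd0, hbd⟩ := hb
  set Q : F := algebraMap S F π ^ a1 with hQ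
  have hQ0 : Q ≠ 0 := zpow_ne_zero _ hP0
  have hd00 : algebraMap S F d0 ≠ 0 := ssl_algebraMap_ne_zero fun h0 => hd0 (h0 ▸ 𝔮0.zero_mem)
  have hπn : π ^ n * b0 ∈ 𝔮0 :=
    Ideal.mul_mem_right _ _ (Ideal.pow_mem_of_mem _ hπ𝔮0 n hn)
  have hc : d0 + π ^ n * b0 ∉ 𝔮0 := by
    intro h1
    apply hd0
    have := Ideal.sub_mem _ h1 hπn
    rwa [add_sub_cancel_right] at this
  have h1b : ssl_UnitAt F 𝔮0 (1 + algebraMap S F π ^ n * b) := by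
    refine ⟨d0 + π ^ n * b0, d0, hc, hd0, ?_⟩
    rw [map_add, map_mul, map_pow, ← hbd]
    ring
  have hzeq : U / Q ^ p = (g / Q) ^ p * (1 + algebraMap S F π ^ n * b) := by
    rw [hUg, div_pow]
    field_simp
  have hz0 : U / Q ^ p ≠ 0 := by
    rw [hzeq]
    exact mul_ne_zero (pow_ne_zero _ (div_ne_zero hg hQ0)) (ssl_unitAt_ne_zero 𝔮0 h1b)
  obtain ⟨ω, hω⟩ := ssl_krull_unit (F := F) hz0 (by
    intro 𝔮 h𝔮 h1
    by_cases hπ𝔮 : π ∈ 𝔮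
    · have hle : 𝔮0 ≤ 𝔮 := by
        rw [h𝔮0def, Ideal.span_le, Set.singleton_subset_iff]; exact hπ𝔮
      have heq : 𝔮0 = 𝔮 := ssl_eq_of_le hheight h1 hle
      subst heq
      rw [hzeq]
      exact ssl_unitAt_mul _ (ssl_unitAt_pow _ hg' p) h1b
    · haveI := h𝔮
      have h2 : ssl_UnitAt F 𝔮 (algebraMap S F π) := ssl_unitAt_algebraMap 𝔮 hπ𝔮
      exact ssl_unitAt_div 𝔮 (hU 𝔮 ⟨h𝔮, h1, hπ𝔮⟩) (ssl_unitAt_pow 𝔮 (ssl_unitAt_zpow 𝔮 h2 a1) p))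
  refine ⟨Q, ω, hQ0, ?_⟩
  rw [hω]
  field_simp

end Main

end Fermat.Agent.S44
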