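/-
S44 project, cell [G3] = [TOR], abstract half of (T-ASM) (helper13; helper10 #3953).
Prefix `s44tv_`.  Namespace `Fermat.Agent.S44`.  Imports `Tor/Val` + `SFCp/Sigma`.

THE `hloc` DATUM OF `s44s_main` AT ONE CLOSED POINT `𝔫` FROM `LocForm + GlobForm`.

* `s44tv_loc B 𝔫 h𝔫`  : the local ring `B_𝔫 ⊆ F0` as a `Subring F0`
                         (`y ∈ B_𝔫 ↔ ∃ s : B, s ∉ 𝔫 ∧ s y ∈ B`);
* `s44tv_loc_jac`, `s44tv_loc_tau` : `1 + ϖ B_𝔫 ⊆ B_𝔫ˣ` and `τ ≡ id mod ϖ` on `B_𝔫` (from `B`);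
* `s44tv_h4a`         : `τ (1 + ϖ ^ (n + 1) b) / (1 + ϖ ^ (n + 1) b) ^ k ∈ 1 + ϖ ^ (n + 1) R`;
* `s44tv_hloc`        : **the local datum**: `f = G ^ p (1 + ϖ ^ (p e + 1) b)`, `b ∈ V₁ ∩ V₂`
                         (GlobForm), `f = D ^ p (1 + ϖ ^ (p e) H)`, `H ∈ B_𝔫` (LocForm at `𝔫`);
                         each of the two components `V_j` is either THROUGH `𝔫` or NOT through `𝔫`;
                         then `h' := τ (1 + ϖ ^ (p e + 1) b) / (1 + ϖ ^ (p e + 1) b) ^ k` has a root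
                         section datum `(b1, hh)` at `𝔫` in the shape of `s44s_main`.
-/
import Mathlib
import Fermat.Agent.S44.Tor.Val
import Fermat.Agent.S44.SFCp.Sigma

set_option autoImplicit false
set_option linter.unusedSectionVars false
set_option linter.unusedVariables false

namespace Fermat.Agent.S44

open Fermat.Agent.JT3 Fermat.Agent.SS

section Loc

variable {A0 : Type*} [CommRing A0] {F0 : Type*} [Field F0] [Algebra A0 F0]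

/-- the local ring `B_𝔫 ⊆ F0`. -/
def s44tv_loc (B : Subalgebra A0 F0) (𝔫 : Ideal B) (h𝔫 : 𝔫.IsPrime) : Subring F0 where
  carrier := {y | ∃ s : B, s ∉ 𝔫 ∧ (s : F0) * y ∈ B}
  mul_mem' := by
    rintro y1 y2 ⟨s1, hs1, h1⟩ ⟨s2, hs2, h2⟩
    refine ⟨s1 * s2, fun h => (h𝔫.mem_or_mem h).elim hs1 hs2, ?_⟩
    have : ((s1 * s2 : B) : F0) * (y1 * y2) = ((s1 : F0) * y1) * ((s2 : F0) * y2) := by
      push_cast; ring
    rw [this]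
    exact B.mul_mem h1 h2
  one_mem' := ⟨1, fun h => h𝔫.ne_top ((Ideal.eq_top_iff_one 𝔫).2 h), by
    rw [OneMemClass.coe_one, one_mul]; exact B.one_mem⟩
  add_mem' := by
    rintro y1 y2 ⟨s1, hs1, h1⟩ ⟨s2, hs2, h2⟩
    refine ⟨s1 * s2, fun h => (h𝔫.mem_or_mem h).elim hs1 hs2, ?_⟩
    have : ((s1 * s2 : B) : F0) * (y1 + y2) =
        (s2 : F0) * ((s1 : F0) * y1) + (s1 : F0) * ((s2 : F0) * y2) := by
      push_cast; ring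
    rw [this]
    exact B.add_mem (B.mul_mem s2.2 h1) (B.mul_mem s1.2 h2)
  zero_mem' := ⟨1, fun h => h𝔫.ne_top ((Ideal.eq_top_iff_one 𝔫).2 h), by
    rw [mul_zero]; exact B.zero_mem⟩
  neg_mem' := by
    rintro y ⟨s, hs, h⟩
    refine ⟨s, hs, ?_⟩
    rw [mul_neg]
    exact B.neg_mem h

variable {B : Subalgebra A0 F0} {𝔫 : Ideal B} {h𝔫 : 𝔫.IsPrime}

theorem s44tv_mem_loc {y : F0} :
    y ∈ s44tv_loc B 𝔫 h𝔫 ↔ ∃ s : B, s ∉ 𝔫 ∧ (s : F0) * y ∈ B := Iff.rfl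

theorem s44tv_le_loc {y : F0} (hy : y ∈ B) : y ∈ s44tv_loc B 𝔫 h𝔫 :=
  ⟨1, fun h => h𝔫.ne_top ((Ideal.eq_top_iff_one 𝔫).2 h), by
    rw [OneMemClass.coe_one, one_mul]; exact hy⟩

/-- an element of `B ∖ 𝔫` is nonzero in `F0` -/
theorem s44tv_coe_ne_zero {s : B} (hs : s ∉ 𝔫) : (s : F0) ≠ 0 := by
  intro h0
  apply hs
  have : s = 0 := Subtype.ext h0
  rw [this]
  exact 𝔫.zero_mem

/-- the inverse of an element of `B ∖ 𝔫` lies in `B_𝔫` -/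
theorem s44tv_inv_mem_loc {s : B} (hs : s ∉ 𝔫) : (s : F0)⁻¹ ∈ s44tv_loc B 𝔫 h𝔫 :=
  ⟨s, hs, by rw [mul_inv_cancel₀ (s44tv_coe_ne_zero hs)]; exact B.one_mem⟩

/-- `1 + ϖ B_𝔫 ⊆ B_𝔫ˣ` for `ϖ ∈ 𝔫`. -/
theorem s44tv_loc_jac {ϖ : B} (hϖ : ϖ ∈ 𝔫) :
    ∀ y ∈ s44tv_loc B 𝔫 h𝔫, (1 + (ϖ : F0) * y)⁻¹ ∈ s44tv_loc B 𝔫 h𝔫 ∧ 1 + (ϖ : F0) * y ≠ 0 := by
  rintro y ⟨s, hs, hsy⟩
  have hs0 : (s : F0) ≠ 0 := s44tv_coe_ne_zero hs
  -- `t := s + ϖ (s y) ∈ B ∖ 𝔫`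
  set t : B := s + ϖ * ⟨(s : F0) * y, hsy⟩ with ht
  have ht𝔫 : t ∉ 𝔫 := by
    intro h
    apply hs
    have h2 : ϖ * ⟨(s : F0) * y, hsy⟩ ∈ 𝔫 := 𝔫.mul_mem_right _ hϖ
    have := 𝔫.sub_mem h h2
    rwa [ht, add_sub_cancel_right] at this
  have htval : (t : F0) = (s : F0) * (1 + (ϖ : F0) * y) := by
    rw [ht]
    push_cast
    ring
  have ht0 : (t : F0) ≠ 0 := s44tv_coe_ne_zero ht𝔫
  have hne : 1 + (ϖ : F0) * y ≠ 0 := by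
    intro h0
    rw [h0, mul_zero] at htval
    exact ht0 htval
  refine ⟨⟨t, ht𝔫, ?_⟩, hne⟩
  rw [htval, mul_assoc, mul_inv_cancel₀ hne, mul_one]
  exact s.2

/-- `τ ≡ id mod ϖ` on `B` ⟹ the same on `B_𝔫` (`ϖ ∈ 𝔫`). -/
theorem s44tv_loc_tau (τ : F0 →+* F0) {ϖ : B} (hϖ : ϖ ∈ 𝔫)
    (hτB : ∀ z ∈ B, ∃ c ∈ B, τ z - z = (ϖ : F0) * c) :
    ∀ z ∈ s44tv_loc B 𝔫 h𝔫, ∃ c ∈ s44tv_loc B 𝔫 h𝔫, τ z - z = (ϖ : F0) * c := by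
  rintro z ⟨s, hs, hsz⟩
  have hs0 : (s : F0) ≠ 0 := s44tv_coe_ne_zero hs
  obtain ⟨s', hs', hτs⟩ := hτB s s.2
  obtain ⟨a', ha', hτa⟩ := hτB _ hsz
  -- `t := s + ϖ s' = τ s ∈ B ∖ 𝔫`
  set t : B := s + ϖ * ⟨s', hs'⟩ with ht
  have ht𝔫 : t ∉ 𝔫 := by
    intro h
    apply hs
    have h2 : ϖ * ⟨s', hs'⟩ ∈ 𝔫 := 𝔫.mul_mem_right _ hϖ
    have := 𝔫.sub_mem h h2
    rwa [ht, add_sub_cancel_right] at this
  have htval : (t : F0) = τ (s : F0) := by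
    rw [ht]
    push_cast
    rw [← hτs]
    ring
  have ht0 : (t : F0) ≠ 0 := s44tv_coe_ne_zero ht𝔫
  have hst : s * t ∉ 𝔫 := fun h => (h𝔫.mem_or_mem h).elim hs ht𝔫
  -- `τ (s z) = τ s · τ z`
  have h1 : τ ((s : F0) * z) = (t : F0) * τ z := by rw [map_mul, htval]
  have hτa' : τ ((s : F0) * z) = (s : F0) * z + (ϖ : F0) * a' := by rw [← hτa]; ring
  -- `c := (a' - s' z) / t`
  refine ⟨(a' - s' * z) * (t : F0)⁻¹, ⟨s * t, hst, ?_⟩, ?_⟩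
  · have : ((s * t : B) : F0) * ((a' - s' * z) * (t : F0)⁻¹) =
        (s : F0) * a' - s' * ((s : F0) * z) := by
      push_cast
      field_simp
    rw [this]
    exact B.sub_mem (B.mul_mem s.2 ha') (B.mul_mem hs' hsz)
  · have h2 : (t : F0) * τ z = (s : F0) * z + (ϖ : F0) * a' := by rw [← h1, hτa']
    have h3 : (t : F0) = (s : F0) + (ϖ : F0) * s' := by rw [ht]; push_cast; ring
    have h4 : τ z = ((s : F0) * z + (ϖ : F0) * a') * (t : F0)⁻¹ := by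
      rw [← h2]
      field_simp
    rw [h4]
    field_simp
    rw [h3]
    ring

end Loc

section H4a

variable {F0 : Type*} [Field F0]

/-- `τ (1 + ϖ ^ (n + 1) b) / (1 + ϖ ^ (n + 1) b) ^ k ∈ 1 + ϖ ^ (n + 1) R`. -/
theorem s44tv_h4a (R : Subring F0) (τ : F0 →+* F0) (k n : ℕ) {ϖ ε b : F0} (hϖ : ϖ ∈ R)
    (hε : ε ∈ R) (hτϖ : τ ϖ = ϖ * ε)
    (hjac : ∀ y ∈ R, (1 + ϖ * y)⁻¹ ∈ R ∧ 1 + ϖ * y ≠ 0) (hτR : ∀ z ∈ R, τ z ∈ R)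
    (hb : b ∈ R) :
    ∃ y ∈ R, τ (1 + ϖ ^ (n + 1) * b) * ((1 + ϖ ^ (n + 1) * b) ^ k)⁻¹ - 1 = ϖ ^ (n + 1) * y := by
  have hxR : ϖ ^ (n + 1) * b ∈ R := R.mul_mem (R.pow_mem hϖ _) hb
  obtain ⟨t, ht, hpow⟩ := s44s_add_pow_head R R.one_mem hxR k
  have hE : 1 + ϖ ^ (n + 1) * b = 1 + ϖ * (ϖ ^ n * b) := by rw [pow_succ']; ring
  have hEinv : (1 + ϖ ^ (n + 1) * b)⁻¹ ∈ R := by
    rw [hE]; exact (hjac _ (R.mul_mem (R.pow_mem hϖ _) hb)).1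
  have hE0 : 1 + ϖ ^ (n + 1) * b ≠ 0 := by
    rw [hE]; exact (hjac _ (R.mul_mem (R.pow_mem hϖ _) hb)).2
  have hEk0 : (1 + ϖ ^ (n + 1) * b) ^ k ≠ 0 := pow_ne_zero _ hE0
  have hEkinv : ((1 + ϖ ^ (n + 1) * b) ^ k)⁻¹ ∈ R := by
    rw [← inv_pow]; exact R.pow_mem hEinv k
  refine ⟨(ε ^ (n + 1) * τ b - b * t) * ((1 + ϖ ^ (n + 1) * b) ^ k)⁻¹,
    R.mul_mem (R.sub_mem (R.mul_mem (R.pow_mem hε _) (hτR b hb)) (R.mul_mem hb ht)) hEkinv, ?_⟩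
  have h1 : τ (1 + ϖ ^ (n + 1) * b) = 1 + ϖ ^ (n + 1) * (ε ^ (n + 1) * τ b) := by
    rw [map_add, map_one, map_mul, map_pow, hτϖ, mul_pow]
    ring
  have h2 : (1 + ϖ ^ (n + 1) * b) ^ k = 1 + ϖ ^ (n + 1) * (b * t) := by
    rw [hpow, one_pow]; ring
  have h3 : τ (1 + ϖ ^ (n + 1) * b) - (1 + ϖ ^ (n + 1) * b) ^ k =
      ϖ ^ (n + 1) * (ε ^ (n + 1) * τ b - b * t) := by
    rw [h1, h2]; ring
  have h4 : τ (1 + ϖ ^ (n + 1) * b) * ((1 + ϖ ^ (n + 1) * b) ^ k)⁻¹ - 1 =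
      (τ (1 + ϖ ^ (n + 1) * b) - (1 + ϖ ^ (n + 1) * b) ^ k) *
        ((1 + ϖ ^ (n + 1) * b) ^ k)⁻¹ := by
    field_simp
  rw [h4, h3]
  ring

end H4a

section HLoc

variable {A0 : Type*} [CommRing A0] {F0 : Type*} [Field F0] [Algebra A0 F0]

/-- the component `V` passes THROUGH `𝔫`: `B ∖ 𝔫 ⊆ Vˣ`, and `τ ≡ id mod ϖ` on `V`. -/
def s44tv_Through (B : Subalgebra A0 F0) (π : A0) (𝔫 : Ideal B) (τ : F0 →+* F0)
    (V : ValuationSubring F0) : Prop :=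
  (∀ s : B, s ∉ 𝔫 → (s : F0)⁻¹ ∈ V) ∧
    ∀ z ∈ V, ∃ c ∈ V, τ z - z = algebraMap A0 F0 π * c

/-- the component `V` does NOT pass through `𝔫`: some `s₀ ∈ B ∖ 𝔫` vanishes along it; `V` has rank
one. -/
def s44tv_Away (B : Subalgebra A0 F0) (π : A0) (𝔫 : Ideal B) (V : ValuationSubring F0) : Prop :=
  (∃ s₀ : B, s₀ ∉ 𝔫 ∧ ∃ c₀ ∈ V, (s₀ : F0) = algebraMap A0 F0 π * c₀) ∧
    ∀ z : F0, ∃ a : ℕ, algebraMap A0 F0 π ^ a * z ∈ V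

/-- the multiplier of `T = τ x / x ^ k` at one component (`x ^ p = E1 / E2`). -/
theorem s44tv_mult (B : Subalgebra A0 F0) (π : A0) (𝔫 : Ideal B) (h𝔫 : 𝔫.IsPrime)
    (τ : F0 →+* F0) {p e' k : ℕ} (hp : p.Prime)
    {lam u u' : F0} (hu : u ∈ B) (hu' : u' ∈ B) (huu : u * u' = 1)
    (hlam : lam = algebraMap A0 F0 π ^ (e' + 1) * u)
    (hζ : (1 + lam) ^ p = 1) (hlam0 : lam ≠ 0)
    (hτlam : τ lam = (1 + lam) ^ k - 1)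
    (V : ValuationSubring F0) (hBV : ∀ z ∈ B, z ∈ V)
    (hϖV : algebraMap A0 F0 π ∈ V.nonunits)
    (hc : s44tv_Through B π 𝔫 τ V ∨ s44tv_Away B π 𝔫 V)
    {b H x : F0} {s : B} (hb : b ∈ V) (hs : s ∉ 𝔫) (hsH : (s : F0) * H ∈ B) (hx0 : x ≠ 0)
    (hxp : x ^ p * (1 + algebraMap A0 F0 π ^ (p * (e' + 1) + 1) * b) =
      1 + algebraMap A0 F0 π ^ (p * (e' + 1)) * H) :
    ∃ s₁ : B, s₁ ∉ 𝔫 ∧ ∃ y₁ ∈ V.toSubring,
      (s₁ : F0) * ((τ x * (x ^ k)⁻¹) - 1) = algebraMap A0 F0 π ^ (e' + 1 + 1) * y₁ := by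
  set ϖ := algebraMap A0 F0 π with hϖdef
  have hϖmem : ϖ ∈ V := V.nonunits_subset hϖV
  rcases hc with ⟨hunits, hτV⟩ | ⟨hs₀, hrank⟩
  · -- THROUGH
    have hHV : H ∈ V := by
      have hs0 : (s : F0) ≠ 0 := s44tv_coe_ne_zero hs
      have : H = (s : F0)⁻¹ * ((s : F0) * H) := by field_simp
      rw [this]
      exact V.mul_mem _ _ (hunits s hs) (hBV _ hsH)
    obtain ⟨hE20, y2, hy2, hE2inv⟩ := s44tv_unit_pow V hϖV hb (p * (e' + 1)) 1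
    rw [pow_one] at hE2inv
    have hE2V : (1 + ϖ ^ (p * (e' + 1) + 1) * b)⁻¹ ∈ V := by
      rw [hE2inv]
      exact V.add_mem _ _ V.one_mem (V.mul_mem _ _ (V.pow_mem hϖmem _) hy2)
    have hprim : IsPrimitiveRoot (1 + lam) p := by
      have h := IsPrimitiveRoot.orderOf (1 + lam)
      have : Fact p.Prime := ⟨hp⟩
      have hne : (1 + lam) ≠ 1 := by
        intro h1
        apply hlam0
        linear_combination h1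
      rwa [orderOf_eq_prime hζ hne] at h
    have hd : ∃ Y ∈ V, x ^ p - 1 = ((1 + lam) - 1) ^ p * Y := by
      refine ⟨u' ^ p * ((H - ϖ * b) * (1 + ϖ ^ (p * (e' + 1) + 1) * b)⁻¹), ?_, ?_⟩
      · exact V.mul_mem _ _ (V.pow_mem (hBV _ hu') p)
          (V.mul_mem _ _ (V.sub_mem hHV (V.mul_mem _ _ hϖmem hb)) hE2V)
      · have h1 : x ^ p = (1 + ϖ ^ (p * (e' + 1)) * H) *
            (1 + ϖ ^ (p * (e' + 1) + 1) * b)⁻¹ := by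
          rw [← hxp]
          field_simp
        have h2 : (1 + lam - 1) ^ p = ϖ ^ (p * (e' + 1)) * u ^ p := by
          rw [add_sub_cancel_left, hlam, mul_pow, ← pow_mul, mul_comm (e' + 1) p]
        have h3 : u ^ p * u' ^ p = 1 := by rw [← mul_pow, huu, one_pow]
        rw [h1, h2]
        have h4 : ϖ ^ (p * (e' + 1)) * u ^ p *
            (u' ^ p * ((H - ϖ * b) * (1 + ϖ ^ (p * (e' + 1) + 1) * b)⁻¹)) =
            (u ^ p * u' ^ p) * (ϖ ^ (p * (e' + 1)) * (H - ϖ * b) *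
              (1 + ϖ ^ (p * (e' + 1) + 1) * b)⁻¹) := by ring
        rw [h4, h3, one_mul]
        field_simp
        ring
    obtain ⟨ε, hε, hxε⟩ := s44s_root_cong V hp hprim hd
    rw [add_sub_cancel_left] at hxε
    have hx1 : x = 1 + lam * ε := by rw [← hxε]; ring
    have hlam' : lam = ϖ * (ϖ ^ e' * u) := by rw [hlam, pow_succ']; ring
    have hjacV : ∀ y ∈ V.toSubring, (1 + ϖ * y)⁻¹ ∈ V.toSubring ∧ 1 + ϖ * y ≠ 0 := by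
      intro y hy
      obtain ⟨h0, y'', hy'', hinv⟩ := s44tv_unit_pow V hϖV hy 0 1
      rw [pow_one, zero_add, pow_one] at hinv
      rw [zero_add, pow_one] at h0
      refine ⟨?_, h0⟩
      rw [hinv]
      exact V.add_mem _ _ V.one_mem (V.mul_mem _ _ hϖmem hy'')
    obtain ⟨y, hy, hτx⟩ := s44s_sig_lam V.toSubring τ k (ϖ := ϖ) (lam := lam) hϖmem
      (V.mul_mem _ _ (V.pow_mem hϖmem _) (hBV _ hu)) hlam' hjacV hτV hτlam hε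
    refine ⟨1, fun h => h𝔫.ne_top ((Ideal.eq_top_iff_one 𝔫).2 h), u * y,
      V.mul_mem _ _ (hBV _ hu) hy, ?_⟩
    have hxk0 : x ^ k ≠ 0 := pow_ne_zero _ hx0
    rw [OneMemClass.coe_one, one_mul, hx1, hτx, ← hx1]
    have : x ^ k * (1 + lam * ϖ * y) * (x ^ k)⁻¹ - 1 = lam * ϖ * y := by
      field_simp
      ring
    rw [this, hlam]
    ring
  · -- AWAY
    obtain ⟨s₀, hs₀𝔫, hs₀V⟩ := hs₀
    obtain ⟨a, ha⟩ := hrank (τ x * (x ^ k)⁻¹)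
    have hT0 : τ x * (x ^ k)⁻¹ ≠ 0 :=
      mul_ne_zero ((map_ne_zero τ).2 hx0) (inv_ne_zero (pow_ne_zero _ hx0))
    have hpole : ∃ a : ℕ, algebraMap A0 F0 π ^ a * ((τ x * (x ^ k)⁻¹)⁻¹)⁻¹ ∈ V.toSubring := by
      refine ⟨a, ?_⟩
      rw [inv_inv]
      exact ha
    have := s44s_mult_of_pole B π (e' + 1) 𝔫 h𝔫 V.toSubring hϖmem hs₀𝔫 hs₀V hpole
    rwa [inv_inv] at this

/-- **The local datum of `s44s_main` at one closed point `𝔫`** from the global split form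
`f = G ^ p (1 + ϖ ^ (p e + 1) b)` and the local étale form `f = D ^ p (1 + ϖ ^ (p e) H)`. -/
theorem s44tv_hloc (B : Subalgebra A0 F0) (π : A0) (𝔫 : Ideal B) (h𝔫 : 𝔫.IsPrime)
    (hπ𝔫 : algebraMap A0 B π ∈ 𝔫) (τ : F0 →+* F0) {p e k : ℕ} (hp : p.Prime) (he : 0 < e)
    {lam u u' w : F0} (hu : u ∈ B) (hu' : u' ∈ B) (huu : u * u' = 1)
    (hlam : lam = algebraMap A0 F0 π ^ e * u) (hζ : (1 + lam) ^ p = 1) (hlam0 : lam ≠ 0)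
    (hw : w ∈ B) (hpw : (p : F0) = lam * w) (hτlam : τ lam = (1 + lam) ^ k - 1)
    (hτB : ∀ z ∈ B, ∃ c ∈ B, τ z - z = algebraMap A0 F0 π * c)
    (V₁ V₂ : ValuationSubring F0) (hBV₁ : ∀ z ∈ B, z ∈ V₁) (hBV₂ : ∀ z ∈ B, z ∈ V₂)
    (hϖV₁ : algebraMap A0 F0 π ∈ V₁.nonunits) (hϖV₂ : algebraMap A0 F0 π ∈ V₂.nonunits)
    (hO : ∀ y : F0, y ∈ V₁ → y ∈ V₂ → y ∈ sfc_O B.toSubring (algebraMap A0 F0 π))
    (hc₁ : s44tv_Through B π 𝔫 τ V₁ ∨ s44tv_Away B π 𝔫 V₁)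
    (hc₂ : s44tv_Through B π 𝔫 τ V₂ ∨ s44tv_Away B π 𝔫 V₂)
    {f G b D H : F0} {s : B} (hG : G ≠ 0) (hb₁ : b ∈ V₁) (hb₂ : b ∈ V₂)
    (hfG : f = G ^ p * (1 + algebraMap A0 F0 π ^ (p * e + 1) * b))
    (hD : D ≠ 0) (hs : s ∉ 𝔫) (hsH : (s : F0) * H ∈ B)
    (hfD : f = D ^ p * (1 + algebraMap A0 F0 π ^ (p * e) * H)) :
    ∃ (b1 : B) (hh : F0), b1 ∉ 𝔫 ∧
      hh ^ p * (τ (1 + algebraMap A0 F0 π ^ (p * e + 1) * b) *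
        ((1 + algebraMap A0 F0 π ^ (p * e + 1) * b) ^ k)⁻¹) ∈ B ∧
      ∃ y'' ∈ sfc_O B.toSubring (algebraMap A0 F0 π),
        hh - (b1 : F0) = algebraMap A0 F0 π ^ (e + 1) * y'' := by
  classical
  obtain ⟨e', rfl⟩ : ∃ e', e = e' + 1 := ⟨e - 1, by omega⟩
  set ϖ := algebraMap A0 F0 π with hϖdef
  have hϖB : ϖ ∈ B := B.algebraMap_mem π
  set S := s44tv_loc B 𝔫 h𝔫 with hS
  have hjacS : ∀ y ∈ S, (1 + ϖ * y)⁻¹ ∈ S ∧ 1 + ϖ * y ≠ 0 := s44tv_loc_jac hπ𝔫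
  have hτS : ∀ z ∈ S, ∃ c ∈ S, τ z - z = ϖ * c := s44tv_loc_tau τ hπ𝔫 hτB
  have hHS : H ∈ S := ⟨s, hs, hsH⟩
  have hlam' : lam = ϖ * (ϖ ^ e' * u) := by rw [hlam, pow_succ']; ring
  have hl'B : ϖ ^ e' * u ∈ B := B.mul_mem (B.pow_mem hϖB _) hu
  have huu' : u ^ p * u' ^ p = 1 := by rw [← mul_pow, huu, one_pow]
  -- STEP 2: `τ E1 = E1 ^ k (1 + ϖ ^ (p e + 1) y3)`, `y3 ∈ S`
  obtain ⟨y, hyS, hτE1⟩ := s44s_sig_lamp S τ k (s44tv_le_loc hϖB) (s44tv_le_loc hl'B) hlam' hjacS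
    hτS hτlam hp (s44tv_le_loc hw) hpw
    (S.mul_mem (S.pow_mem (s44tv_le_loc (h𝔫 := h𝔫) hu') p) hHS)
  have hlamp : lam ^ p * (u' ^ p * H) = ϖ ^ (p * (e' + 1)) * H := by
    rw [hlam, mul_pow, ← pow_mul, mul_comm (e' + 1) p]
    linear_combination (ϖ ^ (p * (e' + 1)) * H) * huu'
  have hlamp2 : lam ^ p * ϖ * y = ϖ ^ (p * (e' + 1) + 1) * (u ^ p * y) := by
    rw [hlam, mul_pow, ← pow_mul, mul_comm (e' + 1) p, pow_succ]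
    ring
  rw [hlamp, hlamp2] at hτE1
  have hy3S : u ^ p * y ∈ S := S.mul_mem (S.pow_mem (s44tv_le_loc hu) p) hyS
  obtain ⟨s3, hs3, hs3y⟩ := hy3S
  -- nonvanishing
  obtain ⟨m, hm⟩ : ∃ m, p * (e' + 1) = m + 1 :=
    ⟨p * (e' + 1) - 1, by have := hp.pos; have : 0 < p * (e' + 1) := by positivity
                          omega⟩
  have hE10 : 1 + ϖ ^ (p * (e' + 1)) * H ≠ 0 := by
    have : 1 + ϖ ^ (p * (e' + 1)) * H = 1 + ϖ * (ϖ ^ m * H) := by rw [hm, pow_succ']; ring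
    rw [this]
    exact (hjacS _ (S.mul_mem (S.pow_mem (s44tv_le_loc hϖB) _) hHS)).2
  have hE20 : 1 + ϖ ^ (p * (e' + 1) + 1) * b ≠ 0 := (s44tv_unit_pow V₁ hϖV₁ hb₁ _ 1).1
  have hF0 : 1 + ϖ ^ (p * (e' + 1) + 1) * (u ^ p * y) ≠ 0 := by
    have : 1 + ϖ ^ (p * (e' + 1) + 1) * (u ^ p * y) =
        1 + ϖ * (ϖ ^ (p * (e' + 1)) * (u ^ p * y)) := by rw [pow_succ']; ring
    rw [this]
    exact (hjacS _ (S.mul_mem (S.pow_mem (s44tv_le_loc hϖB) _)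
      (S.mul_mem (S.pow_mem (s44tv_le_loc hu) p) hyS))).2
  -- STEP 3: `x := G / D`
  set x := G * D⁻¹ with hx
  have hx0 : x ≠ 0 := mul_ne_zero hG (inv_ne_zero hD)
  have hxp : x ^ p * (1 + ϖ ^ (p * (e' + 1) + 1) * b) = 1 + ϖ ^ (p * (e' + 1)) * H := by
    have hDp : D ^ p ≠ 0 := pow_ne_zero _ hD
    have h1 : G ^ p * (1 + ϖ ^ (p * (e' + 1) + 1) * b) =
        D ^ p * (1 + ϖ ^ (p * (e' + 1)) * H) := by rw [← hfG, ← hfD]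
    rw [hx, mul_pow, inv_pow]
    field_simp
    linear_combination h1
  set T := τ x * (x ^ k)⁻¹ with hT
  have hτx0 : τ x ≠ 0 := (map_ne_zero τ).2 hx0
  have hxk0 : x ^ k ≠ 0 := pow_ne_zero _ hx0
  have hT0 : T ≠ 0 := mul_ne_zero hτx0 (inv_ne_zero hxk0)
  set E1 := 1 + ϖ ^ (p * (e' + 1)) * H with hE1
  set E2 := 1 + ϖ ^ (p * (e' + 1) + 1) * b with hE2
  have hτE20 : τ E2 ≠ 0 := (map_ne_zero τ).2 hE20
  -- `T ^ p · h' = 1 + ϖ ^ (p e + 1) y3`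
  have hkey : T ^ p * (τ E2 * (E2 ^ k)⁻¹) = 1 + ϖ ^ (p * (e' + 1) + 1) * (u ^ p * y) := by
    have h1 : τ x ^ p * τ E2 = τ E1 := by rw [← map_pow, ← map_mul, hxp]
    have h2 : (x ^ k) ^ p * E2 ^ k = E1 ^ k := by
      rw [← pow_mul, mul_comm k p, pow_mul, ← mul_pow, hxp]
    have hE2k0 : E2 ^ k ≠ 0 := pow_ne_zero _ hE20
    have hE1k0 : E1 ^ k ≠ 0 := pow_ne_zero _ hE10
    have hxkp0 : (x ^ k) ^ p ≠ 0 := pow_ne_zero _ hxk0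
    rw [hT, mul_pow, inv_pow]
    have h3 : τ x ^ p * ((x ^ k) ^ p)⁻¹ * (τ E2 * (E2 ^ k)⁻¹) =
        (τ x ^ p * τ E2) * ((x ^ k) ^ p * E2 ^ k)⁻¹ := by
      rw [mul_inv]; ring
    rw [h3, h1, h2, hτE1]
    field_simp
  have hf' : τ E2 * (E2 ^ k)⁻¹ =
      (1 + ϖ ^ (p * (e' + 1) + 1) * (u ^ p * y)) * (T⁻¹) ^ p := by
    rw [← hkey, inv_pow]
    have hTp0 : T ^ p ≠ 0 := pow_ne_zero _ hT0
    field_simp
  -- STEP 4: the multipliers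
  have hm₁ := s44tv_mult B π 𝔫 h𝔫 τ hp hu hu' huu hlam hζ hlam0 hτlam V₁ hBV₁ hϖV₁ hc₁ hb₁ hs hsH
    hx0 hxp
  have hm₂ := s44tv_mult B π 𝔫 h𝔫 τ hp hu hu' huu hlam hζ hlam0 hτlam V₂ hBV₂ hϖV₂ hc₂ hb₂ hs hsH
    hx0 hxp
  -- STEP 5
  refine s44s_loc_of_factor2 B π p (e' + 1) hp.ne_zero _ 𝔫 h𝔫 V₁.toSubring V₂.toSubring hBV₁ hBV₂
    hO (inv_ne_zero hT0) hs3 hs3y hf' ?_ ?_
  · rw [inv_inv]; exact hm₁
  · rw [inv_inv]; exact hm₂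

end HLoc

section Core

universe v

variable {A0 : Type*} [CommRing A0] [IsDomain A0] [IsNoetherianRing A0]
  {F0 : Type v} [Field F0] [Algebra A0 F0]

/-- **(T-ASM), abstract end**: `f = G ^ p (1 + ϖ ^ (p e + 1) b)`; if
`h' := τ (1 + ϖ ^ (p e + 1) b) / (1 + ϖ ^ (p e + 1) b) ^ k` satisfies the hypotheses of `s44s_main`
(`hloc1`, `hloc2` from `s44tv_hloc`, `h4a` from `s44tv_h4a`) then `τ f = c g ^ p f ^ k`. -/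
theorem s44tv_core_of_hloc (π : A0) {x : F0} (hx : x ≠ 0) (p e k : ℕ) (hp : p.Prime) (v μ : A0)
    (hpv : (p : A0) = π ^ ((p - 1) * e) * v) (hvμ : v * μ = 1) (τ : F0 →+* F0)
    {f G b : F0} (hf : f ≠ 0) (hG : G ≠ 0)
    (hfG : f = G ^ p * (1 + algebraMap A0 F0 π ^ (p * e + 1) * b))
    [Algebra.IsAlgebraic (Algebra.adjoin A0 ({x} : Set F0)) F0]
    (hfin1 : Module.Finite (Algebra.adjoin A0 ({x} : Set F0))
      (integralClosure (Algebra.adjoin A0 ({x} : Set F0)) F0))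
    (hnu : (algebraMap A0 F0 π)⁻¹ ∉ fc_chart A0 ({x, x⁻¹} : Set F0))
    (hxS1 : x ∈ sfc_S (fc_chart A0 ({x} : Set F0)).toSubring (algebraMap A0 F0 π))
    (hxS2 : x⁻¹ ∈ sfc_S (fc_chart A0 ({x⁻¹} : Set F0)).toSubring (algebraMap A0 F0 π))
    (hloc1 : ∀ 𝔫 : Ideal (fc_chart A0 ({x} : Set F0)), 𝔫.IsMaximal →
      algebraMap A0 (fc_chart A0 ({x} : Set F0)) π ∈ 𝔫 →
      ∃ (b1 : fc_chart A0 ({x} : Set F0)) (h : F0), b1 ∉ 𝔫 ∧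
        h ^ p * (τ (1 + algebraMap A0 F0 π ^ (p * e + 1) * b) *
          ((1 + algebraMap A0 F0 π ^ (p * e + 1) * b) ^ k)⁻¹) ∈ fc_chart A0 ({x} : Set F0) ∧
        ∃ y ∈ sfc_O (fc_chart A0 ({x} : Set F0)).toSubring (algebraMap A0 F0 π),
          h - (b1 : F0) = algebraMap A0 F0 π ^ (e + 1) * y)
    (hloc2 : ∀ 𝔫 : Ideal (fc_chart A0 ({x⁻¹} : Set F0)), 𝔫.IsMaximal →
      algebraMap A0 (fc_chart A0 ({x⁻¹} : Set F0)) π ∈ 𝔫 →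
      ∃ (b1 : fc_chart A0 ({x⁻¹} : Set F0)) (h : F0), b1 ∉ 𝔫 ∧
        h ^ p * (τ (1 + algebraMap A0 F0 π ^ (p * e + 1) * b) *
          ((1 + algebraMap A0 F0 π ^ (p * e + 1) * b) ^ k)⁻¹) ∈ fc_chart A0 ({x⁻¹} : Set F0) ∧
        ∃ y ∈ sfc_O (fc_chart A0 ({x⁻¹} : Set F0)).toSubring (algebraMap A0 F0 π),
          h - (b1 : F0) = algebraMap A0 F0 π ^ (e + 1) * y)
    (h4a : ∃ y ∈ sfc_O (fc_chart A0 ({x, x⁻¹} : Set F0)).toSubring (algebraMap A0 F0 π),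
      τ (1 + algebraMap A0 F0 π ^ (p * e + 1) * b) *
        ((1 + algebraMap A0 F0 π ^ (p * e + 1) * b) ^ k)⁻¹ - 1 =
        algebraMap A0 F0 π ^ (p * e + 1) * y)
    (hH0 : ∀ z : F0, z ∈ fc_chart A0 ({x} : Set F0) → z ∈ fc_chart A0 ({x⁻¹} : Set F0) →
      z ∈ (algebraMap A0 F0).range) :
    ∃ (c : A0) (g : F0), g ≠ 0 ∧ τ f = algebraMap A0 F0 c * g ^ p * f ^ k := by
  obtain ⟨c, g, hg, hh⟩ := s44s_main π hx p e hp v μ hpv hvμ _ hfin1 hnu hxS1 hxS2 hloc1 hloc2 h4a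
    hH0
  set E2 := 1 + algebraMap A0 F0 π ^ (p * e + 1) * b with hE2
  have hE20 : E2 ≠ 0 := by
    intro h0
    apply hf
    rw [hfG, h0, mul_zero]
  have hE2k0 : E2 ^ k ≠ 0 := pow_ne_zero _ hE20
  have hGk0 : G ^ k ≠ 0 := pow_ne_zero _ hG
  have hτG0 : τ G ≠ 0 := (map_ne_zero τ).2 hG
  refine ⟨c, g * τ G * (G ^ k)⁻¹, mul_ne_zero (mul_ne_zero hg hτG0) (inv_ne_zero hGk0), ?_⟩
  have h1 : τ E2 = algebraMap A0 F0 c * g ^ p * E2 ^ k := by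
    rw [← hh]
    field_simp
  rw [hfG, map_mul, map_pow, h1, mul_pow, mul_pow, mul_pow, inv_pow]
  have hGkp0 : (G ^ k) ^ p ≠ 0 := pow_ne_zero _ hGk0
  have h2 : (G ^ p) ^ k = (G ^ k) ^ p := by rw [← pow_mul, ← pow_mul, mul_comm]
  rw [h2]
  field_simp

end Core

end Fermat.Agent.S44
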