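/-
S44 project, cell [G3] = [TOR], abstract half of (T-ASM), part 2 (helper13).
Prefix `s44tv_`.  Namespace `Fermat.Agent.S44`.  Imports `Tor/ValLoc`.

* `s44tv_through_or_away` : for a valuation subring `V ⊇ B` with uniformiser `ϖ`, of rank one, on
  which `τ ≡ id mod ϖ`, the dichotomy `s44tv_Through ∨ s44tv_Away` at a prime `𝔫` of `B` is AUTOMATIC
  (excluded middle on `B ∖ 𝔫 ⊆ Vˣ`);
* `s44tv_hloc_auto`       : `s44tv_hloc` with the dichotomy hypotheses replaced by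
  `hunif_j`, `hrank_j`, `hτV_j` (= the data of `ssm_tp_Hyp` + the `σ`-triviality on `V_j`).
-/
import Mathlib
import Fermat.Agent.S44.Tor.ValLoc

set_option autoImplicit false
set_option linter.unusedSectionVars false
set_option linter.unusedVariables false

namespace Fermat.Agent.S44

open Fermat.Agent.JT3 Fermat.Agent.SS

section Auto

variable {A0 : Type*} [CommRing A0] {F0 : Type*} [Field F0] [Algebra A0 F0]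

/-- the dichotomy THROUGH / AWAY is automatic. -/
theorem s44tv_through_or_away (B : Subalgebra A0 F0) (π : A0) (𝔫 : Ideal B) (τ : F0 →+* F0)
    (V : ValuationSubring F0) (hBV : ∀ z ∈ B, z ∈ V) (hϖ0 : algebraMap A0 F0 π ≠ 0)
    (hunif : ∀ z ∈ V.nonunits, (algebraMap A0 F0 π)⁻¹ * z ∈ V)
    (hrank : ∀ z : F0, ∃ a : ℕ, algebraMap A0 F0 π ^ a * z ∈ V)
    (hτV : ∀ z ∈ V, ∃ c ∈ V, τ z - z = algebraMap A0 F0 π * c) :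
    s44tv_Through B π 𝔫 τ V ∨ s44tv_Away B π 𝔫 V := by
  by_cases h : ∀ s : B, s ∉ 𝔫 → (s : F0)⁻¹ ∈ V
  · exact Or.inl ⟨h, hτV⟩
  · push Not at h
    obtain ⟨s, hs, hsV⟩ := h
    refine Or.inr ⟨⟨s, hs, (algebraMap A0 F0 π)⁻¹ * (s : F0), ?_, ?_⟩, hrank⟩
    · apply hunif
      by_contra hn
      exact hsV (ssm_tp_inv_mem V hn)
    · rw [← mul_assoc, mul_inv_cancel₀ hϖ0, one_mul]

/-- **the local datum of `s44s_main` at one closed point**, dichotomy-free form. -/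
theorem s44tv_hloc_auto (B : Subalgebra A0 F0) (π : A0) (𝔫 : Ideal B) (h𝔫 : 𝔫.IsPrime)
    (hπ𝔫 : algebraMap A0 B π ∈ 𝔫) (τ : F0 →+* F0) {p e k : ℕ} (hp : p.Prime) (he : 0 < e)
    {lam u u' w : F0} (hu : u ∈ B) (hu' : u' ∈ B) (huu : u * u' = 1)
    (hlam : lam = algebraMap A0 F0 π ^ e * u) (hζ : (1 + lam) ^ p = 1) (hlam0 : lam ≠ 0)
    (hw : w ∈ B) (hpw : (p : F0) = lam * w) (hτlam : τ lam = (1 + lam) ^ k - 1)
    (hτB : ∀ z ∈ B, ∃ c ∈ B, τ z - z = algebraMap A0 F0 π * c)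
    (V₁ V₂ : ValuationSubring F0) (hBV₁ : ∀ z ∈ B, z ∈ V₁) (hBV₂ : ∀ z ∈ B, z ∈ V₂)
    (hϖV₁ : algebraMap A0 F0 π ∈ V₁.nonunits) (hϖV₂ : algebraMap A0 F0 π ∈ V₂.nonunits)
    (hO : ∀ y : F0, y ∈ V₁ → y ∈ V₂ → y ∈ sfc_O B.toSubring (algebraMap A0 F0 π))
    (hunif₁ : ∀ z ∈ V₁.nonunits, (algebraMap A0 F0 π)⁻¹ * z ∈ V₁)
    (hunif₂ : ∀ z ∈ V₂.nonunits, (algebraMap A0 F0 π)⁻¹ * z ∈ V₂)
    (hrank₁ : ∀ z : F0, ∃ a : ℕ, algebraMap A0 F0 π ^ a * z ∈ V₁)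
    (hrank₂ : ∀ z : F0, ∃ a : ℕ, algebraMap A0 F0 π ^ a * z ∈ V₂)
    (hτV₁ : ∀ z ∈ V₁, ∃ c ∈ V₁, τ z - z = algebraMap A0 F0 π * c)
    (hτV₂ : ∀ z ∈ V₂, ∃ c ∈ V₂, τ z - z = algebraMap A0 F0 π * c)
    {f G b D H : F0} {s : B} (hG : G ≠ 0) (hb₁ : b ∈ V₁) (hb₂ : b ∈ V₂)
    (hfG : f = G ^ p * (1 + algebraMap A0 F0 π ^ (p * e + 1) * b))
    (hD : D ≠ 0) (hs : s ∉ 𝔫) (hsH : (s : F0) * H ∈ B)
    (hfD : f = D ^ p * (1 + algebraMap A0 F0 π ^ (p * e) * H)) :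
    ∃ (b1 : B) (hh : F0), b1 ∉ 𝔫 ∧
      hh ^ p * (τ (1 + algebraMap A0 F0 π ^ (p * e + 1) * b) *
        ((1 + algebraMap A0 F0 π ^ (p * e + 1) * b) ^ k)⁻¹) ∈ B ∧
      ∃ y'' ∈ sfc_O B.toSubring (algebraMap A0 F0 π),
        hh - (b1 : F0) = algebraMap A0 F0 π ^ (e + 1) * y'' := by
  have hϖ0 : algebraMap A0 F0 π ≠ 0 := by
    intro h0
    apply hlam0
    rw [hlam, h0, zero_pow (Nat.pos_iff_ne_zero.1 he), zero_mul]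
  exact s44tv_hloc B π 𝔫 h𝔫 hπ𝔫 τ hp he hu hu' huu hlam hζ hlam0 hw hpw hτlam hτB V₁ V₂ hBV₁ hBV₂
    hϖV₁ hϖV₂ hO
    (s44tv_through_or_away B π 𝔫 τ V₁ hBV₁ hϖ0 hunif₁ hrank₁ hτV₁)
    (s44tv_through_or_away B π 𝔫 τ V₂ hBV₂ hϖ0 hunif₂ hrank₂ hτV₂)
    hG hb₁ hb₂ hfG hD hs hsH hfD

end Auto

end Fermat.Agent.S44
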