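/-
S44 project, cell [G3] = [TOR], (T-ASM): THE TRANSLATION OF `s44t_PData` INTO THE `lam, u, u', w`
BINDERS OF `s44tv_hloc` / `s44tv_hloc_auto` (helper13).  Prefix `s44tv_`.
-/
import Mathlib
import Fermat.Agent.S44.Tor.Defs

set_option autoImplicit false

namespace Fermat.Agent.S44

section PData

variable {A0 : Type*} [CommRing A0] {F0 : Type*} [Field F0] [Algebra A0 F0]

/-- **`s44t_PData` in `F0`**: `lam := ζ - 1`, `u` the unit of `ζ_sub`, `u' = u⁻¹`,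
`w := lam ^ (p - 2) u' ^ (p - 1) v` (so `p = lam w`); all four are images of elements of `A0`. -/
theorem s44tv_pdata {π : A0} {σ0 : A0 ≃+* A0} {p e k : ℕ} {ζ : A0}
    (D : s44t_PData π σ0 p e k ζ) (τ : F0 →+* F0)
    (hbase : ∀ a : A0, τ (algebraMap A0 F0 a) = algebraMap A0 F0 (σ0 a))
    (hϖ0 : algebraMap A0 F0 π ≠ 0) :
    ∃ U U' W : A0, U * U' = 1 ∧
      algebraMap A0 F0 U * algebraMap A0 F0 U' = 1 ∧
      algebraMap A0 F0 (ζ - 1) = algebraMap A0 F0 π ^ e * algebraMap A0 F0 U ∧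
      (1 + algebraMap A0 F0 (ζ - 1)) ^ p = 1 ∧
      algebraMap A0 F0 (ζ - 1) ≠ 0 ∧
      (p : F0) = algebraMap A0 F0 (ζ - 1) * algebraMap A0 F0 W ∧
      τ (algebraMap A0 F0 (ζ - 1)) = (1 + algebraMap A0 F0 (ζ - 1)) ^ k - 1 := by
  obtain ⟨U, hU⟩ := D.ζ_sub
  obtain ⟨v, hv⟩ := D.p_eq
  have hUU : (U : A0) * ((U⁻¹ : A0ˣ) : A0) = 1 := Units.mul_inv U
  have hUU' : algebraMap A0 F0 (U : A0) * algebraMap A0 F0 ((U⁻¹ : A0ˣ) : A0) = 1 := by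
    rw [← map_mul, hUU, map_one]
  have hζ1 : (1 : F0) + algebraMap A0 F0 (ζ - 1) = algebraMap A0 F0 ζ := by
    rw [map_sub, map_one]; ring
  have hlam : algebraMap A0 F0 (ζ - 1) = algebraMap A0 F0 π ^ e * algebraMap A0 F0 (U : A0) := by
    rw [hU, map_mul, map_pow]
  have hu0 : algebraMap A0 F0 (U : A0) ≠ 0 := left_ne_zero_of_mul_eq_one hUU'
  have hp2 : 2 ≤ p := D.prime.two_le
  refine ⟨U, ((U⁻¹ : A0ˣ) : A0), (ζ - 1) ^ (p - 2) * ((U⁻¹ : A0ˣ) : A0) ^ (p - 1) * (v : A0),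
    hUU, hUU', hlam, ?_, ?_, ?_, ?_⟩
  · rw [hζ1, ← map_pow, D.ζ_pow, map_one]
  · rw [hlam]
    exact mul_ne_zero (pow_ne_zero _ hϖ0) hu0
  · -- `p = lam · w`
    have h1 : ((p : A0)) = (ζ - 1) * ((ζ - 1) ^ (p - 2) * ((U⁻¹ : A0ˣ) : A0) ^ (p - 1) * (v : A0)) := by
      have h2 : (ζ - 1) * (ζ - 1) ^ (p - 2) = (ζ - 1) ^ (p - 1) := by
        rw [← pow_succ']
        congr 1
        omega
      have h3 : (ζ - 1) ^ (p - 1) * ((U⁻¹ : A0ˣ) : A0) ^ (p - 1) = π ^ ((p - 1) * e) := by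
        rw [hU, mul_pow, ← pow_mul, mul_assoc, ← mul_pow, hUU, one_pow, mul_one, mul_comm e]
      calc (p : A0) = π ^ ((p - 1) * e) * (v : A0) := hv
        _ = (ζ - 1) ^ (p - 1) * ((U⁻¹ : A0ˣ) : A0) ^ (p - 1) * (v : A0) := by rw [h3]
        _ = (ζ - 1) * ((ζ - 1) ^ (p - 2) * ((U⁻¹ : A0ˣ) : A0) ^ (p - 1) * (v : A0)) := by
            rw [← h2]; ring
    have h4 := congrArg (algebraMap A0 F0) h1
    rw [map_natCast, map_mul] at h4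
    exact h4
  · rw [hbase, map_sub, map_one, D.σζ, hζ1, map_sub, map_pow, map_one]

/-- the units `v, μ` of `s44s_main` from `s44t_PData`. -/
theorem s44tv_pdata_p {π : A0} {σ0 : A0 ≃+* A0} {p e k : ℕ} {ζ : A0}
    (D : s44t_PData π σ0 p e k ζ) :
    ∃ v μ : A0, (p : A0) = π ^ ((p - 1) * e) * v ∧ v * μ = 1 := by
  obtain ⟨v, hv⟩ := D.p_eq
  exact ⟨v, ((v⁻¹ : A0ˣ) : A0), hv, Units.mul_inv v⟩

end PData

end Fermat.Agent.S44
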